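import Mathlib
import Fermat.Prelude.Def_GaloisRep_Adic
import Fermat.Prelude.Def_GaloisRep_DeformationCondition

set_option autoImplicit false

namespace Fermat.Agent.S53

open IsLocalRing

/-- The absolute Galois group of the rationals. -/
abbrev GalQ : Type := AlgebraicClosure ℚ ≃ₐ[ℚ] AlgebraicClosure ℚ

/-- Push a `2 × 2` matrix representation forward along a ring homomorphism. -/
def mapHom {G : Type*} [Monoid G] {A B : Type*} [CommRing A] [CommRing B] (φ : A →+* B)
    (M : G →* Matrix (Fin 2) (Fin 2) A) : G →* Matrix (Fin 2) (Fin 2) B :=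
  ((φ.mapMatrix (m := Fin 2)).toMonoidHom).comp M

@[simp]
theorem mapHom_apply {G : Type*} [Monoid G] {A B : Type*} [CommRing A] [CommRing B] (φ : A →+* B)
    (M : G →* Matrix (Fin 2) (Fin 2) A) (g : G) : mapHom φ M g = (M g).map φ := rfl

/-- Adic continuity of a matrix representation of the Galois group over a local ring. -/
def MatCont {A : Type} [CommRing A] [IsLocalRing A] (M : GalQ →* Matrix (Fin 2) (Fin 2) A) :
    Prop :=
  ∀ n : ℕ, ∃ L : IntermediateField ℚ (AlgebraicClosure ℚ), FiniteDimensional ℚ L ∧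
    ∀ σ : GalQ, (∀ x ∈ L, σ x = x) → ∀ i j, (M σ - 1) i j ∈ maximalIdeal A ^ n

/-- `M` is a lift of the residual matrix representation `Mbar` to the local `𝒪`-algebra `A`:
every entry of `M σ` is congruent, modulo the maximal ideal, to the image of an element of `𝒪`
reducing to the corresponding entry of `Mbar σ`. -/
def IsLift (𝒪 : Type) [CommRing 𝒪] [IsLocalRing 𝒪] {A : Type} [CommRing A] [IsLocalRing A]
    [Algebra 𝒪 A] (Mbar : GalQ →* Matrix (Fin 2) (Fin 2) (ResidueField 𝒪))
    (M : GalQ →* Matrix (Fin 2) (Fin 2) A) : Prop :=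
  ∀ σ i j, ∃ o : 𝒪, residue 𝒪 o = Mbar σ i j ∧ M σ i j - algebraMap 𝒪 A o ∈ maximalIdeal A

/-- The `𝒪`-algebra structure on the dual numbers over the residue field that is used (through a
`letI`) in the frozen definition `GaloisRep.TangentFinite`. -/
@[reducible] noncomputable def dualAlgebra (𝒪 : Type) [CommRing 𝒪] [IsLocalRing 𝒪] :
    Algebra 𝒪 (DualNumber (ResidueField 𝒪)) :=
  ((algebraMap (ResidueField 𝒪) (DualNumber (ResidueField 𝒪))).comp
      (algebraMap 𝒪 (ResidueField 𝒪))).toAlgebra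

/-- A frame: a matrix form of the residual representation together with the elements used to
rigidify its lifts. -/
structure Frame (𝒪 : Type) [CommRing 𝒪] [IsLocalRing 𝒪] where
  /-- the residual representation in matrix form -/
  Mbar : GalQ →* Matrix (Fin 2) (Fin 2) (ResidueField 𝒪)
  /-- first rigidifying element -/
  g₁ : GalQ
  /-- second rigidifying element -/
  g₂ : GalQ
  /-- a lift to `𝒪` of the `(0, 0)` entry of `Mbar g₂` -/
  s₀ : 𝒪

/-- A normalised lift of the residual matrix representation of a frame. -/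
def Frame.IsNormLift {𝒪 : Type} [CommRing 𝒪] [IsLocalRing 𝒪] (F : Frame 𝒪) {A : Type} [CommRing A]
    [IsLocalRing A] [Algebra 𝒪 A] (M : GalQ →* Matrix (Fin 2) (Fin 2) A) : Prop :=
  IsLift 𝒪 F.Mbar M ∧ M F.g₁ 0 0 = 0 ∧ M F.g₁ 1 0 = 1 ∧ M F.g₂ 0 0 = algebraMap 𝒪 A F.s₀

end Fermat.Agent.S53
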