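import Mathlib
import Fermat.Agent.S53.Base

set_option autoImplicit false

namespace Fermat.Agent.S53

open IsLocalRing

namespace Dict

theorem mem_smul_top_pi {A : Type} [CommRing A] (I : Ideal A) (v : Fin 2 → A)
    (hv : ∀ i, v i ∈ I) : v ∈ I • (⊤ : Submodule A (Fin 2 → A)) := by
  have : v = v 0 • (Pi.single 0 1 : Fin 2 → A) + v 1 • (Pi.single 1 1 : Fin 2 → A) := by
    ext i; fin_cases i <;> simp
  rw [this]
  exact Submodule.add_mem _ (Submodule.smul_mem_smul (hv 0) Submodule.mem_top)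
    (Submodule.smul_mem_smul (hv 1) Submodule.mem_top)

theorem repr_mem_of_mem_smul_top {A : Type} [CommRing A] {V : Type} [AddCommGroup V] [Module A V]
    (b : Module.Basis (Fin 2) A V) (I : Ideal A) (x : V)
    (hx : x ∈ I • (⊤ : Submodule A V)) (i : Fin 2) : b.repr x i ∈ I := by
  refine Submodule.smul_induction_on hx ?_ ?_
  · intro r hr w _
    simpa using Ideal.mul_mem_right _ _ hr
  · intro x y hx hy
    simpa using Ideal.add_mem _ hx hy

theorem mul_mul_mem {A : Type} [CommRing A] (I : Ideal A) (U X W : Matrix (Fin 2) (Fin 2) A)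
    (hX : ∀ i j, X i j ∈ I) (i j : Fin 2) : (U * X * W) i j ∈ I := by
  simp only [Matrix.mul_apply, Fin.sum_univ_two]
  refine Ideal.add_mem _ (Ideal.mul_mem_right _ _ (Ideal.add_mem _ ?_ ?_))
    (Ideal.mul_mem_right _ _ (Ideal.add_mem _ ?_ ?_)) <;>
  exact Ideal.mul_mem_left _ _ (hX _ _)

theorem piScalarRight_baseChange {A B : Type} [CommRing A] [CommRing B] [Algebra A B]
    (N : Matrix (Fin 2) (Fin 2) A) (x : TensorProduct A B (Fin 2 → A)) :
    TensorProduct.piScalarRight A B B (Fin 2) ((Matrix.toLin' N).baseChange B x) =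
      Matrix.toLin' (N.map (algebraMap A B)) (TensorProduct.piScalarRight A B B (Fin 2) x) := by
  induction x using TensorProduct.induction_on with
  | zero => simp only [map_zero]
  | tmul b v =>
    rw [LinearMap.baseChange_tmul, TensorProduct.piScalarRight_apply,
      TensorProduct.piScalarRightHom_tmul, TensorProduct.piScalarRight_apply,
      TensorProduct.piScalarRightHom_tmul]
    ext i
    simp only [Matrix.toLin'_apply, Matrix.mulVec, dotProduct, Fin.sum_univ_two, Matrix.map_apply,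
      Algebra.smul_def, map_add, map_mul]
    ring
  | add x y hx hy => simp only [map_add, hx, hy]

end Dict

section

variable {A : Type} [CommRing A] [IsLocalRing A]

/-- The adic Galois representation on `A²` attached to a continuous matrix representation. -/
noncomputable def ofMatrix (M : GalQ →* Matrix (Fin 2) (Fin 2) A) (hM : MatCont M) :
    GaloisRepAdic A where
  V := Fin 2 → A
  finrank_eq := by simp
  ρ :=
    { toFun := fun σ => Matrix.toLin' (M σ)
      map_one' := by rw [map_one, Matrix.toLin'_one]; rfl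
      map_mul' := fun σ τ => by rw [map_mul, Matrix.toLin'_mul]; rfl }
  isAdicContinuous := by
    intro n
    obtain ⟨L, hL, h⟩ := hM n
    refine ⟨L, hL, fun σ hσ v => ?_⟩
    apply Dict.mem_smul_top_pi
    intro i
    have e : (Matrix.toLin' (M σ) v - v) i = ∑ j, (M σ - 1) i j * v j := by
      have h1 : Matrix.toLin' (M σ) v - v = Matrix.toLin' (M σ - 1) v := by
        rw [map_sub, Matrix.toLin'_one]; rfl
      rw [h1, Matrix.toLin'_apply]
      rfl
    change (Matrix.toLin' (M σ) v - v) i ∈ _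
    rw [e]
    exact Ideal.sum_mem _ fun j _ => Ideal.mul_mem_right _ _ (h σ hσ i j)

theorem ofMatrix_apply (M : GalQ →* Matrix (Fin 2) (Fin 2) A) (hM : MatCont M) (σ : GalQ) :
    (ofMatrix M hM).ρ σ = Matrix.toLin' (M σ) := rfl

theorem ofMatrix_trace (M : GalQ →* Matrix (Fin 2) (Fin 2) A) (hM : MatCont M) (σ : GalQ) :
    (ofMatrix M hM).trace σ = (M σ).trace := by
  change LinearMap.trace A (Fin 2 → A) (Matrix.toLin' (M σ)) = (M σ).trace
  rw [LinearMap.trace_eq_matrix_trace A (Pi.basisFun A (Fin 2)), LinearMap.toMatrix_eq_toMatrix',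
    LinearMap.toMatrix'_toLin']

theorem trace_baseChangeAlong {B : Type} [CommRing B] [IsLocalRing B] (φ : A →+* B)
    (hφ : IsLocalHom φ) (ρ : GaloisRepAdic A) (σ : GalQ) :
    (ρ.baseChangeAlong φ hφ).trace σ = φ (ρ.trace σ) := by
  let _ : Algebra A B := φ.toAlgebra
  change LinearMap.trace B (TensorProduct A B ρ.V) ((ρ.ρ σ).baseChange B) = _
  rw [LinearMap.trace_baseChange]
  rfl

theorem trace_eq_of_isEquiv {ρ ρ' : GaloisRepAdic A} (h : ρ.IsEquiv ρ') (σ : GalQ) :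
    ρ.trace σ = ρ'.trace σ := by
  obtain ⟨e⟩ := h
  have h1 : ρ'.ρ σ = e.toLinearEquiv.conj (ρ.ρ σ) := by
    apply LinearMap.ext
    intro x
    rw [LinearEquiv.conj_apply_apply, e.map_apply, LinearEquiv.apply_symm_apply]
  change LinearMap.trace A ρ.V (ρ.ρ σ) = LinearMap.trace A ρ'.V (ρ'.ρ σ)
  rw [h1, LinearMap.trace_conj']

/-- Matrix form of a representation in a basis. -/
noncomputable def toMat (ρ : GaloisRepAdic A) (b : Module.Basis (Fin 2) A ρ.V) :
    GalQ →* Matrix (Fin 2) (Fin 2) A :=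
  (LinearMap.toMatrixAlgEquiv b : Module.End A ρ.V →* Matrix (Fin 2) (Fin 2) A).comp ρ.ρ

theorem toMat_apply (ρ : GaloisRepAdic A) (b : Module.Basis (Fin 2) A ρ.V) (g : GalQ)
    (i j : Fin 2) : toMat ρ b g i j = b.repr (ρ.ρ g (b j)) i :=
  LinearMap.toMatrixAlgEquiv_apply b (ρ.ρ g) i j

theorem toMat_cont (ρ : GaloisRepAdic A) (b : Module.Basis (Fin 2) A ρ.V) :
    MatCont (toMat ρ b) := by
  intro n
  obtain ⟨L, hL, h⟩ := ρ.isAdicContinuous n
  refine ⟨L, hL, fun σ hσ i j => ?_⟩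
  have e : (toMat ρ b σ - 1) i j = b.repr (ρ.ρ σ (b j) - b j) i := by
    rw [Matrix.sub_apply, toMat_apply, map_sub, Finsupp.sub_apply, Matrix.one_apply,
      Module.Basis.repr_self, Finsupp.single_apply]
    congr 1
    simp [eq_comm]
  rw [e]
  exact Dict.repr_mem_of_mem_smul_top b _ _ (h σ hσ (b j)) i

theorem isEquiv_ofMatrix_toMat (ρ : GaloisRepAdic A) (b : Module.Basis (Fin 2) A ρ.V) :
    ρ.IsEquiv (ofMatrix (toMat ρ b) (toMat_cont ρ b)) := by
  refine ⟨⟨b.equivFun, fun σ x => ?_⟩⟩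
  change b.equivFun (ρ.ρ σ x) = Matrix.toLin' (toMat ρ b σ) (b.equivFun x)
  rw [Matrix.toLin'_apply]
  exact (LinearMap.toMatrix_mulVec_repr b b (ρ.ρ σ) x).symm

/-- Every adic representation is equivalent to one given by matrices. -/
theorem exists_isEquiv_ofMatrix (ρ : GaloisRepAdic A) :
    ∃ (M : GalQ →* Matrix (Fin 2) (Fin 2) A) (hM : MatCont M), ρ.IsEquiv (ofMatrix M hM) :=
  ⟨toMat ρ (Module.finBasisOfFinrankEq A ρ.V ρ.finrank_eq), toMat_cont ρ _,
    isEquiv_ofMatrix_toMat ρ _⟩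

theorem MatCont.conj {M M' : GalQ →* Matrix (Fin 2) (Fin 2) A} (hM : MatCont M)
    (U : (Matrix (Fin 2) (Fin 2) A)ˣ)
    (h : ∀ σ, M' σ = (U : Matrix (Fin 2) (Fin 2) A) * M σ *
      ((U⁻¹ : (Matrix (Fin 2) (Fin 2) A)ˣ) : Matrix (Fin 2) (Fin 2) A)) : MatCont M' := by
  intro n
  obtain ⟨L, hL, hL'⟩ := hM n
  refine ⟨L, hL, fun σ hσ i j => ?_⟩
  have e : M' σ - 1 = (U : Matrix (Fin 2) (Fin 2) A) * (M σ - 1) *
      ((U⁻¹ : (Matrix (Fin 2) (Fin 2) A)ˣ) : Matrix (Fin 2) (Fin 2) A) := by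
    rw [h σ, mul_sub, sub_mul, mul_one, Units.mul_inv]
  rw [e]
  exact Dict.mul_mul_mem _ _ _ _ (hL' σ hσ) i j

/-- An invertible intertwining matrix yields an equivalence of matrix representations. -/
theorem isEquiv_of_intertwiner (M M' : GalQ →* Matrix (Fin 2) (Fin 2) A) (hM : MatCont M)
    (hM' : MatCont M') (Q : Matrix (Fin 2) (Fin 2) A) (hQ : IsUnit Q.det)
    (h : ∀ g, Q * M g = M' g * Q) : (ofMatrix M hM).IsEquiv (ofMatrix M' hM') := by
  have hQ' : IsUnit Q := (Matrix.isUnit_iff_isUnit_det Q).mpr hQ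
  refine ⟨⟨Matrix.toLinearEquiv' Q (by
    haveI : Invertible Q := hQ'.invertible
    infer_instance), fun g x => ?_⟩⟩
  change Matrix.toLin' Q (Matrix.toLin' (M g) x) = Matrix.toLin' (M' g) (Matrix.toLin' Q x)
  rw [← Matrix.toLin'_mul_apply, ← Matrix.toLin'_mul_apply, h g]

/-- An equivalence of matrix representations yields an invertible intertwining matrix. -/
theorem exists_intertwiner_of_isEquiv (M M' : GalQ →* Matrix (Fin 2) (Fin 2) A) (hM : MatCont M)
    (hM' : MatCont M') (h : (ofMatrix M hM).IsEquiv (ofMatrix M' hM')) :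
    ∃ Q : Matrix (Fin 2) (Fin 2) A, IsUnit Q.det ∧ ∀ g, Q * M g = M' g * Q := by
  obtain ⟨e⟩ := h
  let E : (Fin 2 → A) ≃ₗ[A] (Fin 2 → A) := e.toLinearEquiv
  refine ⟨LinearMap.toMatrix' E.toLinearMap, ?_, fun g => ?_⟩
  · have h1 : LinearMap.toMatrix' E.toLinearMap * LinearMap.toMatrix' E.symm.toLinearMap = 1 := by
      rw [← LinearMap.toMatrix'_comp]
      simp
    exact Matrix.isUnit_det_of_right_inverse h1
  · have h2 : E.toLinearMap ∘ₗ Matrix.toLin' (M g) = Matrix.toLin' (M' g) ∘ₗ E.toLinearMap := by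
      apply LinearMap.ext
      intro x
      exact e.map_apply g x
    have h3 := congrArg LinearMap.toMatrix' h2
    rwa [LinearMap.toMatrix'_comp, LinearMap.toMatrix'_comp, LinearMap.toMatrix'_toLin',
      LinearMap.toMatrix'_toLin'] at h3

theorem ofMatrix_isEquiv_of_conj {M M' : GalQ →* Matrix (Fin 2) (Fin 2) A} (hM : MatCont M)
    (hM' : MatCont M') (U : (Matrix (Fin 2) (Fin 2) A)ˣ)
    (h : ∀ σ, M' σ = (U : Matrix (Fin 2) (Fin 2) A) * M σ *
      ((U⁻¹ : (Matrix (Fin 2) (Fin 2) A)ˣ) : Matrix (Fin 2) (Fin 2) A)) :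
    (ofMatrix M hM).IsEquiv (ofMatrix M' hM') := by
  refine isEquiv_of_intertwiner M M' hM hM' U ?_ fun g => ?_
  · exact (Matrix.isUnit_iff_isUnit_det _).mp U.isUnit
  · rw [h g, mul_assoc, mul_assoc, Units.inv_mul, mul_one]

theorem exists_conj_of_ofMatrix_isEquiv {M M' : GalQ →* Matrix (Fin 2) (Fin 2) A}
    (hM : MatCont M) (hM' : MatCont M') (h : (ofMatrix M hM).IsEquiv (ofMatrix M' hM')) :
    ∃ U : (Matrix (Fin 2) (Fin 2) A)ˣ, ∀ σ, M' σ = (U : Matrix (Fin 2) (Fin 2) A) * M σ *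
      ((U⁻¹ : (Matrix (Fin 2) (Fin 2) A)ˣ) : Matrix (Fin 2) (Fin 2) A) := by
  obtain ⟨Q, hQ, hQ'⟩ := exists_intertwiner_of_isEquiv M M' hM hM' h
  obtain ⟨U, rfl⟩ := (Matrix.isUnit_iff_isUnit_det Q).mpr hQ
  refine ⟨U, fun σ => ?_⟩
  rw [hQ' σ, mul_assoc, Units.mul_inv, mul_one]

theorem MatCont.map {B : Type} [CommRing B] [IsLocalRing B] {M : GalQ →* Matrix (Fin 2) (Fin 2) A}
    (hM : MatCont M) (φ : A →+* B) (hφ : IsLocalHom φ) : MatCont (mapHom φ M) := by
  intro n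
  obtain ⟨L, hL, hL'⟩ := hM n
  refine ⟨L, hL, fun σ hσ i j => ?_⟩
  have hmap : (maximalIdeal A ^ n).map φ ≤ maximalIdeal B ^ n := by
    rw [Ideal.map_pow]
    exact Ideal.pow_right_mono (Ideal.map_le_iff_le_comap.mpr fun a ha =>
      Ideal.mem_comap.mpr (haveI := hφ; map_nonunit φ a ha)) n
  have e : (mapHom φ M σ - 1) i j = φ ((M σ - 1) i j) := by
    rw [mapHom_apply, Matrix.sub_apply, Matrix.sub_apply, map_sub, Matrix.map_apply,
      Matrix.one_apply, Matrix.one_apply]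
    split_ifs <;> simp
  rw [e]
  exact hmap (Ideal.mem_map_of_mem φ (hL' σ hσ i j))

/-- Base change of a matrix representation is given by applying the ring map entrywise. -/
theorem baseChangeAlong_ofMatrix_isEquiv {B : Type} [CommRing B] [IsLocalRing B] (φ : A →+* B)
    (hφ : IsLocalHom φ) (M : GalQ →* Matrix (Fin 2) (Fin 2) A) (hM : MatCont M)
    (hM' : MatCont (mapHom φ M)) :
    ((ofMatrix M hM).baseChangeAlong φ hφ).IsEquiv (ofMatrix (mapHom φ M) hM') := by
  let _ : Algebra A B := φ.toAlgebra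
  exact ⟨⟨TensorProduct.piScalarRight A B B (Fin 2), fun σ x =>
    Dict.piScalarRight_baseChange (M σ) x⟩⟩

/-- Transitivity and symmetry of `IsEquiv`, for convenience. -/
theorem isEquiv_trans {ρ₁ ρ₂ ρ₃ : GaloisRepAdic A} (h : ρ₁.IsEquiv ρ₂) (h' : ρ₂.IsEquiv ρ₃) :
    ρ₁.IsEquiv ρ₃ := by
  obtain ⟨e⟩ := h
  obtain ⟨e'⟩ := h'
  exact ⟨e.trans e'⟩

theorem isEquiv_symm {ρ₁ ρ₂ : GaloisRepAdic A} (h : ρ₁.IsEquiv ρ₂) : ρ₂.IsEquiv ρ₁ := by
  obtain ⟨e⟩ := h
  exact ⟨e.symm⟩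

end

end Fermat.Agent.S53
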