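import Mathlib
import Fermat.Prelude.Def_GaloisRep_Adic

set_option autoImplicit false

namespace FermatAgent.S53

open IsLocalRing

/-- The absolute Galois group of `ℚ`. -/
abbrev Gal : Type := AlgebraicClosure ℚ ≃ₐ[ℚ] AlgebraicClosure ℚ

variable (𝒪 : Type) [CommRing 𝒪] [IsLocalRing 𝒪]

/-- Residual rigidification data: a basis in which `ρbar g₁` is in companion form and
`ρbar g₂` satisfies a non-commutation condition. -/
structure Frame (ρbar : ResidualGaloisRep (ResidueField 𝒪)) : Type where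
  g₁ : Gal
  g₂ : Gal
  b : Module.Basis (Fin 2) (ResidueField 𝒪) ρbar.V
  N : Gal →* Matrix (Fin 2) (Fin 2) (ResidueField 𝒪)
  hN : ∀ g, N g = LinearMap.toMatrix b b (ρbar.ρ g)
  h00 : N g₁ 0 0 = 0
  h10 : N g₁ 1 0 = 1
  hne : N g₂ 0 1 - N g₁ 0 1 * N g₂ 1 0 ≠ 0
  s₀ : 𝒪
  hs₀ : residue 𝒪 s₀ = N g₂ 0 0

end FermatAgent.S53
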