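import Mathlib
import Fermat.Agent.S53.Defs

set_option autoImplicit false

namespace FermatAgent.S53

open IsLocalRing

namespace FrameExists

open scoped TensorProduct

theorem mat_aux {k : Type} [Field k] (G G' D : Matrix (Fin 2) (Fin 2) k)
    (h00 : G 0 0 = 0) (h10 : G 1 0 = 1) (hG : G * G' = 1) (hnc : D * G ≠ G * D) :
    D 0 1 - G 0 1 * D 1 0 ≠ 0 ∨ (D * G) 0 1 - G 0 1 * (D * G) 1 0 ≠ 0 := by
  have hq : G 0 1 ≠ 0 := by
    intro hq
    have h := congrArg Matrix.det hG
    rw [Matrix.det_mul, Matrix.det_fin_two, h00, hq] at h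
    simp at h
  by_contra hcon
  push Not at hcon
  obtain ⟨h1, h2⟩ := hcon
  simp only [Matrix.mul_apply, Fin.sum_univ_two, h00, h10] at h2
  apply hnc
  have h3 : D 0 0 - D 1 1 + G 1 1 * D 1 0 = 0 := by
    have h4 : G 0 1 * (D 0 0 - D 1 1 + G 1 1 * D 1 0) = G 0 1 * 0 := by
      linear_combination h2 - G 1 1 * h1
    exact mul_left_cancel₀ hq h4
  ext i j
  fin_cases i <;> fin_cases j <;>
    simp only [Matrix.mul_apply, Fin.sum_univ_two, h00, h10, Fin.zero_eta, Fin.mk_one]
  · linear_combination h1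
  · linear_combination h2
  · linear_combination (-1 : k) * h3
  · linear_combination (-1 : k) * h1

theorem exists_indep {k : Type} [Field k] (ρbar : ResidualGaloisRep k)
    (habs : ρbar.IsAbsolutelyIrreducible) :
    ∃ (g : Gal) (v : ρbar.V), LinearIndependent k ![v, ρbar.ρ g v] := by
  by_contra hcon
  push Not at hcon
  have hnt : Nontrivial ρbar.V :=
    Module.nontrivial_of_finrank_pos (R := k) (by rw [ρbar.finrank_eq]; norm_num)
  obtain ⟨v₀, hv₀⟩ := exists_ne (0 : ρbar.V)
  let K := AlgebraicClosure k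
  let x₀ : K ⊗[k] ρbar.V := (1 : K) ⊗ₜ[k] v₀
  have hx₀ : x₀ ≠ 0 := by
    intro h
    apply hv₀
    apply Module.FaithfullyFlat.tensorProduct_mk_injective (A := k) (B := K) ρbar.V
    rw [map_zero]
    exact h
  rcases habs (Submodule.span K {x₀}) (by
    intro σ x hx
    obtain ⟨c, rfl⟩ := Submodule.mem_span_singleton.mp hx
    have h := hcon σ v₀
    rw [LinearIndependent.pair_iff' hv₀] at h
    push Not at h
    obtain ⟨a, ha⟩ := h
    change (ρbar.ρ σ).baseChange K (c • x₀) ∈ _
    rw [map_smul]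
    apply Submodule.smul_mem
    change (ρbar.ρ σ).baseChange K ((1 : K) ⊗ₜ[k] v₀) ∈ _
    rw [LinearMap.baseChange_tmul, ← ha, TensorProduct.tmul_smul, ← algebraMap_smul K a]
    exact Submodule.smul_mem _ _ (Submodule.mem_span_singleton_self _)) with h | h
  · exact hx₀ (Submodule.span_singleton_eq_bot.mp h)
  · have h1 : Module.finrank K (Submodule.span K {x₀}) = 1 := finrank_span_singleton hx₀
    rw [h, finrank_top, Module.finrank_baseChange, ρbar.finrank_eq] at h1
    norm_num at h1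

theorem exists_noncomm {k : Type} [Field k] (ρbar : ResidualGaloisRep k)
    (habs : ρbar.IsAbsolutelyIrreducible) (C : Module.End k ρbar.V) (v : ρbar.V)
    (hli : LinearIndependent k ![v, C v]) :
    ∃ g : Gal, ρbar.ρ g * C ≠ C * ρbar.ρ g := by
  by_contra hcon
  push Not at hcon
  let K := AlgebraicClosure k
  let b : Module.Basis (Fin 2) k ρbar.V :=
    basisOfLinearIndependentOfCardEqFinrank hli (by simp [ρbar.finrank_eq])
  have hb0 : b 0 = v := by simp [b]
  have hb1 : b 1 = C v := by simp [b]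
  let bK : Module.Basis (Fin 2) K (K ⊗[k] ρbar.V) := Algebra.TensorProduct.basis K b
  have hnt : Nontrivial (K ⊗[k] ρbar.V) :=
    Module.nontrivial_of_finrank_pos (R := K)
      (by rw [Module.finrank_baseChange, ρbar.finrank_eq]; norm_num)
  obtain ⟨μ, hμ⟩ := Module.End.exists_eigenvalue (C.baseChange K)
  rcases habs (Module.End.eigenspace (C.baseChange K) μ) (by
    intro σ x hx
    rw [Module.End.mem_eigenspace_iff] at hx ⊢
    change C.baseChange K ((ρbar.ρ σ).baseChange K x) = μ • (ρbar.ρ σ).baseChange K x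
    rw [← map_smul, ← hx, ← Module.End.mul_apply, ← Module.End.mul_apply,
      ← LinearMap.baseChange_mul, ← LinearMap.baseChange_mul, hcon σ]) with h | h
  · exact Module.End.hasEigenvalue_iff.mp hμ h
  · have h1 : bK 0 ∈ Module.End.eigenspace (C.baseChange K) μ := by rw [h]; trivial
    rw [Module.End.mem_eigenspace_iff, Algebra.TensorProduct.basis_apply,
      LinearMap.baseChange_tmul, hb0, ← hb1, ← Algebra.TensorProduct.basis_apply (A := K) b,
      ← hb0, ← Algebra.TensorProduct.basis_apply (A := K) b] at h1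
    have h2 := congrArg (fun x => bK.repr x 1) h1
    simp [bK] at h2

end FrameExists

open FrameExists in
theorem exists_frame (𝒪 : Type) [CommRing 𝒪] [IsLocalRing 𝒪]
    (ρbar : ResidualGaloisRep (ResidueField 𝒪)) (habs : ρbar.IsAbsolutelyIrreducible) :
    Nonempty (Frame 𝒪 ρbar) := by
  obtain ⟨g₁, v, hli⟩ := exists_indep ρbar habs
  obtain ⟨g, hg⟩ := exists_noncomm ρbar habs (ρbar.ρ g₁) v hli
  let b : Module.Basis (Fin 2) (ResidueField 𝒪) ρbar.V :=
    basisOfLinearIndependentOfCardEqFinrank hli (by simp [ρbar.finrank_eq])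
  have hb0 : b 0 = v := by simp [b]
  have hb1 : b 1 = ρbar.ρ g₁ v := by simp [b]
  let N : Gal →* Matrix (Fin 2) (Fin 2) (ResidueField 𝒪) :=
    ((LinearMap.toMatrixAlgEquiv b : Module.End (ResidueField 𝒪) ρbar.V →*
      Matrix (Fin 2) (Fin 2) (ResidueField 𝒪))).comp ρbar.ρ
  have hN : ∀ g, N g = LinearMap.toMatrix b b (ρbar.ρ g) := fun g => rfl
  have h00 : N g₁ 0 0 = 0 := by
    rw [hN, LinearMap.toMatrix_apply, hb0, ← hb1]; simp
  have h10 : N g₁ 1 0 = 1 := by
    rw [hN, LinearMap.toMatrix_apply, hb0, ← hb1]; simp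
  have hnc : N g * N g₁ ≠ N g₁ * N g := by
    intro h
    apply hg
    apply (LinearMap.toMatrixAlgEquiv b).injective
    rw [map_mul, map_mul]
    exact h
  rcases mat_aux (N g₁) (N g₁⁻¹) (N g) h00 h10
    (by rw [← map_mul, mul_inv_cancel, map_one]) hnc with h | h
  · obtain ⟨s₀, hs₀⟩ := residue_surjective (N g 0 0)
    exact ⟨⟨g₁, g, b, N, hN, h00, h10, h, s₀, hs₀⟩⟩
  · rw [← map_mul] at h
    obtain ⟨s₀, hs₀⟩ := residue_surjective (N (g * g₁) 0 0)
    exact ⟨⟨g₁, g * g₁, b, N, hN, h00, h10, h, s₀, hs₀⟩⟩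

end FermatAgent.S53
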