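import Mathlib

set_option autoImplicit false

namespace FermatAgent.S53

open Matrix IsLocalRing

variable {A : Type*} [CommRing A]

/-- Uniqueness of normalised forms: an intertwiner between two normalised pairs is scalar. -/
theorem intertwiner_scalar (C C' D D' Q : Matrix (Fin 2) (Fin 2) A)
    (hC' : C' 0 0 = 0 ∧ C' 1 0 = 1) (hC : C 0 0 = 0 ∧ C 1 0 = 1)
    (hQC : Q * C = C' * Q) (hQD : Q * D = D' * Q) (hD : D' 0 0 = D 0 0)
    (hu : IsUnit (D' 0 1 - C' 0 1 * D 1 0)) :
    Q = Q 0 0 • (1 : Matrix (Fin 2) (Fin 2) A) := by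
  have h00 := congrFun (congrFun hQC 0) 0
  have h10 := congrFun (congrFun hQC 1) 0
  have hd := congrFun (congrFun hQD 0) 0
  simp only [Matrix.mul_apply, Fin.sum_univ_two] at h00 h10 hd
  rw [hC.1, hC.2] at h00 h10
  rw [hC'.1] at h00
  rw [hC'.2] at h10
  have hy : Q 1 0 * (D' 0 1 - C' 0 1 * D 1 0) = 0 := by
    rw [hD] at hd
    linear_combination (-1 : A) * hd + D 1 0 * h00
  have hy0 : Q 1 0 = 0 := by
    obtain ⟨u, hu⟩ := hu
    rw [← hu] at hy
    exact (Units.mul_left_eq_zero u).mp hy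
  ext i j
  fin_cases i <;> fin_cases j
  · simp
  · simp
    rw [hy0] at h00
    linear_combination h00
  · simp [hy0]
  · simp
    rw [hy0] at h10
    linear_combination h10

open Polynomial in
/-- Hensel's lemma for a quadratic with unit linear coefficient and small constant term. -/
theorem exists_root_quadratic [IsLocalRing A] [HenselianRing A (maximalIdeal A)]
    (α β γ : A) (hβ : IsUnit β) (hγ : γ ∈ maximalIdeal A) :
    ∃ y ∈ maximalIdeal A, α * y ^ 2 + β * y + γ = 0 := by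
  have hmonic : (X ^ 2 + C β * X + C (α * γ) : A[X]).Monic := by
    have : (X ^ 2 + C β * X + C (α * γ) : A[X]) = X ^ 2 + (C β * X + C (α * γ)) := by ring
    rw [this]
    apply monic_X_pow_add
    compute_degree
    norm_num
  obtain ⟨Y, hY, hY0⟩ := HenselianRing.is_henselian (R := A) (I := maximalIdeal A)
    (X ^ 2 + C β * X + C (α * γ)) hmonic 0
    (by simpa using Ideal.mul_mem_left _ α hγ)
    (by
      simp only [derivative_add, derivative_X_pow, derivative_mul, derivative_C, derivative_X,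
        eval_add, eval_mul, eval_C, eval_X, eval_pow]
      simp only [Nat.cast_ofNat, Nat.add_one_sub_one, pow_one, map_mul,
        zero_add, add_zero, mul_zero, eval_zero]
      rw [eval_one, map_one, mul_one]
      exact hβ.map (Ideal.Quotient.mk (maximalIdeal A)))
  rw [sub_zero] at hY0
  rw [IsRoot.def] at hY
  simp only [eval_add, eval_mul, eval_C, eval_X, eval_pow] at hY
  have hunit : IsUnit (β + Y) := by
    by_contra h
    have h1 : β + Y ∈ maximalIdeal A := (IsLocalRing.mem_maximalIdeal _).mpr h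
    have h2 : β ∈ maximalIdeal A := by
      have := Ideal.sub_mem _ h1 hY0
      simpa using this
    exact (IsLocalRing.mem_maximalIdeal _).mp h2 hβ
  obtain ⟨u, hu⟩ := hunit
  refine ⟨-γ * ↑u⁻¹, Ideal.mul_mem_right _ _ ((Ideal.neg_mem_iff _).mpr hγ), ?_⟩
  have hu1 : (β + Y) * ↑u⁻¹ = 1 := by rw [← hu]; exact u.mul_inv
  have hY1 : Y = α * (-γ * ↑u⁻¹) := by
    have : Y * ((β + Y) * ↑u⁻¹) = -(α * γ) * ↑u⁻¹ := by
      linear_combination (↑u⁻¹ : A) * hY
    rw [hu1, mul_one] at this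
    rw [this]; ring
  have h3 : (-γ * ↑u⁻¹) * (β + Y) + γ = 0 := by
    linear_combination (-γ) * hu1
  rw [hY1] at h3
  linear_combination h3

theorem isUnit_of_sub_mem [IsLocalRing A] {x y : A} (hx : IsUnit x)
    (h : y - x ∈ maximalIdeal A) : IsUnit y := by
  by_contra hy
  have h1 : y ∈ maximalIdeal A := (IsLocalRing.mem_maximalIdeal _).mpr hy
  have h2 : x ∈ maximalIdeal A := by
    have := Ideal.sub_mem _ h1 h
    simpa using this
  exact (IsLocalRing.mem_maximalIdeal _).mp h2 hx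

/-- Existence of a normalising change of basis, congruent to the identity. -/
theorem exists_normalizer [IsLocalRing A] [HenselianRing A (maximalIdeal A)]
    (M₁ M₂ : Matrix (Fin 2) (Fin 2) A) (s : A)
    (h1 : M₁ 0 0 ∈ maximalIdeal A) (h2 : M₁ 1 0 - 1 ∈ maximalIdeal A)
    (h3 : M₂ 0 0 - s ∈ maximalIdeal A)
    (hu : IsUnit (M₂ 0 1 - M₁ 0 1 * M₂ 1 0)) :
    ∃ P : Matrix (Fin 2) (Fin 2) A, IsUnit P.det ∧
      (∀ i j, (P - 1) i j ∈ maximalIdeal A) ∧
      ∃ C D : Matrix (Fin 2) (Fin 2) A, M₁ * P = P * C ∧ M₂ * P = P * D ∧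
        C 0 0 = 0 ∧ C 1 0 = 1 ∧ D 0 0 = s := by
  set p := M₁ 0 0 with hp
  set q := M₁ 0 1 with hq
  set r := M₁ 1 0 with hr
  set t := M₁ 1 1 with ht
  set a := M₂ 0 0 with ha
  set b := M₂ 0 1 with hb
  set c := M₂ 1 0 with hc
  set d := M₂ 1 1 with hd
  have hM₁ : M₁ = !![p, q; r, t] := by
    ext i j; fin_cases i <;> fin_cases j <;> rfl
  have hM₂ : M₂ = !![a, b; c, d] := by
    ext i j; fin_cases i <;> fin_cases j <;> rfl
  set U₁ := (a - s) * p + b * r with hU₁
  set U₂ := c * p + (d - s) * r with hU₂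
  set V₁ := p ^ 2 + q * r with hV₁
  set V₂ := r * p + t * r with hV₂
  set γ := (a - s) * r - c * p with hγ
  set β := (a - s) * V₂ + U₁ * r - c * V₁ - U₂ * p with hβ
  set α := U₁ * V₂ - U₂ * V₁ with hα
  have hγm : γ ∈ maximalIdeal A :=
    Ideal.sub_mem _ (Ideal.mul_mem_right _ _ h3) (Ideal.mul_mem_left _ _ h1)
  have hβu : IsUnit β := by
    refine isUnit_of_sub_mem hu ?_
    have e : β - (b - q * c) = (a - s) * V₂ + ((a - s) * p * r + b * (r - 1) * (r + 1))
        - c * (p ^ 2 + q * (r - 1)) - U₂ * p := by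
      rw [hβ, hU₁, hV₁]; ring
    rw [e]
    refine Ideal.sub_mem _ (Ideal.sub_mem _ (Ideal.add_mem _ (Ideal.mul_mem_right _ _ h3)
      (Ideal.add_mem _ (Ideal.mul_mem_right _ _ (Ideal.mul_mem_right _ _ h3))
        (Ideal.mul_mem_right _ _ (Ideal.mul_mem_left _ _ h2)))) ?_) (Ideal.mul_mem_left _ _ h1)
    refine Ideal.mul_mem_left _ _ (Ideal.add_mem _ ?_ (Ideal.mul_mem_left _ _ h2))
    rw [pow_two]
    exact Ideal.mul_mem_left _ _ h1
  obtain ⟨y, hy, hroot⟩ := exists_root_quadratic α β γ hβu hγm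
  set P : Matrix (Fin 2) (Fin 2) A := !![1 + y * p, p + y * V₁; y * r, r + y * V₂] with hP
  have hdet : P.det = (1 + y * p) * (r + y * V₂) - (p + y * V₁) * (y * r) := by
    rw [hP, Matrix.det_fin_two_of]
  have hdetu : IsUnit P.det := by
    refine isUnit_of_sub_mem isUnit_one ?_
    have e : P.det - 1 = (r - 1) + y * (V₂ + p * (r + y * V₂) - (p + y * V₁) * r) := by
      rw [hdet]; ring
    rw [e]
    exact Ideal.add_mem _ h2 (Ideal.mul_mem_right _ _ hy)
  refine ⟨P, hdetu, ?_, ?_⟩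
  · intro i j
    fin_cases i <;> fin_cases j
    · simpa [hP] using Ideal.mul_mem_right _ _ hy
    · simpa [hP] using Ideal.add_mem _ h1 (Ideal.mul_mem_right _ _ hy)
    · simpa [hP] using Ideal.mul_mem_right _ _ hy
    · have : r + y * V₂ - 1 ∈ maximalIdeal A := by
        have e : r + y * V₂ - 1 = (r - 1) + y * V₂ := by ring
        rw [e]
        exact Ideal.add_mem _ h2 (Ideal.mul_mem_right _ _ hy)
      simpa [hP] using this
  · obtain ⟨u, hu'⟩ := hdetu
    refine ⟨!![0, -(p * t - q * r); 1, p + t], (↑u⁻¹ : A) • (P.adjugate * M₂ * P), ?_, ?_, rfl, rfl, ?_⟩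
    · rw [hM₁, hP]
      ext i j
      fin_cases i <;> fin_cases j <;>
        simp [Matrix.mul_apply, Fin.sum_univ_two, hV₁, hV₂] <;> ring
    · rw [Matrix.mul_smul, ← Matrix.mul_assoc, ← Matrix.mul_assoc, Matrix.mul_adjugate, ← hu',
        Matrix.smul_mul, Matrix.smul_mul, smul_smul, Units.inv_mul, one_smul, Matrix.one_mul]
    · have hF : (P.adjugate * M₂ * P) 0 0 = α * y ^ 2 + β * y + γ + s * P.det := by
        rw [hdet, hM₂, hP, Matrix.adjugate_fin_two_of]
        simp [Matrix.mul_apply, Fin.sum_univ_two, hα, hβ, hγ, hU₁, hU₂, hV₁, hV₂]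
        ring
      rw [Matrix.smul_apply, hF, hroot, zero_add, ← hu', smul_eq_mul]
      rw [mul_comm s, ← mul_assoc, Units.inv_mul, one_mul]

end FermatAgent.S53
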