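import Mathlib
import Fermat.Agent.S53.Base
import Fermat.Agent.S53.Dictionary
import Fermat.Agent.S53.Normalize
import Fermat.Agent.S53.Defs
import Fermat.Agent.S53.FrameExists

set_option autoImplicit false

namespace Fermat.Agent.S53

namespace FrameAux

open IsLocalRing TensorProduct

/-! ### General linear algebra over a local ring -/

theorem exists_tmul_eq {A : Type} [CommRing A] [IsLocalRing A] {V : Type} [AddCommGroup V]
    [Module A V] (x : ResidueField A ⊗[A] V) : ∃ v : V, (1 : ResidueField A) ⊗ₜ[A] v = x := by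
  induction x using TensorProduct.induction_on with
  | zero => exact ⟨0, by simp⟩
  | tmul c v =>
    obtain ⟨a, rfl⟩ := residue_surjective c
    refine ⟨a • v, ?_⟩
    rw [TensorProduct.tmul_smul, TensorProduct.smul_tmul', Algebra.smul_def, mul_one]
    rfl
  | add x y hx hy =>
    obtain ⟨v, rfl⟩ := hx
    obtain ⟨w, rfl⟩ := hy
    exact ⟨v + w, by rw [TensorProduct.tmul_add]⟩

/-- A basis of the special fibre of a finite free module over a local ring lifts to a basis. -/
theorem exists_basis_tmul_eq {A : Type} [CommRing A] [IsLocalRing A] {V : Type} [AddCommGroup V]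
    [Module A V] [Module.Free A V] [Module.Finite A V]
    (w : Module.Basis (Fin 2) (ResidueField A) (ResidueField A ⊗[A] V)) :
    ∃ b₀ : Module.Basis (Fin 2) A V, ∀ i, (1 : ResidueField A) ⊗ₜ[A] b₀ i = w i := by
  choose v hv using fun i => exists_tmul_eq (w i)
  have hli : LinearIndependent A v := by
    apply Module.IsLocalRing.linearIndependent_of_flat
    have : (TensorProduct.mk A (ResidueField A) V 1) ∘ v = w := by
      ext i
      exact hv i
    rw [this]
    exact w.linearIndependent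
  have hsp : Submodule.span A (Set.range v) = ⊤ :=
    IsLocalRing.span_eq_top_of_tmul_eq_basis (R := A) v w (fun i => hv i)
  refine ⟨Module.Basis.mk hli (by rw [hsp]), fun i => ?_⟩
  rw [Module.Basis.mk_apply]
  exact hv i

/-- Given an identification of the special fibre of `V` with the base change of `Vbar`, there
is a basis of `V` in which every endomorphism compatible with an endomorphism of `Vbar` has
matrix reducing to that of the latter. -/
theorem exists_basis_toMatrix {A : Type} [CommRing A] [IsLocalRing A] {k : Type} [Field k]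
    [Algebra k (ResidueField A)] {V : Type} [AddCommGroup V] [Module A V] [Module.Free A V]
    [Module.Finite A V] {Vbar : Type} [AddCommGroup Vbar] [Module k Vbar]
    (b : Module.Basis (Fin 2) k Vbar)
    (E : (ResidueField A ⊗[A] V) ≃ₗ[ResidueField A] (ResidueField A ⊗[k] Vbar)) :
    ∃ b₀ : Module.Basis (Fin 2) A V, ∀ (f : V →ₗ[A] V) (fbar : Vbar →ₗ[k] Vbar),
      (∀ x, E (f.baseChange (ResidueField A) x) = fbar.baseChange (ResidueField A) (E x)) →
      ∀ i j, residue A (LinearMap.toMatrix b₀ b₀ f i j) =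
        algebraMap k (ResidueField A) (LinearMap.toMatrix b b fbar i j) := by
  let β' := Algebra.TensorProduct.basis (ResidueField A) b
  obtain ⟨b₀, hb₀⟩ := exists_basis_tmul_eq (β'.map E.symm)
  refine ⟨b₀, fun f fbar h i j => ?_⟩
  let w' := Algebra.TensorProduct.basis (ResidueField A) b₀
  have hw : ∀ i, E (w' i) = β' i := by
    intro i
    rw [Algebra.TensorProduct.basis_apply, hb₀ i, Module.Basis.map_apply,
      LinearEquiv.apply_symm_apply]
  have hβ : β' = w'.map E :=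
    Module.Basis.eq_of_apply_eq (fun i => by rw [Module.Basis.map_apply, hw i])
  have h1 : LinearMap.toMatrix w' w' (f.baseChange (ResidueField A)) =
      (LinearMap.toMatrix b₀ b₀ f).map (algebraMap A (ResidueField A)) :=
    LinearMap.toMatrix_baseChange (ResidueField A) f b₀ b₀
  have h2 : LinearMap.toMatrix β' β' (fbar.baseChange (ResidueField A)) =
      (LinearMap.toMatrix b b fbar).map (algebraMap k (ResidueField A)) :=
    LinearMap.toMatrix_baseChange (ResidueField A) fbar b b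
  have h3 : LinearMap.toMatrix w' w' (f.baseChange (ResidueField A)) i j =
      LinearMap.toMatrix β' β' (fbar.baseChange (ResidueField A)) i j := by
    rw [LinearMap.toMatrix_apply, LinearMap.toMatrix_apply, ← hw j, ← h, hβ,
      Module.Basis.map_repr, LinearEquiv.trans_apply, LinearEquiv.symm_apply_apply]
  rw [h1, h2] at h3
  exact h3

/-- The comparison of the special fibre of `A²` with a base change of a plane with a basis. -/
noncomputable def resEquiv {A : Type} [CommRing A] [IsLocalRing A] {k : Type} [Field k]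
    [Algebra k (ResidueField A)] {Vbar : Type} [AddCommGroup Vbar] [Module k Vbar]
    (b : Module.Basis (Fin 2) k Vbar) :
    (ResidueField A ⊗[A] (Fin 2 → A)) ≃ₗ[ResidueField A] (ResidueField A ⊗[k] Vbar) :=
  (TensorProduct.piScalarRight A (ResidueField A) (ResidueField A) (Fin 2)).trans
    (Algebra.TensorProduct.basis (ResidueField A) b).equivFun.symm

theorem resEquiv_intertwine {A : Type} [CommRing A] [IsLocalRing A] {k : Type} [Field k]
    [Algebra k (ResidueField A)] {Vbar : Type} [AddCommGroup Vbar] [Module k Vbar]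
    (b : Module.Basis (Fin 2) k Vbar) (fbar : Vbar →ₗ[k] Vbar) (N : Matrix (Fin 2) (Fin 2) A)
    (h : ∀ i j, residue A (N i j) =
      algebraMap k (ResidueField A) (LinearMap.toMatrix b b fbar i j))
    (x : ResidueField A ⊗[A] (Fin 2 → A)) :
    resEquiv b ((Matrix.toLin' N).baseChange (ResidueField A) x) =
      fbar.baseChange (ResidueField A) (resEquiv b x) := by
  set β' := Algebra.TensorProduct.basis (ResidueField A) b with hβ'
  have hmat : N.map (algebraMap A (ResidueField A)) =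
      LinearMap.toMatrix β' β' (fbar.baseChange (ResidueField A)) := by
    rw [hβ', LinearMap.toMatrix_baseChange]
    ext i j
    exact h i j
  apply β'.equivFun.injective
  change β'.equivFun (β'.equivFun.symm (TensorProduct.piScalarRight A (ResidueField A)
      (ResidueField A) (Fin 2) ((Matrix.toLin' N).baseChange (ResidueField A) x))) =
    β'.equivFun (fbar.baseChange (ResidueField A) (β'.equivFun.symm
      (TensorProduct.piScalarRight A (ResidueField A) (ResidueField A) (Fin 2) x)))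
  rw [LinearEquiv.apply_symm_apply, Dict.piScalarRight_baseChange, hmat, Matrix.toLin'_apply]
  set z := TensorProduct.piScalarRight A (ResidueField A) (ResidueField A) (Fin 2) x
  have := LinearMap.toMatrix_mulVec_repr β' β' (fbar.baseChange (ResidueField A))
    (β'.equivFun.symm z)
  rw [show (β'.repr (β'.equivFun.symm z) : Fin 2 → ResidueField A) = z from
    β'.equivFun.apply_symm_apply z] at this
  exact this

/-- Conjugating a monoid homomorphism by a unit. -/
def conjHom {G R : Type*} [Monoid G] [Monoid R] (U : Rˣ) (M : G →* R) : G →* R where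
  toFun g := ↑U⁻¹ * M g * ↑U
  map_one' := by rw [map_one, mul_one, Units.inv_mul]
  map_mul' g h := by
    rw [map_mul]
    simp only [mul_assoc, Units.mul_inv_cancel_left]

theorem conjHom_apply {G R : Type*} [Monoid G] [Monoid R] (U : Rˣ) (M : G →* R) (g : G) :
    conjHom U M g = ↑U⁻¹ * M g * ↑U := rfl

/-! ### Lifts and residues -/

section

variable {𝒪 : Type} [CommRing 𝒪] [IsLocalRing 𝒪]

theorem IsLift.residue_eq {A : Type} [CommRing A] [IsLocalRing A] [Algebra 𝒪 A]
    [IsLocalHom (algebraMap 𝒪 A)] {Mbar : GalQ →* Matrix (Fin 2) (Fin 2) (ResidueField 𝒪)}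
    {M : GalQ →* Matrix (Fin 2) (Fin 2) A} (h : IsLift 𝒪 Mbar M) (σ : GalQ) (i j : Fin 2) :
    residue A (M σ i j) = ResidueField.map (algebraMap 𝒪 A) (Mbar σ i j) := by
  obtain ⟨o, ho, hm⟩ := h σ i j
  rw [← ho, ResidueField.map_residue, ← sub_eq_zero, ← map_sub]
  exact (residue_eq_zero_iff _).mpr hm

theorem isLift_of_residue_eq {A : Type} [CommRing A] [IsLocalRing A] [Algebra 𝒪 A]
    [IsLocalHom (algebraMap 𝒪 A)] {Mbar : GalQ →* Matrix (Fin 2) (Fin 2) (ResidueField 𝒪)}
    {M : GalQ →* Matrix (Fin 2) (Fin 2) A}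
    (h : ∀ σ i j, residue A (M σ i j) = ResidueField.map (algebraMap 𝒪 A) (Mbar σ i j)) :
    IsLift 𝒪 Mbar M := by
  intro σ i j
  obtain ⟨o, ho⟩ := residue_surjective (Mbar σ i j)
  refine ⟨o, ho, ?_⟩
  rw [← residue_eq_zero_iff, map_sub, h, ← ho, ResidueField.map_residue, sub_self]

variable {ρbar : ResidualGaloisRep (ResidueField 𝒪)} (F₀ : FermatAgent.S53.Frame 𝒪 ρbar)

/-- The frame attached to rigidification data for `ρbar`. -/
def toFrame : Frame 𝒪 := ⟨F₀.N, F₀.g₁, F₀.g₂, F₀.s₀⟩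

theorem cont_N : MatCont F₀.N := by
  intro n
  obtain ⟨L, hL, h⟩ := ρbar.factorsThroughFiniteLevel
  refine ⟨L, hL, fun σ hσ i j => ?_⟩
  rw [F₀.hN, h σ hσ, show (1 : Module.End (ResidueField 𝒪) ρbar.V) = LinearMap.id from rfl,
    LinearMap.toMatrix_id, sub_self]
  exact Ideal.zero_mem _

theorem equiv_N :
    (GaloisRepAdic.ofResidualGaloisRep ρbar).IsEquiv (ofMatrix F₀.N (cont_N F₀)) := by
  refine ⟨⟨F₀.b.equivFun, fun σ x => ?_⟩⟩
  change F₀.b.equivFun (ρbar.ρ σ x) = Matrix.toLin' (F₀.N σ) (F₀.b.equivFun x)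
  rw [Matrix.toLin'_apply, F₀.hN]
  exact (LinearMap.toMatrix_mulVec_repr F₀.b F₀.b (ρbar.ρ σ) x).symm

theorem normBar_N : (toFrame F₀).IsNormLift F₀.N := by
  refine ⟨fun σ i j => ?_, F₀.h00, F₀.h10, ?_⟩
  · obtain ⟨o, ho⟩ := residue_surjective (F₀.N σ i j)
    refine ⟨o, ho, ?_⟩
    rw [ResidueField.algebraMap_eq, ho, sub_self]
    exact Ideal.zero_mem _
  · rw [ResidueField.algebraMap_eq]
    exact F₀.hs₀.symm

theorem residual_N {A : Type} [CommRing A] [IsLocalRing A] [Algebra 𝒪 A]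
    [IsLocalHom (algebraMap 𝒪 A)] (M : GalQ →* Matrix (Fin 2) (Fin 2) A) (hM : MatCont M)
    (hl : IsLift 𝒪 F₀.N M) :
    (ofMatrix M hM).residual.IsEquiv
      (ρbar.baseChangeAlong (IsLocalRing.ResidueField.map (algebraMap 𝒪 A))) := by
  let _ : Algebra (ResidueField 𝒪) (ResidueField A) :=
    (ResidueField.map (algebraMap 𝒪 A)).toAlgebra
  exact ⟨⟨resEquiv F₀.b, fun σ x =>
    resEquiv_intertwine F₀.b (ρbar.ρ σ) (M σ)
      (fun i j => by rw [← F₀.hN]; exact IsLift.residue_eq hl σ i j) x⟩⟩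

theorem unique_N {A : Type} [CommRing A] [IsLocalRing A] [Algebra 𝒪 A]
    [IsLocalHom (algebraMap 𝒪 A)] (M M' : GalQ →* Matrix (Fin 2) (Fin 2) A) (hM : MatCont M)
    (hM' : MatCont M') (h1 : (toFrame F₀).IsNormLift M) (h2 : (toFrame F₀).IsNormLift M')
    (h : (ofMatrix M hM).IsEquiv (ofMatrix M' hM')) : M = M' := by
  obtain ⟨hl, c00, c10, d00⟩ := h1
  obtain ⟨hl', c00', c10', d00'⟩ := h2
  change IsLift 𝒪 F₀.N M at hl
  change IsLift 𝒪 F₀.N M' at hl'
  change M F₀.g₁ 0 0 = 0 at c00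
  change M F₀.g₁ 1 0 = 1 at c10
  change M F₀.g₂ 0 0 = algebraMap 𝒪 A F₀.s₀ at d00
  change M' F₀.g₁ 0 0 = 0 at c00'
  change M' F₀.g₁ 1 0 = 1 at c10'
  change M' F₀.g₂ 0 0 = algebraMap 𝒪 A F₀.s₀ at d00'
  obtain ⟨Q, hQdet, hQ⟩ := exists_intertwiner_of_isEquiv M M' hM hM' h
  have hu : IsUnit (M' F₀.g₂ 0 1 - M' F₀.g₁ 0 1 * M F₀.g₂ 1 0) := by
    rw [← residue_ne_zero_iff_isUnit, map_sub, map_mul, IsLift.residue_eq hl',
      IsLift.residue_eq hl', IsLift.residue_eq hl, ← map_mul, ← map_sub]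
    exact (map_ne_zero _).mpr F₀.hne
  have hscal := FermatAgent.S53.intertwiner_scalar (M F₀.g₁) (M' F₀.g₁) (M F₀.g₂) (M' F₀.g₂) Q
    ⟨c00', c10'⟩ ⟨c00, c10⟩ (hQ F₀.g₁) (hQ F₀.g₂) (by rw [d00', d00]) hu
  have hx : IsUnit (Q 0 0) := by
    rw [hscal] at hQdet
    simp only [Matrix.det_smul, Fintype.card_fin, Matrix.det_one, mul_one] at hQdet
    exact isUnit_of_mul_isUnit_left (by rwa [pow_two] at hQdet)
  obtain ⟨u, hu'⟩ := hx
  ext g : 1
  have h1 := hQ g
  rw [hscal, Matrix.smul_mul, Matrix.mul_smul, Matrix.one_mul, Matrix.mul_one, ← hu'] at h1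
  have h2 := congrArg (fun X => (↑u⁻¹ : A) • X) h1
  simpa [smul_smul] using h2

theorem exists_normLift_N {A : Type} [CommRing A] [IsLocalRing A] [Algebra 𝒪 A]
    [IsLocalHom (algebraMap 𝒪 A)] [HenselianRing A (maximalIdeal A)] (ρ : GaloisRepAdic A)
    (hρ : ρ.residual.IsEquiv
      (ρbar.baseChangeAlong (IsLocalRing.ResidueField.map (algebraMap 𝒪 A)))) :
    ∃ (M : GalQ →* Matrix (Fin 2) (Fin 2) A) (hM : MatCont M),
      (toFrame F₀).IsNormLift M ∧ ρ.IsEquiv (ofMatrix M hM) := by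
  obtain ⟨e⟩ := hρ
  obtain ⟨b₀, hb₀⟩ : ∃ b₀ : Module.Basis (Fin 2) A ρ.V, ∀ g i j,
      residue A (toMat ρ b₀ g i j) = ResidueField.map (algebraMap 𝒪 A) (F₀.N g i j) := by
    let _ : Algebra (ResidueField 𝒪) (ResidueField A) :=
      (ResidueField.map (algebraMap 𝒪 A)).toAlgebra
    obtain ⟨b₀, hb₀⟩ := exists_basis_toMatrix (A := A) (V := ρ.V) F₀.b e.toLinearEquiv
    refine ⟨b₀, fun g i j => ?_⟩
    rw [F₀.hN, toMat_apply, ← LinearMap.toMatrix_apply]
    exact hb₀ (ρ.ρ g) (ρbar.ρ g) (e.map_apply g) i j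
  have hM₀c : MatCont (toMat ρ b₀) := toMat_cont ρ b₀
  have h1 : toMat ρ b₀ F₀.g₁ 0 0 ∈ maximalIdeal A := by
    rw [← residue_eq_zero_iff, hb₀, F₀.h00, map_zero]
  have h2 : toMat ρ b₀ F₀.g₁ 1 0 - 1 ∈ maximalIdeal A := by
    rw [← residue_eq_zero_iff, map_sub, hb₀, F₀.h10, map_one, map_one, sub_self]
  have h3 : toMat ρ b₀ F₀.g₂ 0 0 - algebraMap 𝒪 A F₀.s₀ ∈ maximalIdeal A := by
    rw [← residue_eq_zero_iff, map_sub, hb₀, ← F₀.hs₀, ResidueField.map_residue, sub_self]
  have hu : IsUnit (toMat ρ b₀ F₀.g₂ 0 1 - toMat ρ b₀ F₀.g₁ 0 1 * toMat ρ b₀ F₀.g₂ 1 0) := by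
    rw [← residue_ne_zero_iff_isUnit, map_sub, map_mul, hb₀, hb₀, hb₀, ← map_mul, ← map_sub]
    exact (map_ne_zero _).mpr F₀.hne
  obtain ⟨P, hPdet, hP1, C, D, hC, hD, hC00, hC10, hD00⟩ :=
    FermatAgent.S53.exists_normalizer (toMat ρ b₀ F₀.g₁) (toMat ρ b₀ F₀.g₂)
      (algebraMap 𝒪 A F₀.s₀) h1 h2 h3 hu
  obtain ⟨U, rfl⟩ := (Matrix.isUnit_iff_isUnit_det P).mpr hPdet
  have hconj : ∀ σ, conjHom U (toMat ρ b₀) σ =
      ((U⁻¹ : (Matrix (Fin 2) (Fin 2) A)ˣ) : Matrix (Fin 2) (Fin 2) A) * toMat ρ b₀ σ *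
        (((U⁻¹)⁻¹ : (Matrix (Fin 2) (Fin 2) A)ˣ) : Matrix (Fin 2) (Fin 2) A) := by
    intro σ
    rw [inv_inv]
    rfl
  have hMc : MatCont (conjHom U (toMat ρ b₀)) := MatCont.conj hM₀c U⁻¹ hconj
  have hg₁ : conjHom U (toMat ρ b₀) F₀.g₁ = C := by
    rw [conjHom_apply, mul_assoc, hC, ← mul_assoc, Units.inv_mul, one_mul]
  have hg₂ : conjHom U (toMat ρ b₀) F₀.g₂ = D := by
    rw [conjHom_apply, mul_assoc, hD, ← mul_assoc, Units.inv_mul, one_mul]
  have hU1 : (U : Matrix (Fin 2) (Fin 2) A).map (residue A) = 1 := by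
    ext i j
    have := hP1 i j
    rw [← residue_eq_zero_iff, Matrix.sub_apply, map_sub, sub_eq_zero] at this
    rw [Matrix.map_apply, this, Matrix.one_apply, Matrix.one_apply]
    split_ifs <;> simp
  have hU2 : ((U⁻¹ : (Matrix (Fin 2) (Fin 2) A)ˣ) : Matrix (Fin 2) (Fin 2) A).map
      (residue A) = 1 := by
    have := congrArg (fun X : Matrix (Fin 2) (Fin 2) A => X.map (residue A)) (Units.inv_mul U)
    simp only [Matrix.map_mul, hU1, mul_one] at this
    rw [this]
    exact Matrix.map_one _ (map_zero _) (map_one _)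
  have hres : ∀ g i j, residue A (conjHom U (toMat ρ b₀) g i j) =
      ResidueField.map (algebraMap 𝒪 A) (F₀.N g i j) := by
    intro g i j
    rw [← hb₀ g i j]
    have : (conjHom U (toMat ρ b₀) g).map (residue A) = (toMat ρ b₀ g).map (residue A) := by
      rw [conjHom_apply, Matrix.map_mul, Matrix.map_mul, hU1, hU2, one_mul, mul_one]
    exact congrFun (congrFun this i) j
  refine ⟨conjHom U (toMat ρ b₀), hMc, ⟨isLift_of_residue_eq hres, ?_, ?_, ?_⟩, ?_⟩
  · change conjHom U (toMat ρ b₀) F₀.g₁ 0 0 = 0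
    rw [hg₁, hC00]
  · change conjHom U (toMat ρ b₀) F₀.g₁ 1 0 = 1
    rw [hg₁, hC10]
  · change conjHom U (toMat ρ b₀) F₀.g₂ 0 0 = algebraMap 𝒪 A F₀.s₀
    rw [hg₂, hD00]
  · exact isEquiv_trans (isEquiv_ofMatrix_toMat ρ b₀)
      (ofMatrix_isEquiv_of_conj hM₀c hMc U⁻¹ hconj)

end

end FrameAux

end Fermat.Agent.S53
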