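import Mathlib
import Fermat.Agent.S53.Base
import Fermat.Agent.S53.Dictionary
import Fermat.Agent.S53.FrameAux

set_option autoImplicit false

namespace Fermat.Agent.S53

open IsLocalRing

/-- The properties of a frame that the construction of the universal deformation ring uses. -/
structure Frame.IsGood {𝒪 : Type} [CommRing 𝒪] [IsLocalRing 𝒪] (F : Frame 𝒪)
    (ρbar : ResidualGaloisRep (ResidueField 𝒪)) : Prop where
  /-- the residual matrix representation is continuous -/
  cont : MatCont F.Mbar
  /-- it is a matrix form of `ρbar` -/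
  equiv : (GaloisRepAdic.ofResidualGaloisRep ρbar).IsEquiv (ofMatrix F.Mbar cont)
  /-- it is itself normalised -/
  normBar : F.IsNormLift F.Mbar
  /-- lifts of `Mbar` have residual representation `ρbar` -/
  residual : ∀ {A : Type} [CommRing A] [IsLocalRing A] [Algebra 𝒪 A] [IsLocalHom (algebraMap 𝒪 A)]
    (M : GalQ →* Matrix (Fin 2) (Fin 2) A) (hM : MatCont M), IsLift 𝒪 F.Mbar M →
    (ofMatrix M hM).residual.IsEquiv
      (ρbar.baseChangeAlong (IsLocalRing.ResidueField.map (algebraMap 𝒪 A)))
  /-- every deformation over a Henselian local `𝒪`-algebra has a normalised matrix form -/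
  exists_normLift : ∀ {A : Type} [CommRing A] [IsLocalRing A] [Algebra 𝒪 A]
    [IsLocalHom (algebraMap 𝒪 A)] [HenselianRing A (maximalIdeal A)] (ρ : GaloisRepAdic A),
    ρ.residual.IsEquiv (ρbar.baseChangeAlong (IsLocalRing.ResidueField.map (algebraMap 𝒪 A))) →
    ∃ (M : GalQ →* Matrix (Fin 2) (Fin 2) A) (hM : MatCont M),
      F.IsNormLift M ∧ ρ.IsEquiv (ofMatrix M hM)
  /-- equivalent normalised lifts are equal -/
  unique : ∀ {A : Type} [CommRing A] [IsLocalRing A] [Algebra 𝒪 A] [IsLocalHom (algebraMap 𝒪 A)]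
    (M M' : GalQ →* Matrix (Fin 2) (Fin 2) A) (hM : MatCont M) (hM' : MatCont M'),
    F.IsNormLift M → F.IsNormLift M' → (ofMatrix M hM).IsEquiv (ofMatrix M' hM') → M = M'

/-- An absolutely irreducible residual representation has a good frame. -/
theorem exists_good_frame (𝒪 : Type) [CommRing 𝒪] [IsLocalRing 𝒪]
    (ρbar : ResidualGaloisRep (ResidueField 𝒪)) (habs : ρbar.IsAbsolutelyIrreducible) :
    ∃ F : Frame 𝒪, F.IsGood ρbar := by
  obtain ⟨F₀⟩ := FermatAgent.S53.exists_frame 𝒪 ρbar habs
  exact ⟨FrameAux.toFrame F₀,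
    { cont := FrameAux.cont_N F₀
      equiv := FrameAux.equiv_N F₀
      normBar := FrameAux.normBar_N F₀
      residual := fun M hM hl => FrameAux.residual_N F₀ M hM hl
      exists_normLift := fun ρ hρ => FrameAux.exists_normLift_N F₀ ρ hρ
      unique := fun M M' hM hM' h1 h2 h => FrameAux.unique_N F₀ M M' hM hM' h1 h2 h }⟩

end Fermat.Agent.S53
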