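import Mathlib
import Fermat.Agent.S53.Base
import Fermat.Agent.S53.Dictionary
import Fermat.Agent.S53.Frame

set_option autoImplicit false

namespace Fermat.Agent.S53

open IsLocalRing

namespace Tangent

/-- Finitely many evaluations separate the points of a finite set of "functions". -/
theorem exists_fin_separating {X I Y : Type*} [Inhabited I] (ev : X → I → Y) (T : Set X)
    (hT : T.Finite) (hsep : ∀ M ∈ T, ∀ M' ∈ T, (∀ i, ev M i = ev M' i) → M = M') :
    ∃ (n : ℕ) (idx : Fin n → I), ∀ M ∈ T, ∀ M' ∈ T,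
      (∀ s, ev M (idx s) = ev M' (idx s)) → M = M' := by
  classical
  let P : Finset (X × X) := hT.toFinset ×ˢ hT.toFinset
  let pick : X × X → I := fun p =>
    if h : ∃ i, ev p.1 i ≠ ev p.2 i then h.choose else default
  refine ⟨P.card, fun s => pick (P.equivFin.symm s).1, ?_⟩
  intro M hM M' hM' hag
  by_contra hne
  have hex : ∃ i, ev (M, M').1 i ≠ ev (M, M').2 i := by
    by_contra hno
    push Not at hno
    exact hne (hsep M hM M' hM' hno)
  have hmem : (M, M') ∈ P := by
    simp only [P, Finset.mem_product, Set.Finite.mem_toFinset]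
    exact ⟨hM, hM'⟩
  have h1 : ev M (pick (M, M')) = ev M' (pick (M, M')) := by
    have h := hag (P.equivFin ⟨(M, M'), hmem⟩)
    simp only [Equiv.symm_apply_apply] at h
    exact h
  have h2 : pick (M, M') = hex.choose := dif_pos hex
  rw [h2] at h1
  exact hex.choose_spec h1

/-- The structure map `𝒪 → k → k[ε]` is a local homomorphism. -/
theorem isLocalHom_dualAlgebra (𝒪 : Type) [CommRing 𝒪] [IsLocalRing 𝒪] :
    letI := dualAlgebra 𝒪
    IsLocalHom (algebraMap 𝒪 (DualNumber (ResidueField 𝒪))) := by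
  show IsLocalHom ((algebraMap (ResidueField 𝒪) (DualNumber (ResidueField 𝒪))).comp
      (algebraMap 𝒪 (ResidueField 𝒪)))
  have : IsLocalHom (algebraMap 𝒪 (ResidueField 𝒪)) := by
    show IsLocalHom (IsLocalRing.residue 𝒪)
    infer_instance
  infer_instance

/-- The two descriptions of the map on residue fields induced by `𝒪 → k → k[ε]`. -/
theorem residueField_map_eq (𝒪 : Type) [CommRing 𝒪] [IsLocalRing 𝒪] :
    letI := dualAlgebra 𝒪
    ∀ (_h : IsLocalHom (algebraMap 𝒪 (DualNumber (ResidueField 𝒪)))),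
    IsLocalRing.ResidueField.map (algebraMap 𝒪 (DualNumber (ResidueField 𝒪))) =
      (IsLocalRing.residue (DualNumber (ResidueField 𝒪))).comp
        (algebraMap (ResidueField 𝒪) (DualNumber (ResidueField 𝒪))) := by
  intro _h
  ext x
  obtain ⟨a, rfl⟩ := IsLocalRing.residue_surjective x
  rw [IsLocalRing.ResidueField.map_residue]
  rfl

end Tangent

/-- Finiteness of the tangent space gives finitely many matrix entries that separate the
normalised lifts of type `𝒟` to the dual numbers. -/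
theorem exists_separating (𝒪 : Type) [CommRing 𝒪] [IsLocalRing 𝒪]
    (ρbar : ResidualGaloisRep (ResidueField 𝒪))
    (𝒟 : ∀ ⦃A : Type⦄ [CommRing A] [IsLocalRing A] [Algebra 𝒪 A], GaloisRepAdic A → Prop)
    (hfin : GaloisRep.TangentFinite 𝒪 ρbar 𝒟) (F : Frame 𝒪) (hF : F.IsGood ρbar) :
    ∃ (n : ℕ) (gs : Fin n → GalQ) (is js : Fin n → Fin 2),
      letI := dualAlgebra 𝒪
      ∀ (M M' : GalQ →* Matrix (Fin 2) (Fin 2) (DualNumber (ResidueField 𝒪)))
        (hM : MatCont M) (hM' : MatCont M'), F.IsNormLift M → F.IsNormLift M' →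
        𝒟 (ofMatrix M hM) → 𝒟 (ofMatrix M' hM') →
        (∀ s, M (gs s) (is s) (js s) = M' (gs s) (is s) (js s)) → M = M' := by
  classical
  let _ := dualAlgebra 𝒪
  have hloc : IsLocalHom (algebraMap 𝒪 (DualNumber (ResidueField 𝒪))) :=
    Tangent.isLocalHom_dualAlgebra 𝒪
  have key : ∀ (M : GalQ →* Matrix (Fin 2) (Fin 2) (DualNumber (ResidueField 𝒪)))
      (hM : MatCont M), F.IsNormLift M →
      (ofMatrix M hM).residual.IsEquiv
        (ρbar.baseChangeAlong ((IsLocalRing.residue (DualNumber (ResidueField 𝒪))).comp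
          (algebraMap (ResidueField 𝒪) (DualNumber (ResidueField 𝒪))))) := by
    intro M hM hN
    have h := hF.residual M hM hN.1
    rwa [Tangent.residueField_map_eq 𝒪 hloc] at h
  have hTfin : {M : GalQ →* Matrix (Fin 2) (Fin 2) (DualNumber (ResidueField 𝒪)) |
      ∃ hM : MatCont M, F.IsNormLift M ∧ 𝒟 (ofMatrix M hM)}.Finite := by
    unfold GaloisRep.TangentFinite at hfin
    refine Set.finite_coe_iff.mp (@Finite.of_injective _ _ hfin
      (fun M => Quotient.mk _ ⟨ofMatrix M.1 M.2.choose,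
        M.2.choose_spec.2, key M.1 M.2.choose M.2.choose_spec.1⟩) ?_)
    rintro ⟨M, hM⟩ ⟨M', hM'⟩ h
    have h' := Quotient.exact h
    exact Subtype.ext (hF.unique M M' hM.choose hM'.choose hM.choose_spec.1 hM'.choose_spec.1 h')
  obtain ⟨n, idx, hidx⟩ := Tangent.exists_fin_separating (I := GalQ × Fin 2 × Fin 2)
    (fun (M : GalQ →* Matrix (Fin 2) (Fin 2) (DualNumber (ResidueField 𝒪))) p =>
      M p.1 p.2.1 p.2.2) _ hTfin
    (fun M _ M' _ h => MonoidHom.ext fun g => Matrix.ext fun i j => h (g, i, j))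
  refine ⟨n, fun s => (idx s).1, fun s => (idx s).2.1, fun s => (idx s).2.2, ?_⟩
  intro M M' hM hM' hN hN' hD hD' hag
  exact hidx M ⟨hM, hN, hD⟩ M' ⟨hM', hN', hD'⟩ hag

end Fermat.Agent.S53
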