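import Mathlib

set_option autoImplicit false

namespace Fermat.Agent.S53.Chevalley

open IsLocalRing

theorem isArtinianRing_quotient_pow {Q : Type*} [CommRing Q] [IsLocalRing Q]
    [IsNoetherianRing Q] (N : ℕ) (hN : N ≠ 0) :
    IsArtinianRing (Q ⧸ maximalIdeal Q ^ N) := by
  apply IsLocalRing.quotient_artinian_of_mem_minimalPrimes_of_isLocalRing
  refine ⟨⟨inferInstance, Ideal.pow_le_self hN⟩, fun q hq _ => ?_⟩
  exact (hq.1.pow_le_iff hN).mp hq.2

theorem exists_min {Q : Type*} [CommRing Q] [IsLocalRing Q] [IsNoetherianRing Q]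
    (J : Set (Ideal Q)) (hne : J.Nonempty) (hinf : ∀ 𝔞 ∈ J, ∀ 𝔟 ∈ J, 𝔞 ⊓ 𝔟 ∈ J) (N : ℕ) :
    ∃ 𝔞 ∈ J, ∀ 𝔟 ∈ J, 𝔞 ⊔ maximalIdeal Q ^ N ≤ 𝔟 ⊔ maximalIdeal Q ^ N := by
  rcases Nat.eq_zero_or_pos N with rfl | hN
  · obtain ⟨a, ha⟩ := hne
    exact ⟨a, ha, fun b _ => by simp⟩
  · have := isArtinianRing_quotient_pow (Q := Q) N hN.ne'
    obtain ⟨I, ⟨a, ha, rfl⟩, hmin⟩ := IsArtinian.set_has_minimal
      ((Ideal.map (Ideal.Quotient.mk (maximalIdeal Q ^ N))) '' J) (hne.image _)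
    refine ⟨a, ha, fun b hb => ?_⟩
    have h1 : Ideal.map (Ideal.Quotient.mk (maximalIdeal Q ^ N)) (a ⊓ b) =
        Ideal.map (Ideal.Quotient.mk (maximalIdeal Q ^ N)) a := by
      by_contra hneq
      exact hmin _ ⟨a ⊓ b, hinf a ha b hb, rfl⟩
        (lt_of_le_of_ne (Ideal.map_mono inf_le_left) hneq)
    have h2 : Ideal.map (Ideal.Quotient.mk (maximalIdeal Q ^ N)) a ≤
        Ideal.map (Ideal.Quotient.mk (maximalIdeal Q ^ N)) b :=
      h1 ▸ Ideal.map_mono inf_le_right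
    have h3 := Ideal.comap_mono (f := Ideal.Quotient.mk (maximalIdeal Q ^ N)) h2
    rw [Ideal.comap_map_of_surjective _ Ideal.Quotient.mk_surjective,
      Ideal.comap_map_of_surjective _ Ideal.Quotient.mk_surjective,
      ← RingHom.ker_eq_comap_bot, Ideal.mk_ker] at h3
    exact h3

theorem exists_seq {Q : Type*} [CommRing Q] (m : Ideal Q) (c : ℕ → Ideal Q)
    (hstep : ∀ N, c N ≤ c (N + 1) ⊔ m ^ N) (n : ℕ) (x : Q) (hx : x ∈ c n) :
    ∃ y : ℕ → Q, y 0 = x ∧ (∀ k, y k ∈ c (n + k)) ∧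
      ∀ k, y (k + 1) - y k ∈ m ^ (n + k) := by
  have key : ∀ N, ∀ z : {z // z ∈ c N}, ∃ w : {w // w ∈ c (N + 1)}, w.1 - z.1 ∈ m ^ N := by
    intro N z
    obtain ⟨w, hw, v, hv, hwv⟩ := Submodule.mem_sup.mp (hstep N z.2)
    refine ⟨⟨w, hw⟩, ?_⟩
    have : w - z.1 = -v := by rw [← hwv]; ring
    rw [this]
    exact neg_mem hv
  choose g hg using key
  let s : (k : ℕ) → {z // z ∈ c (n + k)} := fun k =>
    Nat.rec (motive := fun k => {z // z ∈ c (n + k)}) ⟨x, hx⟩ (fun k z => g (n + k) z) k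
  exact ⟨fun k => (s k).1, rfl, fun k => (s k).2, fun k => hg (n + k) (s k)⟩

theorem seq_sub_mem {Q : Type*} [CommRing Q] (m : Ideal Q) (n : ℕ) (y : ℕ → Q)
    (hy : ∀ k, y (k + 1) - y k ∈ m ^ (n + k)) {k l : ℕ} (hkl : k ≤ l) :
    y l - y k ∈ m ^ (n + k) := by
  induction l, hkl using Nat.le_induction with
  | base => simp
  | succ l hkl ih =>
    have h1 : y (l + 1) - y l ∈ m ^ (n + k) := Ideal.pow_le_pow_right (by omega) (hy l)
    have h2 : y (l + 1) - y k = (y (l + 1) - y l) + (y l - y k) := by ring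
    rw [h2]
    exact add_mem h1 ih

theorem le_iInf_sup_pow {Q : Type*} [CommRing Q] (m : Ideal Q) [IsPrecomplete m Q]
    (c : ℕ → Ideal Q) (hanti : Antitone c) (hm : ∀ N, m ^ N ≤ c N)
    (hstep : ∀ N, c N ≤ c (N + 1) ⊔ m ^ N) (n : ℕ) :
    c n ≤ (⨅ N, c N) ⊔ m ^ n := by
  intro x hx
  obtain ⟨y, hy0, hyc, hystep⟩ := exists_seq m c hstep n x hx
  have hsub : ∀ {k l : ℕ}, k ≤ l → y l - y k ∈ m ^ (n + k) := fun hkl =>
    seq_sub_mem m n y hystep hkl
  have hcauchy : ∀ {k l : ℕ}, k ≤ l → y k ≡ y l [SMOD (m ^ k • ⊤ : Submodule Q Q)] := by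
    intro k l hkl
    rw [SModEq.sub_mem, smul_eq_mul, Ideal.mul_top]
    have h2 : y k - y l = -(y l - y k) := by ring
    rw [h2]
    exact neg_mem (Ideal.pow_le_pow_right (by omega) (hsub hkl))
  obtain ⟨L, hL⟩ := IsPrecomplete.prec' (I := m) y hcauchy
  have hL' : ∀ k, y k - L ∈ m ^ k := by
    intro k
    have := hL k
    rwa [SModEq.sub_mem, smul_eq_mul, Ideal.mul_top] at this
  rw [Submodule.mem_sup]
  refine ⟨L, ?_, x - L, ?_, by ring⟩
  · rw [Submodule.mem_iInf]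
    intro N
    have h1 : y N ∈ c N := hanti (by omega) (hyc N)
    have h2 : y N - L ∈ c N := hm N (hL' N)
    have h3 : L = y N - (y N - L) := by ring
    rw [h3]
    exact sub_mem h1 h2
  · have h1 : y n - y 0 ∈ m ^ n := by simpa using hsub (Nat.zero_le n)
    have h2 : x - L = (y n - L) - (y n - y 0) := by rw [hy0]; ring
    rw [h2]
    exact sub_mem (hL' n) h1

end Fermat.Agent.S53.Chevalley

namespace Fermat.Agent.S53

open IsLocalRing

/-- A Chevalley-type lemma: in a complete Noetherian local ring, a nonempty family of ideals that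
is closed under binary intersection and whose members each contain a power of the maximal ideal
is cofinal, modulo every power of the maximal ideal, with its own intersection. -/
theorem chevalley_directed {Q : Type*} [CommRing Q] [IsLocalRing Q] [IsNoetherianRing Q]
    [IsAdicComplete (maximalIdeal Q) Q] (J : Set (Ideal Q)) (hne : J.Nonempty)
    (hinf : ∀ 𝔞 ∈ J, ∀ 𝔟 ∈ J, 𝔞 ⊓ 𝔟 ∈ J)
    (hpow : ∀ 𝔞 ∈ J, ∃ n, maximalIdeal Q ^ n ≤ 𝔞) (n : ℕ) :
    ∃ 𝔟 ∈ J, 𝔟 ≤ sInf J ⊔ maximalIdeal Q ^ n := by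
  choose a haJ hamin using Chevalley.exists_min J hne hinf
  set c : ℕ → Ideal Q := fun N => a N ⊔ maximalIdeal Q ^ N with hc
  have hanti : Antitone c := by
    refine antitone_nat_of_succ_le fun N => ?_
    calc c (N + 1) ≤ a N ⊔ maximalIdeal Q ^ (N + 1) := hamin (N + 1) (a N) (haJ N)
      _ ≤ c N := sup_le_sup_left (Ideal.pow_le_pow_right (Nat.le_succ N)) _
  have hm : ∀ N, maximalIdeal Q ^ N ≤ c N := fun N => le_sup_right
  have hstep : ∀ N, c N ≤ c (N + 1) ⊔ maximalIdeal Q ^ N := by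
    intro N
    calc c N ≤ a (N + 1) ⊔ maximalIdeal Q ^ N := hamin N (a (N + 1)) (haJ (N + 1))
      _ ≤ c (N + 1) ⊔ maximalIdeal Q ^ N := sup_le_sup_right le_sup_left _
  have hmain := Chevalley.le_iInf_sup_pow (maximalIdeal Q) c hanti hm hstep n
  have hle : (⨅ N, c N) ≤ sInf J := by
    refine le_sInf fun b hb => ?_
    obtain ⟨k, hk⟩ := hpow b hb
    calc (⨅ N, c N) ≤ c k := iInf_le _ k
      _ ≤ b ⊔ maximalIdeal Q ^ k := hamin k b hb
      _ ≤ b := sup_le le_rfl hk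
  exact ⟨a n, haJ n, le_sup_left.trans (hmain.trans (sup_le_sup_right hle _))⟩

end Fermat.Agent.S53
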