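import Mathlib

set_option autoImplicit false

namespace Fermat.Agent.S53.PowerSeries

open IsLocalRing

open IsLocalRing

section OneVariable

variable {A : Type*} [CommRing A]

/-- The ideal of power series whose `j`-th coefficient lies in `I ^ (m - j)`. -/
def coeffIdeal (I : Ideal A) (m : ℕ) : Ideal (PowerSeries A) where
  carrier := {g | ∀ j, PowerSeries.coeff j g ∈ I ^ (m - j)}
  add_mem' := fun {g h} hg hh j => by
    rw [map_add]; exact Ideal.add_mem _ (hg j) (hh j)
  zero_mem' := fun j => by simp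
  smul_mem' := fun h g hg j => by
    rw [smul_eq_mul, PowerSeries.coeff_mul]
    refine Ideal.sum_mem _ fun ab hab => ?_
    have hab' : ab.1 + ab.2 = j := Finset.HasAntidiagonal.mem_antidiagonal.mp hab
    exact Ideal.mul_mem_left _ _ (Ideal.pow_le_pow_right (by omega) (hg ab.2))

theorem mem_coeffIdeal {I : Ideal A} {m : ℕ} {g : PowerSeries A} :
    g ∈ coeffIdeal I m ↔ ∀ j, PowerSeries.coeff j g ∈ I ^ (m - j) := Iff.rfl

theorem coeffIdeal_mul_le (I : Ideal A) (a b : ℕ) :
    coeffIdeal I a * coeffIdeal I b ≤ coeffIdeal I (a + b) := by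
  rw [Ideal.mul_le]
  intro g hg g' hg' j
  rw [PowerSeries.coeff_mul]
  refine Ideal.sum_mem _ fun ab hab => ?_
  have hab' : ab.1 + ab.2 = j := Finset.HasAntidiagonal.mem_antidiagonal.mp hab
  have h1 : PowerSeries.coeff ab.1 g * PowerSeries.coeff ab.2 g' ∈
      I ^ (a - ab.1) * I ^ (b - ab.2) := Ideal.mul_mem_mul (hg _) (hg' _)
  rw [← pow_add] at h1
  exact Ideal.pow_le_pow_right (by omega) h1

theorem coeffIdeal_zero (I : Ideal A) : coeffIdeal I 0 = ⊤ := by
  rw [Ideal.eq_top_iff_one]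
  intro j
  simp

theorem pow_le_coeffIdeal (I : Ideal A) (J : Ideal (PowerSeries A)) (hJ : J ≤ coeffIdeal I 1)
    (m : ℕ) : J ^ m ≤ coeffIdeal I m := by
  induction m with
  | zero => rw [coeffIdeal_zero]; exact le_top
  | succ m ih =>
    rw [pow_succ]
    exact (Ideal.mul_mono ih hJ).trans (coeffIdeal_mul_le I m 1)

theorem coeffIdeal_le_pow (I : Ideal A) (J : Ideal (PowerSeries A))
    (hX : (PowerSeries.X : PowerSeries A) ∈ J) (hI : I.map (PowerSeries.C (R := A)) ≤ J)
    (n : ℕ) : coeffIdeal I n ≤ J ^ n := by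
  intro g hg
  rw [PowerSeries.eq_shift_mul_X_pow_add_trunc n g]
  refine Ideal.add_mem _ (Ideal.mul_mem_left _ _ (Ideal.pow_mem_pow hX n)) ?_
  have htr : ((PowerSeries.trunc n g : Polynomial A) : PowerSeries A) =
      ∑ m ∈ Finset.Ico 0 n, PowerSeries.C (PowerSeries.coeff m g) * PowerSeries.X ^ m := by
    rw [PowerSeries.trunc_apply, ← Polynomial.coeToPowerSeries.ringHom_apply, map_sum]
    refine Finset.sum_congr rfl fun m _ => ?_
    rw [Polynomial.coeToPowerSeries.ringHom_apply, Polynomial.coe_monomial,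
      PowerSeries.monomial_eq_C_mul_X_pow]
  rw [htr]
  refine Ideal.sum_mem _ fun m hm => ?_
  have hmn : m < n := (Finset.mem_Ico.mp hm).2
  have h1 : PowerSeries.C (PowerSeries.coeff m g) ∈ J ^ (n - m) := by
    have h2 : PowerSeries.C (PowerSeries.coeff m g) ∈
        (I ^ (n - m)).map (PowerSeries.C (R := A)) := Ideal.mem_map_of_mem _ (hg m)
    rw [Ideal.map_pow] at h2
    exact Ideal.pow_right_mono hI _ h2
  have h3 : (PowerSeries.X : PowerSeries A) ^ m ∈ J ^ m := Ideal.pow_mem_pow hX m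
  have h4 := Ideal.mul_mem_mul h1 h3
  rwa [← pow_add, Nat.sub_add_cancel hmn.le] at h4

theorem maximalIdeal_powerSeries_eq [IsLocalRing A] :
    maximalIdeal (PowerSeries A) =
      (maximalIdeal A).map (PowerSeries.C (R := A)) ⊔ Ideal.span {PowerSeries.X} := by
  have hXmem : (PowerSeries.X : PowerSeries A) ∈ maximalIdeal (PowerSeries A) := by
    rw [mem_maximalIdeal, mem_nonunits_iff, PowerSeries.isUnit_iff_constantCoeff]
    simp
  have hCmem : ∀ a ∈ maximalIdeal A, PowerSeries.C a ∈ maximalIdeal (PowerSeries A) := by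
    intro a ha
    rw [mem_maximalIdeal, mem_nonunits_iff, PowerSeries.isUnit_iff_constantCoeff]
    simpa using ha
  refine le_antisymm ?_ ?_
  · intro g hg
    have ha : PowerSeries.constantCoeff g ∈ maximalIdeal A := by
      rw [mem_maximalIdeal, mem_nonunits_iff] at hg ⊢
      rwa [PowerSeries.isUnit_iff_constantCoeff] at hg
    rw [PowerSeries.eq_X_mul_shift_add_const g]
    refine Ideal.add_mem _ (Ideal.mem_sup_right ?_) (Ideal.mem_sup_left ?_)
    · exact Ideal.mul_mem_right _ _ (Ideal.mem_span_singleton_self _)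
    · exact Ideal.mem_map_of_mem _ ha
  · refine sup_le ?_ ((Ideal.span_singleton_le_iff_mem _).mpr hXmem)
    rw [Ideal.map_le_iff_le_comap]
    exact fun a ha => hCmem a ha

theorem maximalIdeal_powerSeries_le_coeffIdeal [IsLocalRing A] :
    maximalIdeal (PowerSeries A) ≤ coeffIdeal (maximalIdeal A) 1 := by
  intro g hg j
  rcases Nat.eq_zero_or_pos j with rfl | hj
  · rw [mem_maximalIdeal, mem_nonunits_iff, PowerSeries.isUnit_iff_constantCoeff] at hg
    simpa using hg
  · have : 1 - j = 0 := by omega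
    rw [this, pow_zero, Ideal.one_eq_top]; trivial

theorem maximalIdeal_powerSeries_pow_eq [IsLocalRing A] (n : ℕ) :
    maximalIdeal (PowerSeries A) ^ n = coeffIdeal (maximalIdeal A) n := by
  refine le_antisymm (pow_le_coeffIdeal _ _ maximalIdeal_powerSeries_le_coeffIdeal n)
    (coeffIdeal_le_pow _ _ ?_ ?_ n)
  · rw [maximalIdeal_powerSeries_eq]
    exact Ideal.mem_sup_right (Ideal.mem_span_singleton_self _)
  · rw [maximalIdeal_powerSeries_eq]
    exact le_sup_left

/-- A power series ring over a complete Noetherian local ring is complete with respect to its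
maximal ideal. -/
theorem isAdicComplete_powerSeries [IsLocalRing A] [IsNoetherianRing A]
    [IsAdicComplete (maximalIdeal A) A] :
    IsAdicComplete (maximalIdeal (PowerSeries A)) (PowerSeries A) := by
  have hprec : IsPrecomplete (maximalIdeal (PowerSeries A)) (PowerSeries A) := by
    refine ⟨fun f hf => ?_⟩
    have hf' : ∀ {m n}, m ≤ n → f m - f n ∈ coeffIdeal (maximalIdeal A) m := by
      intro m n hmn
      have := hf hmn
      rw [SModEq.sub_mem, smul_eq_mul, Ideal.mul_top] at this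
      rwa [maximalIdeal_powerSeries_pow_eq] at this
    -- the coefficient sequences are Cauchy
    have hcau : ∀ j : ℕ, ∃ b : A, ∀ n, PowerSeries.coeff j (f (n + j)) ≡ b
        [SMOD (maximalIdeal A ^ n • ⊤ : Submodule A A)] := by
      intro j
      refine IsPrecomplete.prec' (I := maximalIdeal A)
        (fun n => PowerSeries.coeff j (f (n + j))) ?_
      intro m n hmn
      rw [SModEq.sub_mem, smul_eq_mul, Ideal.mul_top, ← map_sub]
      have := hf' (Nat.add_le_add_right hmn j) j
      rwa [Nat.add_sub_cancel] at this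
    choose b hb using hcau
    refine ⟨PowerSeries.mk b, fun n => ?_⟩
    rw [SModEq.sub_mem, smul_eq_mul, Ideal.mul_top, maximalIdeal_powerSeries_pow_eq]
    intro j
    rw [map_sub, PowerSeries.coeff_mk]
    by_cases hjn : j ≤ n
    · have := hb j (n - j)
      rw [SModEq.sub_mem, smul_eq_mul, Ideal.mul_top, Nat.sub_add_cancel hjn] at this
      exact this
    · have : n - j = 0 := by omega
      rw [this, pow_zero, Ideal.one_eq_top]; trivial
  exact { toIsHausdorff := inferInstance, toIsPrecomplete := hprec }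

end OneVariable

section Transport

theorem map_maximalIdeal_ringEquiv {B B' : Type*} [CommRing B] [IsLocalRing B] [CommRing B']
    [IsLocalRing B'] (e : B ≃+* B') : (maximalIdeal B).map e = maximalIdeal B' := by
  refine le_antisymm ?_ ?_
  · rw [Ideal.map_le_iff_le_comap]
    intro a ha
    rw [Ideal.mem_comap]
    rw [mem_maximalIdeal, mem_nonunits_iff] at ha ⊢
    intro hu
    exact ha ((isUnit_map_iff e a).mp hu)
  · intro b hb
    have hb' : e.symm b ∈ maximalIdeal B := by
      rw [mem_maximalIdeal, mem_nonunits_iff] at hb ⊢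
      intro hu
      exact hb (by simpa using hu.map e)
    have := Ideal.mem_map_of_mem e hb'
    simpa using this

theorem isAdicComplete_maximalIdeal_of_ringEquiv {B B' : Type*} [CommRing B] [IsLocalRing B]
    [CommRing B'] [IsLocalRing B'] (e : B ≃+* B')
    [h : IsAdicComplete (maximalIdeal B) B] : IsAdicComplete (maximalIdeal B') B' := by
  rw [← map_maximalIdeal_ringEquiv e]
  exact (IsAdicComplete.congr_ringEquiv (maximalIdeal B) e).mpr h

end Transport

/-- The power series ring in finitely many variables over a complete Noetherian local ring is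
complete with respect to its maximal ideal. -/
theorem isAdicComplete_mvPowerSeries_fin (𝒪 : Type*) [CommRing 𝒪] [IsLocalRing 𝒪]
    [IsNoetherianRing 𝒪] [IsAdicComplete (maximalIdeal 𝒪) 𝒪] (D : ℕ) :
    IsAdicComplete (maximalIdeal (MvPowerSeries (Fin D) 𝒪)) (MvPowerSeries (Fin D) 𝒪) := by
  induction D with
  | zero =>
    exact isAdicComplete_maximalIdeal_of_ringEquiv
      (MvPowerSeries.isEmptyEquiv (Fin 0) 𝒪).toRingEquiv.symm
  | succ D ih =>
    have := isAdicComplete_powerSeries (A := MvPowerSeries (Fin D) 𝒪)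
    exact isAdicComplete_maximalIdeal_of_ringEquiv
      (MvPowerSeries.finSuccEquiv 𝒪 D).toRingEquiv.symm

/-- The power series ring in finitely many variables over a complete Noetherian local ring is
complete with respect to its maximal ideal. -/
theorem isAdicComplete_mvPowerSeries (σ : Type*) [Finite σ] (𝒪 : Type*) [CommRing 𝒪]
    [IsLocalRing 𝒪] [IsNoetherianRing 𝒪] [IsAdicComplete (maximalIdeal 𝒪) 𝒪] :
    IsAdicComplete (maximalIdeal (MvPowerSeries σ 𝒪)) (MvPowerSeries σ 𝒪) := by
  cases nonempty_fintype σ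
  have := isAdicComplete_mvPowerSeries_fin 𝒪 (Fintype.card σ)
  exact isAdicComplete_maximalIdeal_of_ringEquiv
    (MvPowerSeries.renameEquiv 𝒪 (Fintype.equivFin σ)).toRingEquiv.symm


section Structure

variable (𝒪 : Type*) [CommRing 𝒪] [IsLocalRing 𝒪]

theorem mvPowerSeries_X_mem_maximalIdeal {σ : Type*} (i : σ) :
    (MvPowerSeries.X i : MvPowerSeries σ 𝒪) ∈ maximalIdeal (MvPowerSeries σ 𝒪) := by
  rw [mem_maximalIdeal, mem_nonunits_iff, MvPowerSeries.isUnit_iff_constantCoeff]
  simp

theorem mvPowerSeries_C_mem_maximalIdeal {σ : Type*} {a : 𝒪} (ha : a ∈ maximalIdeal 𝒪) :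
    (MvPowerSeries.C a : MvPowerSeries σ 𝒪) ∈ maximalIdeal (MvPowerSeries σ 𝒪) := by
  rw [mem_maximalIdeal, mem_nonunits_iff, MvPowerSeries.isUnit_iff_constantCoeff]
  simpa using ha

/-- The maximal ideal of `𝒪⟦X₁,…,X_D⟧` is generated by the maximal ideal of `𝒪` and the
variables. -/
theorem maximalIdeal_mvPowerSeries_fin_eq (D : ℕ) :
    maximalIdeal (MvPowerSeries (Fin D) 𝒪) =
      (maximalIdeal 𝒪).map (MvPowerSeries.C (σ := Fin D) (R := 𝒪)) ⊔
        Ideal.span (Set.range (MvPowerSeries.X (σ := Fin D) (R := 𝒪))) := by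
  refine le_antisymm ?_ ?_
  · induction D with
    | zero =>
      intro f hf
      refine Ideal.mem_sup_left ?_
      have hf' : MvPowerSeries.constantCoeff f ∈ maximalIdeal 𝒪 := by
        rw [mem_maximalIdeal, mem_nonunits_iff] at hf ⊢
        rwa [MvPowerSeries.isUnit_iff_constantCoeff] at hf
      have hfe : f = MvPowerSeries.C (MvPowerSeries.constantCoeff f) := by
        have := (MvPowerSeries.isEmptyEquiv (Fin 0) 𝒪).left_inv f
        exact this.symm
      rw [hfe]
      exact Ideal.mem_map_of_mem _ hf'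
    | succ D ih =>
      intro f hf
      set e := MvPowerSeries.finSuccEquiv 𝒪 D with he
      set I : Ideal (MvPowerSeries (Fin (D + 1)) 𝒪) :=
        (maximalIdeal 𝒪).map (MvPowerSeries.C (σ := Fin (D + 1)) (R := 𝒪)) ⊔
          Ideal.span (Set.range (MvPowerSeries.X (σ := Fin (D + 1)) (R := 𝒪))) with hI
      have hef : e f ∈ maximalIdeal (PowerSeries (MvPowerSeries (Fin D) 𝒪)) := by
        rw [← map_maximalIdeal_ringEquiv e.toRingEquiv]
        exact Ideal.mem_map_of_mem _ hf
      rw [maximalIdeal_powerSeries_eq] at hef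
      have hle : (maximalIdeal (MvPowerSeries (Fin D) 𝒪)).map
            (PowerSeries.C (R := MvPowerSeries (Fin D) 𝒪)) ⊔ Ideal.span {PowerSeries.X} ≤
          I.map (e : MvPowerSeries (Fin (D + 1)) 𝒪 →+* PowerSeries (MvPowerSeries (Fin D) 𝒪)) := by
        refine sup_le ?_ ?_
        · refine (Ideal.map_mono ih).trans ?_
          rw [Ideal.map_sup, Ideal.map_map, Ideal.map_span]
          refine sup_le ?_ ?_
          · rw [Ideal.map_le_iff_le_comap]
            intro a ha
            rw [Ideal.mem_comap]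
            have : (PowerSeries.C.comp MvPowerSeries.C) a = e (MvPowerSeries.C a) := by
              rw [he, MvPowerSeries.finSuccEquiv_C]; rfl
            rw [this]
            exact Ideal.mem_map_of_mem _ (Ideal.mem_sup_left (Ideal.mem_map_of_mem _ ha))
          · rw [Ideal.span_le]
            rintro _ ⟨_, ⟨j, rfl⟩, rfl⟩
            have : PowerSeries.C (MvPowerSeries.X j) =
                e (MvPowerSeries.X j.succ : MvPowerSeries (Fin (D + 1)) 𝒪) := by
              rw [he, MvPowerSeries.finSuccEquiv_X_succ]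
            rw [this]
            exact Ideal.mem_map_of_mem _
              (Ideal.mem_sup_right (Ideal.subset_span ⟨j.succ, rfl⟩))
        · rw [Ideal.span_singleton_le_iff_mem]
          have : (PowerSeries.X : PowerSeries (MvPowerSeries (Fin D) 𝒪)) =
              e (MvPowerSeries.X 0 : MvPowerSeries (Fin (D + 1)) 𝒪) := by
            rw [he, MvPowerSeries.finSuccEquiv_X_zero]
          rw [this]
          exact Ideal.mem_map_of_mem _ (Ideal.mem_sup_right (Ideal.subset_span ⟨0, rfl⟩))
      have h1 := hle hef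
      have h2 : e.symm (e f) ∈ I := by
        have h3 := Ideal.mem_map_of_mem
          (e.symm : PowerSeries (MvPowerSeries (Fin D) 𝒪) →+* MvPowerSeries (Fin (D + 1)) 𝒪) h1
        rw [Ideal.map_map] at h3
        have h4 : ((e.symm : PowerSeries (MvPowerSeries (Fin D) 𝒪) →+*
            MvPowerSeries (Fin (D + 1)) 𝒪).comp
            (e : MvPowerSeries (Fin (D + 1)) 𝒪 →+* PowerSeries (MvPowerSeries (Fin D) 𝒪))) =
            RingHom.id _ := by
          ext x; simp
        rw [h4, Ideal.map_id] at h3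
        exact h3
      simpa using h2
  · refine sup_le ?_ ?_
    · rw [Ideal.map_le_iff_le_comap]
      exact fun a ha => mvPowerSeries_C_mem_maximalIdeal 𝒪 ha
    · rw [Ideal.span_le]
      rintro _ ⟨i, rfl⟩
      exact mvPowerSeries_X_mem_maximalIdeal 𝒪 i

end Structure

section LocalHom

variable (𝒪 : Type*) [CommRing 𝒪] [IsLocalRing 𝒪]

omit [IsLocalRing 𝒪] in
theorem isLocalHom_algebraMap_mvPowerSeries (σ : Type*) :
    IsLocalHom (algebraMap 𝒪 (MvPowerSeries σ 𝒪)) where
  map_nonunit a ha := by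
    rw [MvPowerSeries.algebraMap_apply, MvPowerSeries.isUnit_iff_constantCoeff] at ha
    simpa using ha

theorem residue_comp_algebraMap_mvPowerSeries_surjective (σ : Type*) :
    Function.Surjective
      (IsLocalRing.residue (MvPowerSeries σ 𝒪) ∘ algebraMap 𝒪 (MvPowerSeries σ 𝒪)) := by
  intro x
  obtain ⟨f, rfl⟩ := IsLocalRing.residue_surjective x
  refine ⟨MvPowerSeries.constantCoeff f, ?_⟩
  rw [Function.comp_apply, eq_comm, ← sub_eq_zero, ← map_sub, IsLocalRing.residue_eq_zero_iff,
    mem_maximalIdeal, mem_nonunits_iff, MvPowerSeries.isUnit_iff_constantCoeff]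
  simp [MvPowerSeries.algebraMap_apply]

theorem finite_residueField_mvPowerSeries (σ : Type*) [Finite (ResidueField 𝒪)] :
    Finite (ResidueField (MvPowerSeries σ 𝒪)) := by
  have hloc := isLocalHom_algebraMap_mvPowerSeries 𝒪 σ
  have hsurj : Function.Surjective
      (IsLocalRing.ResidueField.map (algebraMap 𝒪 (MvPowerSeries σ 𝒪))) := by
    intro x
    obtain ⟨a, ha⟩ := residue_comp_algebraMap_mvPowerSeries_surjective 𝒪 σ x
    exact ⟨IsLocalRing.residue 𝒪 a, by rw [← ha]; rfl⟩
  exact Finite.of_surjective _ hsurj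

theorem finite_mvPowerSeries_quotient_pow [IsNoetherianRing 𝒪] [Finite (ResidueField 𝒪)]
    (D n : ℕ) :
    Finite (MvPowerSeries (Fin D) 𝒪 ⧸ maximalIdeal (MvPowerSeries (Fin D) 𝒪) ^ n) := by
  have := finite_residueField_mvPowerSeries 𝒪 (Fin D)
  exact IsLocalRing.finite_quotient_iff.mpr ⟨n, le_rfl⟩

end LocalHom

section AlgHom

variable (σ : Type*) [Finite σ] (𝒪 : Type*) [CommRing 𝒪]

omit [Finite σ] in
theorem aeval_mem_pow {A : Type*} [CommRing A] [Algebra 𝒪 A] (I : Ideal A)
    (a : σ → A) (ha : ∀ s, a s ∈ I) (n : ℕ) (p : MvPolynomial σ 𝒪)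
    (hp : p ∈ MvPolynomial.idealOfVars σ 𝒪 ^ n) : MvPolynomial.aeval a p ∈ I ^ n := by
  have h1 : (MvPolynomial.idealOfVars σ 𝒪).map
      (MvPolynomial.aeval a : MvPolynomial σ 𝒪 →ₐ[𝒪] A).toRingHom ≤ I := by
    rw [MvPolynomial.idealOfVars, Ideal.map_span, Ideal.span_le]
    rintro _ ⟨_, ⟨s, rfl⟩, rfl⟩
    simpa using ha s
  have h2 := Ideal.mem_map_of_mem (MvPolynomial.aeval a : MvPolynomial σ 𝒪 →ₐ[𝒪] A).toRingHom hp
  rw [Ideal.map_pow] at h2
  exact Ideal.pow_right_mono h1 n h2

theorem sub_truncTotal_mem (n : ℕ) (f : MvPowerSeries σ 𝒪) :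
    f - ((MvPowerSeries.truncTotal n f : MvPolynomial σ 𝒪) : MvPowerSeries σ 𝒪) ∈
      (MvPolynomial.idealOfVars σ 𝒪 ^ n • ⊤ :
        Submodule (MvPolynomial σ 𝒪) (MvPowerSeries σ 𝒪)) := by
  set g := f - ((MvPowerSeries.truncTotal n f : MvPolynomial σ 𝒪) : MvPowerSeries σ 𝒪) with hg
  set e := MvPowerSeries.toAdicCompletionAlgEquiv σ 𝒪 with he
  have hgt : MvPowerSeries.truncTotal n g ∈ MvPolynomial.idealOfVars σ 𝒪 ^ n := by
    rw [MvPolynomial.mem_pow_idealOfVars_iff']
    intro x hx
    rw [MvPowerSeries.coeff_truncTotal _ hx, hg, map_sub, MvPolynomial.coeff_coe,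
      MvPowerSeries.coeff_truncTotal _ hx, sub_self]
  have h1 : e g ∈ (MvPolynomial.idealOfVars σ 𝒪 ^ n • ⊤ : Submodule (MvPolynomial σ 𝒪)
      (AdicCompletion (MvPolynomial.idealOfVars σ 𝒪) (MvPolynomial σ 𝒪))) := by
    rw [AdicCompletion.pow_smul_top_eq_ker_eval (MvPolynomial.idealOfVars_fg σ 𝒪),
      LinearMap.mem_ker, AdicCompletion.eval_apply, he, MvPowerSeries.toAdicCompletionAlgEquiv_apply,
      MvPowerSeries.toAdicCompletion_apply_eq_mk_truncTotal]
    rw [Ideal.Quotient.eq_zero_iff_mem, smul_eq_mul, Ideal.mul_top]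
    exact hgt
  have h2 := Submodule.mem_map_of_mem (f := e.symm.toLinearMap) h1
  rw [Submodule.map_smul'', Submodule.map_top, LinearMap.range_eq_top.mpr e.symm.surjective] at h2
  simpa using h2

theorem algHom_apply_eq {A : Type*} [CommRing A] [Algebra 𝒪 A] (I : Ideal A) (n : ℕ)
    (hn : I ^ n = ⊥) (φ : MvPowerSeries σ 𝒪 →ₐ[𝒪] A) (h : ∀ s, φ (MvPowerSeries.X s) ∈ I)
    (f : MvPowerSeries σ 𝒪) :
    φ f = MvPolynomial.aeval (fun s => φ (MvPowerSeries.X s)) (MvPowerSeries.truncTotal n f) := by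
  have hcoe : ∀ p : MvPolynomial σ 𝒪, φ (p : MvPowerSeries σ 𝒪) =
      MvPolynomial.aeval (fun s => φ (MvPowerSeries.X s)) p := by
    intro p
    have : (φ.comp (MvPolynomial.coeToMvPowerSeries.algHom 𝒪)) =
        MvPolynomial.aeval (fun s => φ (MvPowerSeries.X s)) := by
      apply MvPolynomial.algHom_ext
      intro s
      simp
    rw [← this]
    simp
  have hkill : ∀ g ∈ (MvPolynomial.idealOfVars σ 𝒪 ^ n • ⊤ :
      Submodule (MvPolynomial σ 𝒪) (MvPowerSeries σ 𝒪)), φ g = 0 := by
    intro g hg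
    refine Submodule.smul_induction_on hg ?_ ?_
    · intro p hp x _
      rw [Algebra.smul_def, map_mul, MvPowerSeries.algebraMap_apply', Algebra.algebraMap_self,
        MvPowerSeries.map_id, RingHom.id_apply, hcoe]
      have := aeval_mem_pow σ 𝒪 I _ h n p hp
      rw [hn, Ideal.mem_bot] at this
      rw [this, zero_mul]
    · intro x y hx hy
      rw [map_add, hx, hy, add_zero]
  have := hkill _ (sub_truncTotal_mem σ 𝒪 n f)
  rw [map_sub, sub_eq_zero, hcoe] at this
  exact this

theorem exists_algHom {A : Type*} [CommRing A] [Algebra 𝒪 A] (I : Ideal A)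
    (hI : IsNilpotent I) (a : σ → A) (ha : ∀ s, a s ∈ I) :
    ∃ φ : MvPowerSeries σ 𝒪 →ₐ[𝒪] A, ∀ s, φ (MvPowerSeries.X s) = a s := by
  obtain ⟨n, hn⟩ := hI
  have h2 : ∀ p ∈ MvPolynomial.idealOfVars σ 𝒪 ^ n,
      (MvPolynomial.aeval a : MvPolynomial σ 𝒪 →ₐ[𝒪] A) p = 0 := by
    intro p hp
    have := aeval_mem_pow σ 𝒪 I a ha n p hp
    rw [hn] at this
    simpa using this
  let ψ : (MvPolynomial σ 𝒪 ⧸ MvPolynomial.idealOfVars σ 𝒪 ^ n) →ₐ[𝒪] A :=
    Ideal.Quotient.liftₐ _ (MvPolynomial.aeval a) h2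
  let τ : MvPowerSeries σ 𝒪 →ₐ[𝒪] (MvPolynomial σ 𝒪 ⧸ MvPolynomial.idealOfVars σ 𝒪 ^ n) :=
    (MvPowerSeries.truncTotalAlgHom σ 𝒪 n).restrictScalars 𝒪
  refine ⟨ψ.comp τ, fun s => ?_⟩
  have hX : (MvPowerSeries.X s : MvPowerSeries σ 𝒪) =
      algebraMap (MvPolynomial σ 𝒪) (MvPowerSeries σ 𝒪) (MvPolynomial.X s) := by
    rw [MvPowerSeries.algebraMap_apply', Algebra.algebraMap_self, MvPowerSeries.map_id,
      RingHom.id_apply, MvPolynomial.coe_X]
  have h3 : τ (MvPowerSeries.X s) =
      Ideal.Quotient.mk (MvPolynomial.idealOfVars σ 𝒪 ^ n) (MvPolynomial.X s) := by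
    rw [hX]
    exact (MvPowerSeries.truncTotalAlgHom σ 𝒪 n).commutes (MvPolynomial.X s)
  rw [AlgHom.comp_apply, h3]
  simp [ψ]

theorem algHom_ext {A : Type*} [CommRing A] [Algebra 𝒪 A] (I : Ideal A)
    (hI : IsNilpotent I) (φ φ' : MvPowerSeries σ 𝒪 →ₐ[𝒪] A)
    (h : ∀ s, φ (MvPowerSeries.X s) ∈ I)
    (heq : ∀ s, φ (MvPowerSeries.X s) = φ' (MvPowerSeries.X s)) : φ = φ' := by
  obtain ⟨n, hn⟩ := hI
  ext f
  rw [algHom_apply_eq σ 𝒪 I n hn φ h f,
    algHom_apply_eq σ 𝒪 I n hn φ' (fun s => heq s ▸ h s) f]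
  congr 2
  funext s
  exact heq s

end AlgHom

end Fermat.Agent.S53.PowerSeries

namespace Fermat.Agent.S53

open IsLocalRing

section

set_option linter.unusedSectionVars false

variable (σ : Type) [Finite σ] (𝒪 : Type) [CommRing 𝒪] [IsLocalRing 𝒪] [IsNoetherianRing 𝒪]

/-- The structure map into the power series ring is a local homomorphism. -/
theorem mvPowerSeries_isLocalHom_algebraMap :
    IsLocalHom (algebraMap 𝒪 (MvPowerSeries σ 𝒪)) :=
  PowerSeries.isLocalHom_algebraMap_mvPowerSeries 𝒪 σ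

/-- The residue field of the power series ring is that of the coefficient ring. -/
theorem mvPowerSeries_residue_surjective :
    Function.Surjective (residue (MvPowerSeries σ 𝒪) ∘ algebraMap 𝒪 (MvPowerSeries σ 𝒪)) :=
  PowerSeries.residue_comp_algebraMap_mvPowerSeries_surjective 𝒪 σ

/-- The variables are in the maximal ideal. -/
theorem mvPowerSeries_X_mem_maximalIdeal (s : σ) :
    (MvPowerSeries.X s : MvPowerSeries σ 𝒪) ∈ maximalIdeal (MvPowerSeries σ 𝒪) :=
  PowerSeries.mvPowerSeries_X_mem_maximalIdeal 𝒪 s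

/-- The power series ring over a complete Noetherian local ring is complete for its maximal
ideal. -/
theorem mvPowerSeries_isAdicComplete [IsAdicComplete (maximalIdeal 𝒪) 𝒪] :
    IsAdicComplete (maximalIdeal (MvPowerSeries σ 𝒪)) (MvPowerSeries σ 𝒪) :=
  PowerSeries.isAdicComplete_mvPowerSeries σ 𝒪

/-- Existence of an algebra map out of the power series ring with prescribed values on the
variables, provided these values lie in a nilpotent ideal. -/
theorem mvPowerSeries_exists_algHom {A : Type*} [CommRing A] [Algebra 𝒪 A] (I : Ideal A)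
    (hI : IsNilpotent I) (a : σ → A) (ha : ∀ s, a s ∈ I) :
    ∃ φ : MvPowerSeries σ 𝒪 →ₐ[𝒪] A, ∀ s, φ (MvPowerSeries.X s) = a s :=
  PowerSeries.exists_algHom σ 𝒪 I hI a ha

/-- Uniqueness of an algebra map out of the power series ring with prescribed values on the
variables, provided these values lie in a nilpotent ideal. -/
theorem mvPowerSeries_algHom_ext {A : Type*} [CommRing A] [Algebra 𝒪 A] (I : Ideal A)
    (hI : IsNilpotent I) (φ φ' : MvPowerSeries σ 𝒪 →ₐ[𝒪] A)
    (h : ∀ s, φ (MvPowerSeries.X s) ∈ I)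
    (heq : ∀ s, φ (MvPowerSeries.X s) = φ' (MvPowerSeries.X s)) : φ = φ' :=
  PowerSeries.algHom_ext σ 𝒪 I hI φ φ' h heq

end

end Fermat.Agent.S53
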