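import Mathlib
import Fermat.Agent.S53.Base

set_option autoImplicit false

namespace Fermat.Agent.S53

open IsLocalRing GaloisRep

section

variable (𝒪 : Type) [CommRing 𝒪] [IsLocalRing 𝒪]

/-! ### Augmentations: `𝒪`-algebra maps to the residue field of `𝒪` -/

/-- A local `𝒪`-algebra with local structure map and residue field that of `𝒪` has an
augmentation to the residue field of `𝒪`. -/
theorem exists_aug {A : Type*} [CommRing A] [IsLocalRing A] [Algebra 𝒪 A]
    (hloc : IsLocalHom (algebraMap 𝒪 A))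
    (hsurj : Function.Surjective (residue A ∘ algebraMap 𝒪 A)) :
    Nonempty (A →ₐ[𝒪] ResidueField 𝒪) := by
  have := hloc
  -- the map on residue fields
  let φ : ResidueField 𝒪 →+* ResidueField A := ResidueField.map (algebraMap 𝒪 A)
  have hφ : ∀ o : 𝒪, φ (residue 𝒪 o) = residue A (algebraMap 𝒪 A o) := fun o => rfl
  have hbij : Function.Bijective φ := by
    refine ⟨φ.injective, fun y => ?_⟩
    obtain ⟨o, ho⟩ := hsurj y
    exact ⟨residue 𝒪 o, ho⟩
  let e : ResidueField 𝒪 ≃+* ResidueField A := RingEquiv.ofBijective φ hbij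
  refine ⟨{ toRingHom := (e.symm : ResidueField A →+* ResidueField 𝒪).comp (residue A)
            commutes' := fun o => ?_ }⟩
  change e.symm (e (residue 𝒪 o)) = residue 𝒪 o
  exact e.symm_apply_apply _

/-- The augmentation of a local `𝒪`-algebra with residue field that of `𝒪`. -/
noncomputable def aug {A : Type*} [CommRing A] [IsLocalRing A] [Algebra 𝒪 A]
    (hloc : IsLocalHom (algebraMap 𝒪 A))
    (hsurj : Function.Surjective (residue A ∘ algebraMap 𝒪 A)) : A →ₐ[𝒪] ResidueField 𝒪 :=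
  (exists_aug 𝒪 hloc hsurj).some

variable {𝒪}

theorem TestAlg.algHom_algebraMap {A : Type*} [CommRing A] [Algebra 𝒪 A]
    (π : A →ₐ[𝒪] ResidueField 𝒪) (o : 𝒪) : π (algebraMap 𝒪 A o) = residue 𝒪 o :=
  π.commutes o

theorem algHom_residueField_surjective {A : Type*} [CommRing A] [Algebra 𝒪 A]
    (π : A →ₐ[𝒪] ResidueField 𝒪) : Function.Surjective π := by
  intro y
  obtain ⟨o, rfl⟩ := residue_surjective y
  exact ⟨algebraMap 𝒪 A o, π.commutes o⟩

theorem ker_algHom_residueField {A : Type*} [CommRing A] [IsLocalRing A] [Algebra 𝒪 A]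
    (π : A →ₐ[𝒪] ResidueField 𝒪) :
    RingHom.ker (π : A →+* ResidueField 𝒪) = maximalIdeal A := by
  have hmax : (RingHom.ker (π : A →+* ResidueField 𝒪)).IsMaximal :=
    RingHom.ker_isMaximal_of_surjective (π : A →+* ResidueField 𝒪)
      (algHom_residueField_surjective π)
  exact IsLocalRing.eq_maximalIdeal hmax

theorem algHom_residueField_eq_zero_iff {A : Type*} [CommRing A] [IsLocalRing A] [Algebra 𝒪 A]
    (π : A →ₐ[𝒪] ResidueField 𝒪) (x : A) : π x = 0 ↔ x ∈ maximalIdeal A := by
  rw [← ker_algHom_residueField π, RingHom.mem_ker]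
  rfl

/-- Any two augmentations of a local `𝒪`-algebra agree. -/
theorem algHom_residueField_unique {A : Type*} [CommRing A] [IsLocalRing A] [Algebra 𝒪 A]
    (π π' : A →ₐ[𝒪] ResidueField 𝒪) : π = π' := by
  ext x
  obtain ⟨o, ho⟩ := residue_surjective (π x)
  have h1 : π (x - algebraMap 𝒪 A o) = 0 := by
    rw [map_sub, TestAlg.algHom_algebraMap, ho, sub_self]
  have h2 : π' (x - algebraMap 𝒪 A o) = 0 := by
    rw [algHom_residueField_eq_zero_iff] at h1 ⊢
    exact h1
  rw [map_sub, TestAlg.algHom_algebraMap, sub_eq_zero] at h2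
  rw [h2, ho]

theorem isLocalHom_algebraMap_of_aug {A : Type*} [CommRing A] [IsLocalRing A] [Algebra 𝒪 A]
    (π : A →ₐ[𝒪] ResidueField 𝒪) : IsLocalHom (algebraMap 𝒪 A) := by
  refine ⟨fun o ho => ?_⟩
  have h1 : IsUnit (π (algebraMap 𝒪 A o)) := ho.map π
  rw [TestAlg.algHom_algebraMap] at h1
  by_contra hne
  have : residue 𝒪 o = 0 := (residue_eq_zero_iff o).2 ((mem_maximalIdeal o).2 hne)
  rw [this] at h1
  exact not_isUnit_zero h1

theorem residue_surjective_of_aug {A : Type*} [CommRing A] [IsLocalRing A] [Algebra 𝒪 A]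
    (π : A →ₐ[𝒪] ResidueField 𝒪) : Function.Surjective (residue A ∘ algebraMap 𝒪 A) := by
  intro y
  obtain ⟨x, rfl⟩ := residue_surjective y
  obtain ⟨o, ho⟩ := residue_surjective (π x)
  refine ⟨o, ?_⟩
  have h1 : π (x - algebraMap 𝒪 A o) = 0 := by
    rw [map_sub, TestAlg.algHom_algebraMap, ho, sub_self]
  rw [algHom_residueField_eq_zero_iff, ← residue_eq_zero_iff, map_sub, sub_eq_zero] at h1
  exact h1.symm

/-- An `𝒪`-algebra with an augmentation whose kernel consists of nilpotent elements is local. -/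
theorem isLocalRing_of_aug {P : Type*} [CommRing P] [Algebra 𝒪 P] (π : P →ₐ[𝒪] ResidueField 𝒪)
    (hnil : ∀ x, π x = 0 → IsNilpotent x) : IsLocalRing P := by
  have : Nontrivial P := by
    refine ⟨⟨0, 1, fun h => ?_⟩⟩
    have : π 0 = π 1 := by rw [h]
    rw [map_zero, map_one] at this
    exact zero_ne_one this
  refine IsLocalRing.of_isUnit_or_isUnit_one_sub_self fun x => ?_
  by_cases hx : π x = 0
  · right
    exact (hnil x hx).isUnit_one_sub
  · left
    obtain ⟨y, hy⟩ := algHom_residueField_surjective π (π x)⁻¹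
    have h1 : π (x * y - 1) = 0 := by
      rw [map_sub, map_mul, map_one, hy, mul_inv_cancel₀ hx, sub_self]
    have h2 : IsUnit (x * y) := by
      have := (hnil _ h1).isUnit_add_one
      simpa using this
    exact isUnit_of_mul_isUnit_left h2

/-- Every `𝒪`-algebra map from a local `𝒪`-algebra into an augmented local `𝒪`-algebra is a
local homomorphism. -/
theorem isLocalHom_of_algHom {A B : Type*} [CommRing A] [IsLocalRing A] [Algebra 𝒪 A] [CommRing B]
    [IsLocalRing B] [Algebra 𝒪 B] (πB : B →ₐ[𝒪] ResidueField 𝒪) (f : A →ₐ[𝒪] B) :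
    IsLocalHom (f : A →+* B) := by
  refine ⟨fun a ha => ?_⟩
  by_contra hne
  have h1 : (πB.comp f) a = 0 :=
    (algHom_residueField_eq_zero_iff (πB.comp f) a).2 ((mem_maximalIdeal a).2 hne)
  have h2 : IsUnit (πB (f a)) := ha.map πB
  rw [AlgHom.comp_apply] at h1
  rw [h1] at h2
  exact not_isUnit_zero h2

/-- A lift in the sense of `IsLift` is the same as a matrix representation that the augmentation
maps to the residual one. -/
theorem isLift_iff_map_aug {A : Type} [CommRing A] [IsLocalRing A] [Algebra 𝒪 A]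
    (π : A →ₐ[𝒪] ResidueField 𝒪) (Mbar : GalQ →* Matrix (Fin 2) (Fin 2) (ResidueField 𝒪))
    (M : GalQ →* Matrix (Fin 2) (Fin 2) A) :
    IsLift 𝒪 Mbar M ↔ ∀ σ i j, π (M σ i j) = Mbar σ i j := by
  constructor
  · intro h σ i j
    obtain ⟨o, ho, hmem⟩ := h σ i j
    rw [← algHom_residueField_eq_zero_iff π, map_sub, TestAlg.algHom_algebraMap,
      sub_eq_zero] at hmem
    rw [hmem, ho]
  · intro h σ i j
    obtain ⟨o, ho⟩ := residue_surjective (Mbar σ i j)
    refine ⟨o, ho, ?_⟩
    rw [← algHom_residueField_eq_zero_iff π, map_sub, TestAlg.algHom_algebraMap, h, ho, sub_self]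

/-! ### Artinian test algebras -/

theorem isArtinianTestAlgebra_of_aug {A : Type} [CommRing A] [IsLocalRing A] [Algebra 𝒪 A]
    [IsArtinianRing A] (π : A →ₐ[𝒪] ResidueField 𝒪) : IsArtinianTestAlgebra 𝒪 A :=
  ⟨isLocalHom_algebraMap_of_aug π, residue_surjective_of_aug π, inferInstance⟩

theorem isNilpotent_maximalIdeal_of_test {A : Type} [CommRing A] [IsLocalRing A] [Algebra 𝒪 A]
    (hA : IsArtinianTestAlgebra 𝒪 A) : IsNilpotent (maximalIdeal A) := by
  have := hA.isArtinian
  have h := IsArtinianRing.isNilpotent_jacobson_bot (R := A)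
  rwa [IsLocalRing.jacobson_eq_maximalIdeal (⊥ : Ideal A) bot_ne_top] at h

/-- In an Artinian test algebra, the elements of the maximal ideal are nilpotent. -/
theorem TestAlg.isNilpotent_of_mem_maximalIdeal {A : Type} [CommRing A] [IsLocalRing A]
    [Algebra 𝒪 A] (hA : IsArtinianTestAlgebra 𝒪 A) {x : A} (hx : x ∈ maximalIdeal A) :
    IsNilpotent x := by
  obtain ⟨n, hn⟩ := isNilpotent_maximalIdeal_of_test hA
  refine ⟨n, ?_⟩
  have h1 : x ^ n ∈ maximalIdeal A ^ n := Ideal.pow_mem_pow hx n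
  rw [hn] at h1
  exact h1

/-- Artinian test algebras over a ring with finite residue field are finite sets. -/
theorem finite_of_test [Finite (ResidueField 𝒪)] {A : Type} [CommRing A] [IsLocalRing A]
    [Algebra 𝒪 A] (hA : IsArtinianTestAlgebra 𝒪 A) : Finite A := by
  have := hA.isArtinian
  let π := aug 𝒪 hA.isLocalHom hA.residue_surjective
  -- the residue field of `A` is finite
  have hfin : Finite (A ⧸ maximalIdeal A) := by
    have hker : RingHom.ker (π : A →+* ResidueField 𝒪) = maximalIdeal A :=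
      ker_algHom_residueField π
    let f : A ⧸ maximalIdeal A →+* ResidueField 𝒪 :=
      Ideal.Quotient.lift (maximalIdeal A) (π : A →+* ResidueField 𝒪)
        (fun a ha => by rwa [← hker] at ha)
    have hf : Function.Injective f := by
      rw [injective_iff_map_eq_zero]
      intro x hx
      obtain ⟨a, rfl⟩ := Ideal.Quotient.mk_surjective x
      rw [Ideal.Quotient.eq_zero_iff_mem, ← hker]
      exact hx
    exact Finite.of_injective f hf
  obtain ⟨n, hn⟩ := isNilpotent_maximalIdeal_of_test hA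
  have hfg : (maximalIdeal A).FG := IsNoetherian.noetherian _
  have h1 : Finite (A ⧸ maximalIdeal A ^ n) := Ideal.finite_quotient_pow hfg n
  rw [hn] at h1
  change Finite (A ⧸ (⊥ : Ideal A)) at h1
  exact Finite.of_equiv _ (RingEquiv.quotientBot A).toEquiv

/-- Over an Artinian test algebra, adic continuity is triviality on an open subgroup. -/
theorem matCont_iff_of_test {A : Type} [CommRing A] [IsLocalRing A] [Algebra 𝒪 A]
    (hA : IsArtinianTestAlgebra 𝒪 A) (M : GalQ →* Matrix (Fin 2) (Fin 2) A) :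
    MatCont M ↔ ∃ L : IntermediateField ℚ (AlgebraicClosure ℚ), FiniteDimensional ℚ L ∧
      ∀ σ : GalQ, (∀ x ∈ L, σ x = x) → M σ = 1 := by
  constructor
  · intro h
    obtain ⟨n, hn⟩ := isNilpotent_maximalIdeal_of_test hA
    obtain ⟨L, hL, hσ⟩ := h n
    refine ⟨L, hL, fun σ hfix => ?_⟩
    ext i j
    have h1 := hσ σ hfix i j
    rw [hn] at h1
    have h2 : (M σ - 1) i j = 0 := h1
    rw [Matrix.sub_apply, sub_eq_zero] at h2
    exact h2
  · rintro ⟨L, hL, hσ⟩ n
    refine ⟨L, hL, fun σ hfix i j => ?_⟩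
    rw [hσ σ hfix, sub_self]
    exact Ideal.zero_mem _

variable (𝒪)

theorem isArtinianTestAlgebra_residueField : IsArtinianTestAlgebra 𝒪 (ResidueField 𝒪) :=
  isArtinianTestAlgebra_of_aug (AlgHom.id 𝒪 (ResidueField 𝒪))

theorem isArtinianTestAlgebra_dualNumber :
    letI := dualAlgebra 𝒪
    IsArtinianTestAlgebra 𝒪 (DualNumber (ResidueField 𝒪)) := by
  letI := dualAlgebra 𝒪
  have hart : IsArtinianRing (DualNumber (ResidueField 𝒪)) := by
    rw [isArtinianRing_iff_isNilpotent_maximalIdeal]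
    refine ⟨2, ?_⟩
    rw [DualNumber.maximalIdeal_eq_span_singleton_eps, Ideal.span_singleton_pow]
    simp
  let π : DualNumber (ResidueField 𝒪) →ₐ[𝒪] ResidueField 𝒪 :=
    { toRingHom := (TrivSqZeroExt.fstHom (ResidueField 𝒪) (ResidueField 𝒪)
        (ResidueField 𝒪)).toRingHom
      commutes' := fun o => rfl }
  exact isArtinianTestAlgebra_of_aug π


variable {𝒪}

/-- Subalgebras of Artinian test algebras are local ... -/
theorem subalgebra_isLocalRing {A : Type} [CommRing A] [IsLocalRing A] [Algebra 𝒪 A]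
    (hA : IsArtinianTestAlgebra 𝒪 A) (B : Subalgebra 𝒪 A) : IsLocalRing B := by
  let π := aug 𝒪 hA.isLocalHom hA.residue_surjective
  refine isLocalRing_of_aug (π.comp B.val) fun x hx => ?_
  have h1 : π (x : A) = 0 := hx
  rw [algHom_residueField_eq_zero_iff] at h1
  obtain ⟨n, hn⟩ := TestAlg.isNilpotent_of_mem_maximalIdeal hA h1
  refine ⟨n, Subtype.ext ?_⟩
  simpa using hn

/-- ... and Artinian test algebras (the residue field of `𝒪` being finite). -/
theorem subalgebra_isArtinianTestAlgebra [Finite (ResidueField 𝒪)] {A : Type} [CommRing A]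
    [IsLocalRing A] [Algebra 𝒪 A] (hA : IsArtinianTestAlgebra 𝒪 A) (B : Subalgebra 𝒪 A) :
    haveI := subalgebra_isLocalRing hA B
    IsArtinianTestAlgebra 𝒪 B := by
  have hloc := subalgebra_isLocalRing hA B
  have hfin : Finite A := finite_of_test hA
  have hfinB : Finite B := inferInstance
  have hart : IsArtinianRing B := inferInstance
  let π := aug 𝒪 hA.isLocalHom hA.residue_surjective
  exact isArtinianTestAlgebra_of_aug (π.comp B.val)

/-- Nontrivial quotients of Artinian test algebras are local ... -/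
theorem quotient_isLocalRing {A : Type*} [CommRing A] [IsLocalRing A] (I : Ideal A) (hI : I ≠ ⊤) :
    IsLocalRing (A ⧸ I) := by
  have := Ideal.Quotient.nontrivial_iff.mpr hI
  exact IsLocalRing.of_surjective' (Ideal.Quotient.mk I) Ideal.Quotient.mk_surjective

/-- The augmentation induced on a nontrivial quotient of an augmented local algebra. -/
noncomputable def TestAlg.quotientAug {A : Type*} [CommRing A] [IsLocalRing A] [Algebra 𝒪 A]
    (π : A →ₐ[𝒪] ResidueField 𝒪) (I : Ideal A) (hI : I ≠ ⊤) : (A ⧸ I) →ₐ[𝒪] ResidueField 𝒪 :=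
  Ideal.Quotient.liftₐ I π fun a ha =>
    (algHom_residueField_eq_zero_iff π a).2 (IsLocalRing.le_maximalIdeal hI ha)

/-- ... and Artinian test algebras. -/
theorem quotient_isArtinianTestAlgebra {A : Type} [CommRing A] [IsLocalRing A] [Algebra 𝒪 A]
    (hA : IsArtinianTestAlgebra 𝒪 A) (I : Ideal A) (hI : I ≠ ⊤) :
    haveI := quotient_isLocalRing I hI
    IsArtinianTestAlgebra 𝒪 (A ⧸ I) := by
  have hloc := quotient_isLocalRing I hI
  have := hA.isArtinian
  have hart : IsArtinianRing (A ⧸ I) :=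
    (Ideal.Quotient.mk_surjective (I := I)).isArtinianRing
  let π := aug 𝒪 hA.isLocalHom hA.residue_surjective
  exact isArtinianTestAlgebra_of_aug (TestAlg.quotientAug π I hI)

/-- The quotients of a Noetherian augmented local `𝒪`-algebra by the powers of its maximal ideal
are Artinian test algebras. -/
theorem quotient_pow_isArtinianTestAlgebra {A : Type} [CommRing A] [IsLocalRing A]
    [IsNoetherianRing A] [Algebra 𝒪 A] (π : A →ₐ[𝒪] ResidueField 𝒪) (n : ℕ)
    (hI : maximalIdeal A ^ (n + 1) ≠ ⊤) :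
    haveI := quotient_isLocalRing (maximalIdeal A ^ (n + 1)) hI
    IsArtinianTestAlgebra 𝒪 (A ⧸ maximalIdeal A ^ (n + 1)) := by
  have hloc := quotient_isLocalRing (maximalIdeal A ^ (n + 1)) hI
  have hart : IsArtinianRing (A ⧸ maximalIdeal A ^ (n + 1)) := by
    rw [isArtinianRing_iff_isNilpotent_maximalIdeal]
    refine ⟨n + 1, ?_⟩
    have hle : maximalIdeal (A ⧸ maximalIdeal A ^ (n + 1)) ≤
        (maximalIdeal A).map (Ideal.Quotient.mk (maximalIdeal A ^ (n + 1))) := by
      intro x hx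
      obtain ⟨a, rfl⟩ := Ideal.Quotient.mk_surjective x
      refine Ideal.mem_map_of_mem _ ?_
      rw [mem_maximalIdeal, mem_nonunits_iff] at hx ⊢
      exact fun ha => hx (ha.map _)
    have h1 := Ideal.pow_right_mono hle (n + 1)
    rw [← Ideal.map_pow, Ideal.map_quotient_self] at h1
    exact le_bot_iff.mp h1
  exact isArtinianTestAlgebra_of_aug (TestAlg.quotientAug π _ hI)

theorem maximalIdeal_pow_succ_ne_top {A : Type*} [CommRing A] [IsLocalRing A] (n : ℕ) :
    maximalIdeal A ^ (n + 1) ≠ ⊤ := by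
  intro h
  have h1 : maximalIdeal A ^ (n + 1) ≤ maximalIdeal A := Ideal.pow_le_self (Nat.succ_ne_zero n)
  rw [h] at h1
  exact (maximalIdeal.isMaximal A).ne_top (top_le_iff.mp h1)

/-- The fibre product of two augmented `𝒪`-algebras over the residue field of `𝒪`. -/
noncomputable def fibreProd {A B : Type} [CommRing A] [Algebra 𝒪 A] [CommRing B] [Algebra 𝒪 B]
    (πA : A →ₐ[𝒪] ResidueField 𝒪) (πB : B →ₐ[𝒪] ResidueField 𝒪) : Subalgebra 𝒪 (A × B) :=
  AlgHom.equalizer (πA.comp (AlgHom.fst 𝒪 A B)) (πB.comp (AlgHom.snd 𝒪 A B))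

theorem mem_fibreProd {A B : Type} [CommRing A] [Algebra 𝒪 A] [CommRing B] [Algebra 𝒪 B]
    (πA : A →ₐ[𝒪] ResidueField 𝒪) (πB : B →ₐ[𝒪] ResidueField 𝒪) (x : A × B) :
    x ∈ fibreProd πA πB ↔ πA x.1 = πB x.2 :=
  Iff.rfl

/-- The augmentation of the fibre product. -/
noncomputable def TestAlg.fibreProdAug {A B : Type} [CommRing A] [Algebra 𝒪 A] [CommRing B]
    [Algebra 𝒪 B] (πA : A →ₐ[𝒪] ResidueField 𝒪) (πB : B →ₐ[𝒪] ResidueField 𝒪) :
    fibreProd πA πB →ₐ[𝒪] ResidueField 𝒪 :=
  (πA.comp (AlgHom.fst 𝒪 A B)).comp (fibreProd πA πB).val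

theorem fibreProd_isLocalRing {A B : Type} [CommRing A] [IsLocalRing A] [Algebra 𝒪 A] [CommRing B]
    [IsLocalRing B] [Algebra 𝒪 B] (hA : IsArtinianTestAlgebra 𝒪 A)
    (hB : IsArtinianTestAlgebra 𝒪 B) (πA : A →ₐ[𝒪] ResidueField 𝒪)
    (πB : B →ₐ[𝒪] ResidueField 𝒪) : IsLocalRing (fibreProd πA πB) := by
  refine isLocalRing_of_aug (TestAlg.fibreProdAug πA πB) fun x hx => ?_
  have h1 : πA (x : A × B).1 = 0 := hx
  have h2 : πB (x : A × B).2 = 0 := by
    rw [← (mem_fibreProd πA πB (x : A × B)).1 x.2]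
    exact h1
  rw [algHom_residueField_eq_zero_iff] at h1 h2
  obtain ⟨n, hn⟩ := TestAlg.isNilpotent_of_mem_maximalIdeal hA h1
  obtain ⟨m, hm⟩ := TestAlg.isNilpotent_of_mem_maximalIdeal hB h2
  refine ⟨n + m, Subtype.ext ?_⟩
  refine Prod.ext ?_ ?_
  · simp [pow_add, hn]
  · simp [pow_add, hm]

theorem fibreProd_isArtinianTestAlgebra [Finite (ResidueField 𝒪)] {A B : Type} [CommRing A]
    [IsLocalRing A] [Algebra 𝒪 A] [CommRing B] [IsLocalRing B] [Algebra 𝒪 B]
    (hA : IsArtinianTestAlgebra 𝒪 A) (hB : IsArtinianTestAlgebra 𝒪 B)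
    (πA : A →ₐ[𝒪] ResidueField 𝒪) (πB : B →ₐ[𝒪] ResidueField 𝒪) :
    haveI := fibreProd_isLocalRing hA hB πA πB
    IsArtinianTestAlgebra 𝒪 (fibreProd πA πB) := by
  have hloc := fibreProd_isLocalRing hA hB πA πB
  have hfinA : Finite A := finite_of_test hA
  have hfinB : Finite B := finite_of_test hB
  have hfin : Finite (fibreProd πA πB) := inferInstance
  have hart : IsArtinianRing (fibreProd πA πB) := inferInstance
  exact isArtinianTestAlgebra_of_aug (TestAlg.fibreProdAug πA πB)

end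

end Fermat.Agent.S53
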