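import Mathlib
import Fermat.Agent.S53.Base
import Fermat.Agent.S53.Dictionary
import Fermat.Agent.S53.Frame
import Fermat.Agent.S53.TestAlg
import Fermat.Agent.S53.PowerSeries

set_option autoImplicit false

namespace Fermat.Agent.S53

open IsLocalRing GaloisRep

section

variable {𝒪 : Type} [CommRing 𝒪] [IsLocalRing 𝒪]
  {𝒟 : ∀ ⦃A : Type⦄ [CommRing A] [IsLocalRing A] [Algebra 𝒪 A], GaloisRepAdic A → Prop}
  {F : Frame 𝒪}

/-- Normalised lifts are preserved by local algebra maps. -/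
theorem Frame.IsNormLift.map {A B : Type} [CommRing A] [IsLocalRing A] [Algebra 𝒪 A] [CommRing B]
    [IsLocalRing B] [Algebra 𝒪 B] {M : GalQ →* Matrix (Fin 2) (Fin 2) A} (h : F.IsNormLift M)
    (f : A →ₐ[𝒪] B) (hf : IsLocalHom (f : A →+* B)) : F.IsNormLift (mapHom (f : A →+* B) M) := by
  obtain ⟨hl, h00, h10, hd⟩ := h
  refine ⟨fun σ i j => ?_, ?_, ?_, ?_⟩
  · obtain ⟨o, ho, hmem⟩ := hl σ i j
    refine ⟨o, ho, ?_⟩
    have e : mapHom (f : A →+* B) M σ i j - algebraMap 𝒪 B o =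
        (f : A →+* B) (M σ i j - algebraMap 𝒪 A o) := by
      rw [mapHom_apply, Matrix.map_apply, map_sub]
      congr 1
      exact (f.commutes o).symm
    rw [e]
    exact map_nonunit (f : A →+* B) _ hmem
  · rw [mapHom_apply, Matrix.map_apply, h00, map_zero]
  · rw [mapHom_apply, Matrix.map_apply, h10, map_one]
  · rw [mapHom_apply, Matrix.map_apply, hd]
    exact f.commutes F.s₀

/-- Equal matrix representations give equal adic representations. -/
theorem ofMatrix_congr {A : Type} [CommRing A] [IsLocalRing A]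
    {M M' : GalQ →* Matrix (Fin 2) (Fin 2) A} (h : M = M') (hM : MatCont M) (hM' : MatCont M') :
    ofMatrix M hM = ofMatrix M' hM' := by
  subst h
  rfl

/-- A choice of finitely many matrix entries separating the normalised lifts of type `𝒟` over the
dual numbers, together with lifts to `𝒪` of the corresponding residual entries. -/
structure Sep (𝒪 : Type) [CommRing 𝒪] [IsLocalRing 𝒪]
    (𝒟 : ∀ ⦃A : Type⦄ [CommRing A] [IsLocalRing A] [Algebra 𝒪 A], GaloisRepAdic A → Prop)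
    (F : Frame 𝒪) where
  /-- number of entries -/
  n : ℕ
  /-- group elements -/
  gs : Fin n → GalQ
  /-- row indices -/
  is : Fin n → Fin 2
  /-- column indices -/
  js : Fin n → Fin 2
  /-- lifts of the residual entries -/
  c : Fin n → 𝒪
  hc : ∀ s, residue 𝒪 (c s) = F.Mbar (gs s) (is s) (js s)
  sep : letI := dualAlgebra 𝒪
    ∀ (M M' : GalQ →* Matrix (Fin 2) (Fin 2) (DualNumber (ResidueField 𝒪)))
      (hM : MatCont M) (hM' : MatCont M'), F.IsNormLift M → F.IsNormLift M' →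
      𝒟 (ofMatrix M hM) → 𝒟 (ofMatrix M' hM') →
      (∀ s, M (gs s) (is s) (js s) = M' (gs s) (is s) (js s)) → M = M'

/-- A normalised lift of type `𝒟` over an Artinian test algebra. -/
structure Datum (𝒟 : ∀ ⦃A : Type⦄ [CommRing A] [IsLocalRing A] [Algebra 𝒪 A], GaloisRepAdic A → Prop)
    (F : Frame 𝒪) where
  /-- the coefficient ring -/
  A : Type
  [commRing : CommRing A]
  [isLocalRing : IsLocalRing A]
  [algebra : Algebra 𝒪 A]
  test : IsArtinianTestAlgebra 𝒪 A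
  /-- the matrix representation -/
  M : GalQ →* Matrix (Fin 2) (Fin 2) A
  cont : MatCont M
  norm : F.IsNormLift M
  cond : 𝒟 (ofMatrix M cont)

attribute [instance] Datum.commRing Datum.isLocalRing Datum.algebra

/-- The augmentation of the coefficient ring of a datum. -/
noncomputable def Datum.aug (D : Datum 𝒟 F) : D.A →ₐ[𝒪] ResidueField 𝒪 :=
  Fermat.Agent.S53.aug 𝒪 D.test.isLocalHom D.test.residue_surjective

theorem Datum.aug_M (D : Datum 𝒟 F) (σ : GalQ) (i j : Fin 2) :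
    D.aug (D.M σ i j) = F.Mbar σ i j :=
  (isLift_iff_map_aug D.aug F.Mbar D.M).mp D.norm.1 σ i j

/-- The power series ring that surjects onto the coefficient rings of (minimal) data. -/
abbrev PS (S : Sep 𝒪 𝒟 F) : Type := MvPowerSeries (Fin S.n) 𝒪

/-- The value prescribed for the variable `X s` in the coefficient ring of a datum. -/
noncomputable def Datum.val (D : Datum 𝒟 F) (S : Sep 𝒪 𝒟 F) (s : Fin S.n) : D.A :=
  D.M (S.gs s) (S.is s) (S.js s) - algebraMap 𝒪 D.A (S.c s)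

theorem Datum.val_mem (D : Datum 𝒟 F) (S : Sep 𝒪 𝒟 F) (s : Fin S.n) :
    D.val S s ∈ maximalIdeal D.A := by
  rw [← algHom_residueField_eq_zero_iff D.aug, Datum.val, map_sub, D.aug_M,
    TestAlg.algHom_algebraMap, S.hc, sub_self]

theorem Datum.exists_psi [IsNoetherianRing 𝒪] (D : Datum 𝒟 F) (S : Sep 𝒪 𝒟 F) :
    ∃ ψ : PS S →ₐ[𝒪] D.A, ∀ s, ψ (MvPowerSeries.X s) = D.val S s :=
  mvPowerSeries_exists_algHom (Fin S.n) 𝒪 (maximalIdeal D.A)
    (isNilpotent_maximalIdeal_of_test D.test) (D.val S) (D.val_mem S)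

/-- The classifying map of a datum. -/
noncomputable def Datum.psi [IsNoetherianRing 𝒪] (D : Datum 𝒟 F) (S : Sep 𝒪 𝒟 F) :
    PS S →ₐ[𝒪] D.A :=
  (D.exists_psi S).choose

theorem Datum.psi_X [IsNoetherianRing 𝒪] (D : Datum 𝒟 F) (S : Sep 𝒪 𝒟 F) (s : Fin S.n) :
    D.psi S (MvPowerSeries.X s) = D.val S s :=
  (D.exists_psi S).choose_spec s

theorem Datum.psi_unique [IsNoetherianRing 𝒪] (D : Datum 𝒟 F) (S : Sep 𝒪 𝒟 F)
    (φ : PS S →ₐ[𝒪] D.A) (h : ∀ s, φ (MvPowerSeries.X s) = D.val S s) : φ = D.psi S :=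
  mvPowerSeries_algHom_ext (Fin S.n) 𝒪 (maximalIdeal D.A)
    (isNilpotent_maximalIdeal_of_test D.test) φ (D.psi S)
    (fun s => by rw [h s]; exact D.val_mem S s) (fun s => by rw [h s, D.psi_X])

/-- The classifying map is a local homomorphism. -/
theorem Datum.psi_mem_maximalIdeal [IsNoetherianRing 𝒪] (D : Datum 𝒟 F) (S : Sep 𝒪 𝒟 F)
    (q : PS S) (hq : q ∈ maximalIdeal (PS S)) : D.psi S q ∈ maximalIdeal D.A := by
  have hloc : IsLocalHom ((D.psi S : PS S →ₐ[𝒪] D.A) : PS S →+* D.A) :=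
    isLocalHom_of_algHom D.aug (D.psi S)
  rw [mem_maximalIdeal, mem_nonunits_iff] at hq ⊢
  intro hu
  exact hq (hloc.map_nonunit q hu)

/-- The kernel of a classifying map contains a power of the maximal ideal. -/
theorem Datum.exists_pow_le_ker_psi [IsNoetherianRing 𝒪] (D : Datum 𝒟 F) (S : Sep 𝒪 𝒟 F) :
    ∃ n, maximalIdeal (PS S) ^ n ≤ RingHom.ker (D.psi S : PS S →+* D.A) := by
  obtain ⟨n, hn⟩ := isNilpotent_maximalIdeal_of_test D.test
  refine ⟨n, fun x hx => ?_⟩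
  rw [RingHom.mem_ker]
  have h1 : (D.psi S : PS S →+* D.A) x ∈
      Ideal.map (D.psi S : PS S →+* D.A) (maximalIdeal (PS S) ^ n) :=
    Ideal.mem_map_of_mem _ hx
  rw [Ideal.map_pow] at h1
  have hle : Ideal.map (D.psi S : PS S →+* D.A) (maximalIdeal (PS S)) ≤ maximalIdeal D.A :=
    Ideal.map_le_iff_le_comap.2 (fun q hq => D.psi_mem_maximalIdeal S q hq)
  have h2 := Ideal.pow_right_mono hle n h1
  rw [hn] at h2
  exact h2

theorem Datum.ker_psi_le_maximalIdeal [IsNoetherianRing 𝒪] (D : Datum 𝒟 F) (S : Sep 𝒪 𝒟 F) :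
    RingHom.ker (D.psi S : PS S →+* D.A) ≤ maximalIdeal (PS S) :=
  IsLocalRing.le_maximalIdeal (RingHom.ker_ne_top _)

/-! ### Operations on data -/

/-- Push a datum forward along an algebra map into an Artinian test algebra. -/
noncomputable def Datum.push (h𝒟 : IsDeformationCondition 𝒪 𝒟) (D : Datum 𝒟 F) {B : Type}
    [CommRing B] [IsLocalRing B] [Algebra 𝒪 B] (hB : IsArtinianTestAlgebra 𝒪 B)
    (f : D.A →ₐ[𝒪] B) : Datum 𝒟 F where
  A := B
  test := hB
  M := mapHom (f : D.A →+* B) D.M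
  cont := D.cont.map (f : D.A →+* B)
    (isLocalHom_of_algHom (Fermat.Agent.S53.aug 𝒪 hB.isLocalHom hB.residue_surjective) f)
  norm := D.norm.map f
    (isLocalHom_of_algHom (Fermat.Agent.S53.aug 𝒪 hB.isLocalHom hB.residue_surjective) f)
  cond :=
    h𝒟.of_isEquiv hB
      (baseChangeAlong_ofMatrix_isEquiv (f : D.A →+* B)
        (isLocalHom_of_algHom (Fermat.Agent.S53.aug 𝒪 hB.isLocalHom hB.residue_surjective) f)
        D.M D.cont _)
      (h𝒟.baseChangeAlong D.test hB f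
        (isLocalHom_of_algHom (Fermat.Agent.S53.aug 𝒪 hB.isLocalHom hB.residue_surjective) f)
        D.cond)

theorem Datum.psi_push [IsNoetherianRing 𝒪] (h𝒟 : IsDeformationCondition 𝒪 𝒟) (D : Datum 𝒟 F)
    (S : Sep 𝒪 𝒟 F) {B : Type} [CommRing B] [IsLocalRing B] [Algebra 𝒪 B]
    (hB : IsArtinianTestAlgebra 𝒪 B) (f : D.A →ₐ[𝒪] B) :
    (D.push h𝒟 hB f).psi S = f.comp (D.psi S) := by
  refine ((D.push h𝒟 hB f).psi_unique S (f.comp (D.psi S)) fun s => ?_).symm
  change f (D.psi S (MvPowerSeries.X s)) =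
    f (D.M (S.gs s) (S.is s) (S.js s)) - algebraMap 𝒪 B (S.c s)
  rw [D.psi_X, Datum.val, map_sub, AlgHom.commutes]

namespace RestrictAux

/-- The restricted matrices form a monoid homomorphism: unit. -/
theorem map_one_aux (D : Datum 𝒟 F) (B : Subalgebra 𝒪 D.A) (hB : ∀ σ i j, D.M σ i j ∈ B) :
    (Matrix.of fun i j => (⟨D.M 1 i j, hB 1 i j⟩ : B)) = 1 := by
  ext i j
  show D.M 1 i j = (((1 : Matrix (Fin 2) (Fin 2) B) i j : B) : D.A)
  rw [map_one, Matrix.one_apply, Matrix.one_apply]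
  split_ifs <;> simp

/-- The restricted matrices form a monoid homomorphism: products. -/
theorem map_mul_aux (D : Datum 𝒟 F) (B : Subalgebra 𝒪 D.A) (hB : ∀ σ i j, D.M σ i j ∈ B)
    (σ τ : GalQ) :
    (Matrix.of fun i j => (⟨D.M (σ * τ) i j, hB (σ * τ) i j⟩ : B)) =
      (Matrix.of fun i j => (⟨D.M σ i j, hB σ i j⟩ : B)) *
        (Matrix.of fun i j => (⟨D.M τ i j, hB τ i j⟩ : B)) := by
  ext i j
  show D.M (σ * τ) i j = ((((Matrix.of fun i j => (⟨D.M σ i j, hB σ i j⟩ : B)) *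
        (Matrix.of fun i j => (⟨D.M τ i j, hB τ i j⟩ : B))) i j : B) : D.A)
  rw [map_mul, Matrix.mul_apply, Matrix.mul_apply]
  simp

/-- Pushing the restricted representation back along the inclusion gives the original one. -/
theorem mapHom_val (D : Datum 𝒟 F) (B : Subalgebra 𝒪 D.A)
    (MB : GalQ →* Matrix (Fin 2) (Fin 2) B) (hMB : ∀ σ i j, (MB σ i j : D.A) = D.M σ i j) :
    mapHom (B.val : B →+* D.A) MB = D.M := by
  ext σ i j
  rw [mapHom_apply, Matrix.map_apply]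
  exact hMB σ i j

theorem cont_aux [Finite (ResidueField 𝒪)] (D : Datum 𝒟 F) (B : Subalgebra 𝒪 D.A)
    (MB : GalQ →* Matrix (Fin 2) (Fin 2) B) (hMB : ∀ σ i j, (MB σ i j : D.A) = D.M σ i j) :
    haveI := subalgebra_isLocalRing D.test B
    MatCont MB := by
  have := subalgebra_isLocalRing D.test B
  rw [matCont_iff_of_test (subalgebra_isArtinianTestAlgebra D.test B)]
  obtain ⟨L, hL, h⟩ := (matCont_iff_of_test D.test D.M).mp D.cont
  refine ⟨L, hL, fun σ hσ => ?_⟩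
  ext i j
  rw [hMB, h σ hσ, Matrix.one_apply, Matrix.one_apply]
  split_ifs <;> simp

theorem norm_aux (D : Datum 𝒟 F) (B : Subalgebra 𝒪 D.A)
    (MB : GalQ →* Matrix (Fin 2) (Fin 2) B) (hMB : ∀ σ i j, (MB σ i j : D.A) = D.M σ i j) :
    haveI := subalgebra_isLocalRing D.test B
    F.IsNormLift MB := by
  have := subalgebra_isLocalRing D.test B
  refine ⟨fun σ i j => ?_, ?_, ?_, ?_⟩
  · obtain ⟨o, ho, hmem⟩ := D.norm.1 σ i j
    refine ⟨o, ho, ?_⟩
    rw [mem_maximalIdeal, mem_nonunits_iff] at hmem ⊢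
    intro hu
    apply hmem
    have h1 := hu.map B.val
    have h2 : B.val (MB σ i j - algebraMap 𝒪 B o) = D.M σ i j - algebraMap 𝒪 D.A o := by
      rw [map_sub, AlgHom.commutes]
      exact congrArg (· - algebraMap 𝒪 D.A o) (hMB σ i j)
    rwa [h2] at h1
  · apply Subtype.ext
    rw [hMB]
    exact D.norm.2.1
  · apply Subtype.ext
    rw [hMB]
    exact D.norm.2.2.1
  · apply Subtype.ext
    rw [hMB]
    exact D.norm.2.2.2

theorem cond_aux [Finite (ResidueField 𝒪)] (h𝒟 : IsDeformationCondition 𝒪 𝒟) (D : Datum 𝒟 F)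
    (B : Subalgebra 𝒪 D.A) (MB : GalQ →* Matrix (Fin 2) (Fin 2) B)
    (hMB : ∀ σ i j, (MB σ i j : D.A) = D.M σ i j) :
    haveI := subalgebra_isLocalRing D.test B
    ∀ hcont : MatCont MB, 𝒟 (ofMatrix MB hcont) := by
  have := subalgebra_isLocalRing D.test B
  intro hcont
  have hloc : IsLocalHom (B.val : B →+* D.A) := isLocalHom_of_algHom D.aug B.val
  have hM' : MatCont (mapHom (B.val : B →+* D.A) MB) := hcont.map _ hloc
  have h3 : ofMatrix (mapHom (B.val : B →+* D.A) MB) hM' = ofMatrix D.M D.cont :=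
    ofMatrix_congr (mapHom_val D B MB hMB) _ _
  have h4 := baseChangeAlong_ofMatrix_isEquiv (B.val : B →+* D.A) hloc MB hcont hM'
  rw [h3] at h4
  exact h𝒟.of_baseChangeAlong_injective (subalgebra_isArtinianTestAlgebra D.test B) D.test
    B.val hloc Subtype.val_injective (h𝒟.of_isEquiv D.test (isEquiv_symm h4) D.cond)

end RestrictAux

/-- Restrict a datum to a subalgebra containing all its matrix entries. -/
noncomputable def Datum.restrict [Finite (ResidueField 𝒪)] (h𝒟 : IsDeformationCondition 𝒪 𝒟)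
    (D : Datum 𝒟 F) (B : Subalgebra 𝒪 D.A) (hB : ∀ σ i j, D.M σ i j ∈ B) : Datum 𝒟 F where
  A := B
  isLocalRing := subalgebra_isLocalRing D.test B
  test := subalgebra_isArtinianTestAlgebra D.test B
  M :=
    { toFun := fun σ => Matrix.of fun i j => ⟨D.M σ i j, hB σ i j⟩
      map_one' := RestrictAux.map_one_aux D B hB
      map_mul' := RestrictAux.map_mul_aux D B hB }
  cont := RestrictAux.cont_aux D B _ (fun _ _ _ => rfl)
  norm := RestrictAux.norm_aux D B _ (fun _ _ _ => rfl)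
  cond := RestrictAux.cond_aux h𝒟 D B _ (fun _ _ _ => rfl) _

theorem Datum.restrict_M [Finite (ResidueField 𝒪)] (h𝒟 : IsDeformationCondition 𝒪 𝒟)
    (D : Datum 𝒟 F) (B : Subalgebra 𝒪 D.A) (hB : ∀ σ i j, D.M σ i j ∈ B) (σ : GalQ)
    (i j : Fin 2) : B.val ((D.restrict h𝒟 B hB).M σ i j) = D.M σ i j :=
  rfl

theorem Datum.val_comp_psi_restrict [IsNoetherianRing 𝒪] [Finite (ResidueField 𝒪)]
    (h𝒟 : IsDeformationCondition 𝒪 𝒟) (D : Datum 𝒟 F) (S : Sep 𝒪 𝒟 F) (B : Subalgebra 𝒪 D.A)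
    (hB : ∀ σ i j, D.M σ i j ∈ B) :
    B.val.comp ((D.restrict h𝒟 B hB).psi S) = D.psi S := by
  refine D.psi_unique S _ fun s => ?_
  exact (congrArg B.val ((D.restrict h𝒟 B hB).psi_X S s)).trans rfl

namespace DatumProd

theorem mk_eq_one {A B : Type} [CommRing A] [Algebra 𝒪 A] [CommRing B] [Algebra 𝒪 B]
    (πA : A →ₐ[𝒪] ResidueField 𝒪) (πB : B →ₐ[𝒪] ResidueField 𝒪)
    (N : Matrix (Fin 2) (Fin 2) A) (N' : Matrix (Fin 2) (Fin 2) B)
    (h : ∀ i j, (N i j, N' i j) ∈ fibreProd πA πB) (hN : N = 1) (hN' : N' = 1) :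
    (Matrix.of fun i j => (⟨(N i j, N' i j), h i j⟩ : fibreProd πA πB)) = 1 := by
  subst hN hN'
  refine Matrix.ext fun i j => Subtype.ext ?_
  by_cases hij : i = j
  · subst hij
    simp
  · simp [Matrix.one_apply_ne hij]

theorem mk_mul {A B : Type} [CommRing A] [Algebra 𝒪 A] [CommRing B] [Algebra 𝒪 B]
    (πA : A →ₐ[𝒪] ResidueField 𝒪) (πB : B →ₐ[𝒪] ResidueField 𝒪)
    (N₁ N₂ N₃ : Matrix (Fin 2) (Fin 2) A) (N₁' N₂' N₃' : Matrix (Fin 2) (Fin 2) B)
    (h₁ : ∀ i j, (N₁ i j, N₁' i j) ∈ fibreProd πA πB)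
    (h₂ : ∀ i j, (N₂ i j, N₂' i j) ∈ fibreProd πA πB)
    (h₃ : ∀ i j, (N₃ i j, N₃' i j) ∈ fibreProd πA πB)
    (hN : N₃ = N₁ * N₂) (hN' : N₃' = N₁' * N₂') :
    (Matrix.of fun i j => (⟨(N₃ i j, N₃' i j), h₃ i j⟩ : fibreProd πA πB)) =
      (Matrix.of fun i j => (⟨(N₁ i j, N₁' i j), h₁ i j⟩ : fibreProd πA πB)) *
        (Matrix.of fun i j => (⟨(N₂ i j, N₂' i j), h₂ i j⟩ : fibreProd πA πB)) := by
  subst hN hN'
  refine Matrix.ext fun i j => Subtype.ext ?_
  simp [Matrix.mul_apply, Fin.sum_univ_two]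

theorem prod_matCont [Finite (ResidueField 𝒪)] (D D' : Datum 𝒟 F)
    (M : GalQ →* Matrix (Fin 2) (Fin 2) (fibreProd D.aug D'.aug))
    (hM : ∀ σ i j, (fibreProd D.aug D'.aug).val (M σ i j) = (D.M σ i j, D'.M σ i j)) :
    haveI := fibreProd_isLocalRing D.test D'.test D.aug D'.aug
    MatCont M := by
  have := fibreProd_isLocalRing D.test D'.test D.aug D'.aug
  rw [matCont_iff_of_test (fibreProd_isArtinianTestAlgebra D.test D'.test D.aug D'.aug)]
  obtain ⟨L, hL, h1⟩ := (matCont_iff_of_test D.test D.M).mp D.cont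
  obtain ⟨L', hL', h1'⟩ := (matCont_iff_of_test D'.test D'.M).mp D'.cont
  refine ⟨L ⊔ L', IntermediateField.finiteDimensional_sup L L', fun σ hσ => ?_⟩
  have e1 : D.M σ = 1 := h1 σ (fun x hx => hσ x ((le_sup_left : L ≤ L ⊔ L') hx))
  have e2 : D'.M σ = 1 := h1' σ (fun x hx => hσ x ((le_sup_right : L' ≤ L ⊔ L') hx))
  refine Matrix.ext fun i j => Subtype.ext ?_
  have h2 := hM σ i j
  rw [e1, e2] at h2
  refine h2.trans ?_
  by_cases hij : i = j
  · subst hij
    simp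
  · simp [Matrix.one_apply_ne hij]

theorem prod_isNormLift [Finite (ResidueField 𝒪)] (D D' : Datum 𝒟 F)
    (M : GalQ →* Matrix (Fin 2) (Fin 2) (fibreProd D.aug D'.aug))
    (hM : ∀ σ i j, (fibreProd D.aug D'.aug).val (M σ i j) = (D.M σ i j, D'.M σ i j)) :
    haveI := fibreProd_isLocalRing D.test D'.test D.aug D'.aug
    F.IsNormLift M := by
  have := fibreProd_isLocalRing D.test D'.test D.aug D'.aug
  refine ⟨?_, ?_, ?_, ?_⟩
  · rw [isLift_iff_map_aug
      ((D.aug.comp (AlgHom.fst 𝒪 D.A D'.A)).comp (fibreProd D.aug D'.aug).val)]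
    intro σ i j
    show D.aug ((fibreProd D.aug D'.aug).val (M σ i j)).1 = _
    rw [hM]
    exact D.aug_M σ i j
  · apply Subtype.ext
    refine (hM F.g₁ 0 0).trans ?_
    rw [D.norm.2.1, D'.norm.2.1]
    rfl
  · apply Subtype.ext
    refine (hM F.g₁ 1 0).trans ?_
    rw [D.norm.2.2.1, D'.norm.2.2.1]
    rfl
  · apply Subtype.ext
    refine (hM F.g₂ 0 0).trans ?_
    rw [D.norm.2.2.2, D'.norm.2.2.2]
    rfl

theorem prod_cond [Finite (ResidueField 𝒪)] (h𝒟 : IsDeformationCondition 𝒪 𝒟)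
    (D D' : Datum 𝒟 F) (M : GalQ →* Matrix (Fin 2) (Fin 2) (fibreProd D.aug D'.aug))
    (hM : ∀ σ i j, (fibreProd D.aug D'.aug).val (M σ i j) = (D.M σ i j, D'.M σ i j)) :
    haveI := fibreProd_isLocalRing D.test D'.test D.aug D'.aug
    ∀ hc : MatCont M, 𝒟 (ofMatrix M hc) := by
  have := fibreProd_isLocalRing D.test D'.test D.aug D'.aug
  intro hc
  let pA : fibreProd D.aug D'.aug →ₐ[𝒪] D.A :=
    (AlgHom.fst 𝒪 D.A D'.A).comp (fibreProd D.aug D'.aug).val
  let pB : fibreProd D.aug D'.aug →ₐ[𝒪] D'.A :=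
    (AlgHom.snd 𝒪 D.A D'.A).comp (fibreProd D.aug D'.aug).val
  have hpA : IsLocalHom (pA : fibreProd D.aug D'.aug →+* D.A) := isLocalHom_of_algHom D.aug pA
  have hpB : IsLocalHom (pB : fibreProd D.aug D'.aug →+* D'.A) :=
    isLocalHom_of_algHom D'.aug pB
  have hA : mapHom (pA : fibreProd D.aug D'.aug →+* D.A) M = D.M := by
    ext σ i j
    show ((fibreProd D.aug D'.aug).val (M σ i j)).1 = _
    rw [hM]
  have hB : mapHom (pB : fibreProd D.aug D'.aug →+* D'.A) M = D'.M := by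
    ext σ i j
    show ((fibreProd D.aug D'.aug).val (M σ i j)).2 = _
    rw [hM]
  have hcA : MatCont (mapHom (pA : fibreProd D.aug D'.aug →+* D.A) M) := hA ▸ D.cont
  have hcB : MatCont (mapHom (pB : fibreProd D.aug D'.aug →+* D'.A) M) := hB ▸ D'.cont
  refine h𝒟.of_fibreProduct D.test D'.test (isArtinianTestAlgebra_residueField 𝒪)
    (fibreProd_isArtinianTestAlgebra D.test D'.test D.aug D'.aug) D.aug D'.aug pA pB hpA hpB
    ?_ ?_ ?_ ?_ ?_
  · ext x
    exact (mem_fibreProd D.aug D'.aug x.1).mp x.2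
  · intro x y hxy
    apply Subtype.ext
    exact Prod.ext (congrArg Prod.fst hxy) (congrArg Prod.snd hxy)
  · intro a b hab
    exact ⟨⟨(a, b), (mem_fibreProd D.aug D'.aug (a, b)).mpr hab⟩, rfl, rfl⟩
  · have h1 := baseChangeAlong_ofMatrix_isEquiv (pA : fibreProd D.aug D'.aug →+* D.A) hpA M hc hcA
    have h2 : ofMatrix (mapHom (pA : fibreProd D.aug D'.aug →+* D.A) M) hcA =
        ofMatrix D.M D.cont := ofMatrix_congr hA _ _
    rw [h2] at h1
    exact h𝒟.of_isEquiv D.test (isEquiv_symm h1) D.cond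
  · have h1 := baseChangeAlong_ofMatrix_isEquiv (pB : fibreProd D.aug D'.aug →+* D'.A) hpB M hc hcB
    have h2 : ofMatrix (mapHom (pB : fibreProd D.aug D'.aug →+* D'.A) M) hcB =
        ofMatrix D'.M D'.cont := ofMatrix_congr hB _ _
    rw [h2] at h1
    exact h𝒟.of_isEquiv D'.test (isEquiv_symm h1) D'.cond

end DatumProd

/-- The fibre product of two data over the residual representation. -/
noncomputable def Datum.prod [Finite (ResidueField 𝒪)] (h𝒟 : IsDeformationCondition 𝒪 𝒟)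
    (D D' : Datum 𝒟 F) : Datum 𝒟 F where
  A := fibreProd D.aug D'.aug
  isLocalRing := fibreProd_isLocalRing D.test D'.test D.aug D'.aug
  test := fibreProd_isArtinianTestAlgebra D.test D'.test D.aug D'.aug
  M :=
    { toFun := fun σ => Matrix.of fun i j =>
        ⟨(D.M σ i j, D'.M σ i j), (mem_fibreProd _ _ _).mpr
          ((D.aug_M σ i j).trans (D'.aug_M σ i j).symm)⟩
      map_one' := DatumProd.mk_eq_one D.aug D'.aug (D.M 1) (D'.M 1) _ (map_one _) (map_one _)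
      map_mul' := fun σ τ => DatumProd.mk_mul D.aug D'.aug (D.M σ) (D.M τ) (D.M (σ * τ))
        (D'.M σ) (D'.M τ) (D'.M (σ * τ)) _ _ _ (map_mul _ _ _) (map_mul _ _ _) }
  cont := DatumProd.prod_matCont D D' _ (fun _ _ _ => rfl)
  norm := DatumProd.prod_isNormLift D D' _ (fun _ _ _ => rfl)
  cond := DatumProd.prod_cond h𝒟 D D' _ (fun _ _ _ => rfl) _

theorem Datum.prod_M [Finite (ResidueField 𝒪)] (h𝒟 : IsDeformationCondition 𝒪 𝒟)
    (D D' : Datum 𝒟 F) (σ : GalQ) (i j : Fin 2) :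
    (fibreProd D.aug D'.aug).val ((D.prod h𝒟 D').M σ i j) = (D.M σ i j, D'.M σ i j) :=
  rfl

theorem Datum.psi_prod [IsNoetherianRing 𝒪] [Finite (ResidueField 𝒪)]
    (h𝒟 : IsDeformationCondition 𝒪 𝒟) (D D' : Datum 𝒟 F) (S : Sep 𝒪 𝒟 F) (q : PS S) :
    (fibreProd D.aug D'.aug).val ((D.prod h𝒟 D').psi S q) = (D.psi S q, D'.psi S q) := by
  have h1 : ((AlgHom.fst 𝒪 D.A D'.A).comp (fibreProd D.aug D'.aug).val).comp
      ((D.prod h𝒟 D').psi S) = D.psi S := by
    apply D.psi_unique S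
    intro s
    show ((fibreProd D.aug D'.aug).val ((D.prod h𝒟 D').psi S (MvPowerSeries.X s))).1 = D.val S s
    rw [(D.prod h𝒟 D').psi_X S s]
    rfl
  have h2 : ((AlgHom.snd 𝒪 D.A D'.A).comp (fibreProd D.aug D'.aug).val).comp
      ((D.prod h𝒟 D').psi S) = D'.psi S := by
    apply D'.psi_unique S
    intro s
    show ((fibreProd D.aug D'.aug).val ((D.prod h𝒟 D').psi S (MvPowerSeries.X s))).2 = D'.val S s
    rw [(D.prod h𝒟 D').psi_X S s]
    rfl
  exact Prod.ext (DFunLike.congr_fun h1 q) (DFunLike.congr_fun h2 q)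

/-- The residual representation itself, as a datum over the residue field. -/
noncomputable def Datum.base (h𝒟 : IsDeformationCondition 𝒪 𝒟)
    (ρbar : ResidualGaloisRep (ResidueField 𝒪)) (hF : F.IsGood ρbar)
    (hbar : 𝒟 (GaloisRepAdic.ofResidualGaloisRep ρbar)) : Datum 𝒟 F where
  A := ResidueField 𝒪
  test := isArtinianTestAlgebra_residueField 𝒪
  M := F.Mbar
  cont := hF.cont
  norm := hF.normBar
  cond := h𝒟.of_isEquiv (isArtinianTestAlgebra_residueField 𝒪) hF.equiv hbar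

end

end Fermat.Agent.S53
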