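import Mathlib
import Fermat.Agent.S53.Base

set_option autoImplicit false

namespace Fermat.Agent.S53

open IsLocalRing

namespace LemmaA

/-- A proper submodule containing `𝔪 • M` is killed by a nonzero functional to the residue field. -/
theorem exists_functional (R : Type) [CommRing R] [IsLocalRing R] {M : Type} [AddCommGroup M]
    [Module R M] (P : Submodule R M) (hP : P ≠ ⊤)
    (hmP : ∀ c ∈ maximalIdeal R, ∀ x : M, c • x ∈ P) :
    ∃ δ : M →+ ResidueField R, (∀ (c : R) (x : M), δ (c • x) = residue R c * δ x) ∧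
      (∀ x ∈ P, δ x = 0) ∧ ∃ x, δ x ≠ 0 := by
  have hM : Module.IsTorsionBySet R (M ⧸ P) (maximalIdeal R) :=
    (Module.isTorsionBySet_quotient_iff P _).mpr fun x r hr => hmP r hr x
  let _ : Module (ResidueField R) (M ⧸ P) := hM.module
  have hnt : Nontrivial (M ⧸ P) := (Submodule.Quotient.nontrivial_iff).mpr hP
  obtain ⟨f, hf0, -⟩ :=
    Submodule.exists_le_ker_of_lt_top (⊥ : Submodule (ResidueField R) (M ⧸ P)) bot_lt_top
  refine ⟨f.toAddMonoidHom.comp P.mkQ.toAddMonoidHom, ?_, ?_, ?_⟩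
  · intro c x
    show f (P.mkQ (c • x)) = residue R c * f (P.mkQ x)
    have h1 : P.mkQ (c • x) = (residue R c) • P.mkQ x := rfl
    rw [h1, map_smul, smul_eq_mul]
  · intro x hx
    show f (P.mkQ x) = 0
    have h1 : P.mkQ x = 0 := (Submodule.Quotient.mk_eq_zero P).mpr hx
    rw [h1, map_zero]
  · by_contra hcon
    apply hf0
    ext q
    obtain ⟨x, rfl⟩ := P.mkQ_surjective q
    exact not_not.mp (not_exists.mp hcon x)

/-- Every element is a scalar plus an element of the maximal ideal. -/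
theorem exists_sub_mem (𝒪 : Type) [CommRing 𝒪] [IsLocalRing 𝒪]
    {B : Type} [CommRing B] [IsLocalRing B] [Algebra 𝒪 B]
    (hB : GaloisRep.IsArtinianTestAlgebra 𝒪 B) (b : B) :
    ∃ c : 𝒪, b - algebraMap 𝒪 B c ∈ maximalIdeal B := by
  obtain ⟨c, hc⟩ := hB.residue_surjective (residue B b)
  refine ⟨c, ?_⟩
  rw [← residue_eq_zero_iff, map_sub, sub_eq_zero]
  exact hc.symm

/-- The projection to the residue field of the base. -/
theorem exists_proj (𝒪 : Type) [CommRing 𝒪] [IsLocalRing 𝒪]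
    {B : Type} [CommRing B] [IsLocalRing B] [Algebra 𝒪 B]
    (hB : GaloisRep.IsArtinianTestAlgebra 𝒪 B) :
    ∃ π : B →+* ResidueField 𝒪, (∀ c, π (algebraMap 𝒪 B c) = residue 𝒪 c) ∧
      (∀ m ∈ maximalIdeal B, π m = 0) := by
  have := hB.isLocalHom
  have hbij : Function.Bijective (ResidueField.map (algebraMap 𝒪 B)) :=
    ⟨RingHom.injective _, fun x => by
      obtain ⟨c, hc⟩ := hB.residue_surjective x
      exact ⟨residue 𝒪 c, hc⟩⟩
  let e := RingEquiv.ofBijective _ hbij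
  refine ⟨(e.symm : ResidueField B →+* ResidueField 𝒪).comp (residue B), fun c => ?_,
    fun m hm => ?_⟩
  · show e.symm (residue B (algebraMap 𝒪 B c)) = residue 𝒪 c
    rw [RingEquiv.symm_apply_eq]
    rfl
  · show e.symm (residue B m) = 0
    rw [(residue_eq_zero_iff m).mpr hm, map_zero]

/-- Inductive step of the Nakayama-type argument. -/
theorem nak_step {B : Type} [CommRing B] (S : Subring B) (M : Ideal B)
    (H : ∀ b : B, ∃ s ∈ S, b - s ∈ M ^ 2) (j : ℕ) :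
    ∀ b : B, ∃ s ∈ S, b - s ∈ M ^ (j + 1) := by
  induction j with
  | zero =>
    intro b
    obtain ⟨s, hs, hbs⟩ := H b
    refine ⟨s, hs, ?_⟩
    have := Ideal.pow_le_self two_ne_zero hbs
    simpa using this
  | succ j ih =>
    have key : ∀ z ∈ M ^ (j + 1), ∃ s ∈ S, z - s ∈ M ^ (j + 1 + 1) := by
      intro z hz
      rw [pow_succ] at hz
      refine Submodule.mul_induction_on hz ?_ ?_
      · intro y hy x hx
        obtain ⟨s₁, hs₁, ht₁⟩ := H x
        obtain ⟨s₂, hs₂, ht₂⟩ := ih y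
        refine ⟨s₂ * s₁, S.mul_mem hs₂ hs₁, ?_⟩
        have hs₁M : s₁ ∈ M := by
          have h := M.sub_mem hx (Ideal.pow_le_self two_ne_zero ht₁)
          simpa using h
        have e : y * x - s₂ * s₁ = (y - s₂) * s₁ + y * (x - s₁) := by ring
        rw [e]
        refine Ideal.add_mem _ ?_ ?_
        · rw [pow_succ M (j + 1)]
          exact Ideal.mul_mem_mul ht₂ hs₁M
        · have h2 : M ^ (j + 1 + 1) = M ^ j * M ^ 2 := by rw [← pow_add]
          rw [h2]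
          exact Ideal.mul_mem_mul hy ht₁
      · rintro x y ⟨s, hs, hxs⟩ ⟨s', hs', hys⟩
        refine ⟨s + s', S.add_mem hs hs', ?_⟩
        have e : x + y - (s + s') = (x - s) + (y - s') := by ring
        rw [e]
        exact Ideal.add_mem _ hxs hys
    intro b
    obtain ⟨s₀, hs₀, h₀⟩ := ih b
    obtain ⟨s, hs, h⟩ := key _ h₀
    exact ⟨s₀ + s, S.add_mem hs₀ hs, by rwa [← sub_sub]⟩

/-- Nakayama-type statement: a subring surjecting onto `B / M ^ 2`, `M` nilpotent, is everything. -/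
theorem mem_of_nilpotent {B : Type} [CommRing B] (S : Subring B) (M : Ideal B)
    (hM : IsNilpotent M) (H : ∀ b : B, ∃ s ∈ S, b - s ∈ M ^ 2) (b : B) : b ∈ S := by
  obtain ⟨n, hn⟩ := hM
  obtain ⟨s, hs, hbs⟩ := nak_step S M H n b
  rw [pow_succ, hn] at hbs
  have h0 : b - s = 0 := by simpa using hbs
  rw [sub_eq_zero.mp h0]
  exact hs

/-- The maximal ideal of an Artinian local ring is nilpotent. -/
theorem isNilpotent_maximalIdeal {B : Type} [CommRing B] [IsLocalRing B] [IsArtinianRing B] :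
    IsNilpotent (maximalIdeal B) := by
  have h := IsArtinianRing.isNilpotent_jacobson_bot (R := B)
  rwa [IsLocalRing.jacobson_eq_maximalIdeal ⊥ bot_ne_top] at h

/-- Existence of a nonzero "derivation" vanishing on the subalgebra. -/
theorem exists_deriv (𝒪 : Type) [CommRing 𝒪] [IsLocalRing 𝒪]
    {B : Type} [CommRing B] [IsLocalRing B] [Algebra 𝒪 B]
    (hB : GaloisRep.IsArtinianTestAlgebra 𝒪 B) (B' : Subalgebra 𝒪 B) (hB' : B' ≠ ⊤) :
    ∃ δ : B →+ ResidueField 𝒪, (∀ (c : 𝒪) (x : B), δ (c • x) = residue 𝒪 c * δ x) ∧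
      (∀ x ∈ B', δ x = 0) ∧ (∀ x ∈ maximalIdeal B, ∀ y ∈ maximalIdeal B, δ (x * y) = 0) ∧
      ∃ x, δ x ≠ 0 := by
  have := hB.isLocalHom
  have := hB.isArtinian
  set P : Submodule 𝒪 B :=
    Subalgebra.toSubmodule B' ⊔ ((maximalIdeal B) ^ 2).restrictScalars 𝒪 with hPdef
  have hP : P ≠ ⊤ := by
    intro htop
    apply hB'
    rw [eq_top_iff]
    intro b _
    have hb : b ∈ B'.toSubring := by
      refine mem_of_nilpotent B'.toSubring (maximalIdeal B) isNilpotent_maximalIdeal ?_ b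
      intro b
      have hbP : b ∈ P := htop ▸ Submodule.mem_top
      obtain ⟨y, hy, z, hz, hyz⟩ := Submodule.mem_sup.mp hbP
      refine ⟨y, hy, ?_⟩
      have : b - y = z := by rw [← hyz]; ring
      rw [this]
      exact hz
    exact hb
  have hmP : ∀ c ∈ maximalIdeal 𝒪, ∀ x : B, c • x ∈ P := by
    intro c hc x
    obtain ⟨c', hc'⟩ := exists_sub_mem 𝒪 hB x
    have e : c • x = algebraMap 𝒪 B (c * c') + algebraMap 𝒪 B c * (x - algebraMap 𝒪 B c') := by
      rw [Algebra.smul_def, map_mul]; ring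
    rw [e]
    refine P.add_mem (Submodule.mem_sup_left (B'.algebraMap_mem _)) (Submodule.mem_sup_right ?_)
    show _ ∈ (maximalIdeal B) ^ 2
    rw [pow_two]
    exact Ideal.mul_mem_mul (map_nonunit (algebraMap 𝒪 B) c hc) hc'
  obtain ⟨δ, h1, h2, h3⟩ := exists_functional 𝒪 P hP hmP
  refine ⟨δ, h1, fun x hx => h2 x (Submodule.mem_sup_left hx), fun x hx y hy => ?_, h3⟩
  refine h2 _ (Submodule.mem_sup_right ?_)
  show _ ∈ (maximalIdeal B) ^ 2
  rw [pow_two]
  exact Ideal.mul_mem_mul hx hy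

/-- Leibniz rule for the functional of `exists_deriv`. -/
theorem leibniz (𝒪 : Type) [CommRing 𝒪] [IsLocalRing 𝒪]
    {B : Type} [CommRing B] [IsLocalRing B] [Algebra 𝒪 B]
    (hB : GaloisRep.IsArtinianTestAlgebra 𝒪 B) (B' : Subalgebra 𝒪 B)
    (π : B →+* ResidueField 𝒪) (hπ1 : ∀ c, π (algebraMap 𝒪 B c) = residue 𝒪 c)
    (hπ2 : ∀ m ∈ maximalIdeal B, π m = 0)
    (δ : B →+ ResidueField 𝒪) (h1 : ∀ (c : 𝒪) (x : B), δ (c • x) = residue 𝒪 c * δ x)
    (h2 : ∀ x ∈ B', δ x = 0)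
    (h3 : ∀ x ∈ maximalIdeal B, ∀ y ∈ maximalIdeal B, δ (x * y) = 0) (x y : B) :
    δ (x * y) = π x * δ y + π y * δ x := by
  have hπ : ∀ (b : B) (c : 𝒪), b - algebraMap 𝒪 B c ∈ maximalIdeal B → π b = residue 𝒪 c := by
    intro b c hbc
    have := hπ2 _ hbc
    rw [map_sub, hπ1, sub_eq_zero] at this
    exact this
  have hδ : ∀ (b : B) (c : 𝒪), δ (b - algebraMap 𝒪 B c) = δ b := by
    intro b c
    rw [map_sub, h2 _ (B'.algebraMap_mem c), sub_zero]
  have L1 : ∀ m ∈ maximalIdeal B, ∀ b : B, δ (m * b) = π b * δ m := by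
    intro m hm b
    obtain ⟨c, hc⟩ := exists_sub_mem 𝒪 hB b
    have e : m * b = c • m + m * (b - algebraMap 𝒪 B c) := by
      rw [Algebra.smul_def]; ring
    rw [e, map_add, h1, h3 m hm _ hc, add_zero, hπ b c hc]
  obtain ⟨c, hc⟩ := exists_sub_mem 𝒪 hB x
  have e : x * y = c • y + (x - algebraMap 𝒪 B c) * y := by
    rw [Algebra.smul_def]; ring
  rw [e, map_add, h1, L1 _ hc, hδ, hπ x c hc]

/-- A ring hom to the dual numbers from a ring hom and a derivation. -/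
theorem exists_ringHom_dual {B k : Type} [CommRing B] [CommRing k] (π : B →+* k) (δ : B →+ k)
    (h1 : δ 1 = 0) (hmul : ∀ x y, δ (x * y) = π x * δ y + π y * δ x) :
    ∃ g : B →+* DualNumber k, ∀ b, g b = TrivSqZeroExt.inl (π b) + TrivSqZeroExt.inr (δ b) := by
  refine ⟨{ toFun := fun b => TrivSqZeroExt.inl (π b) + TrivSqZeroExt.inr (δ b)
            map_one' := ?_
            map_mul' := ?_
            map_zero' := ?_
            map_add' := ?_ }, fun b => rfl⟩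
  · ext <;> simp [h1]
  · intro x y
    ext <;> simp [hmul, mul_comm]
  · ext <;> simp
  · intro x y
    ext <;> simp

end LemmaA

theorem exists_ne_algHom_dualNumber (𝒪 : Type) [CommRing 𝒪] [IsLocalRing 𝒪] {B : Type}
    [CommRing B] [IsLocalRing B] [Algebra 𝒪 B] (hB : GaloisRep.IsArtinianTestAlgebra 𝒪 B)
    (B' : Subalgebra 𝒪 B) (hB' : B' ≠ ⊤) :
    letI := dualAlgebra 𝒪
    ∃ f₁ f₂ : B →ₐ[𝒪] DualNumber (ResidueField 𝒪), f₁ ≠ f₂ ∧ ∀ x ∈ B', f₁ x = f₂ x := by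
  obtain ⟨π, hπ1, hπ2⟩ := LemmaA.exists_proj 𝒪 hB
  obtain ⟨δ, h1, h2, h3, x₀, hx₀⟩ := LemmaA.exists_deriv 𝒪 hB B' hB'
  have hL := LemmaA.leibniz 𝒪 hB B' π hπ1 hπ2 δ h1 h2 h3
  obtain ⟨g₁, hg₁⟩ := LemmaA.exists_ringHom_dual π δ (h2 1 B'.one_mem) hL
  obtain ⟨g₂, hg₂⟩ := LemmaA.exists_ringHom_dual π (0 : B →+ ResidueField 𝒪) rfl
    (fun x y => by simp)
  have hc₁ : ∀ c : 𝒪, g₁ (algebraMap 𝒪 B c) = TrivSqZeroExt.inl (residue 𝒪 c) := by
    intro c
    rw [hg₁, hπ1, h2 _ (B'.algebraMap_mem c)]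
    simp
  have hc₂ : ∀ c : 𝒪, g₂ (algebraMap 𝒪 B c) = TrivSqZeroExt.inl (residue 𝒪 c) := by
    intro c
    rw [hg₂, hπ1]
    simp
  refine ⟨@AlgHom.mk 𝒪 B (DualNumber (ResidueField 𝒪)) _ _ _ _ (dualAlgebra 𝒪) g₁ hc₁,
    @AlgHom.mk 𝒪 B (DualNumber (ResidueField 𝒪)) _ _ _ _ (dualAlgebra 𝒪) g₂ hc₂, ?_, ?_⟩
  · intro h
    apply hx₀
    have h' : g₁ x₀ = g₂ x₀ := DFunLike.congr_fun h x₀
    rw [hg₁, hg₂] at h'
    have h'' := congrArg TrivSqZeroExt.snd h'
    simpa using h''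
  · intro x hx
    show g₁ x = g₂ x
    rw [hg₁, hg₂, h2 x hx]
    simp

end Fermat.Agent.S53
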