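import Mathlib
import Fermat.Agent.S53.Datum
import Fermat.Agent.S53.LemmaA
import Fermat.Agent.S53.Chevalley

set_option autoImplicit false

namespace Fermat.Agent.S53

open IsLocalRing GaloisRep

section

set_option linter.unusedSectionVars false
set_option linter.style.haveILetI false

variable {𝒪 : Type} [CommRing 𝒪] [IsLocalRing 𝒪] [IsNoetherianRing 𝒪]
  [Finite (ResidueField 𝒪)]
  {𝒟 : ∀ ⦃A : Type⦄ [CommRing A] [IsLocalRing A] [Algebra 𝒪 A], GaloisRepAdic A → Prop}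
  {F : Frame 𝒪}

namespace Generation

omit [Finite (ResidueField 𝒪)] in
/-- The entries singled out by a separating family lie in the range of the classifying map. -/
theorem sep_entry_mem_range (D : Datum 𝒟 F) (S : Sep 𝒪 𝒟 F) (s : Fin S.n) :
    D.M (S.gs s) (S.is s) (S.js s) ∈ (D.psi S).range := by
  have h : D.M (S.gs s) (S.is s) (S.js s) =
      D.psi S (MvPowerSeries.X s) + algebraMap 𝒪 D.A (S.c s) := by
    rw [D.psi_X, Datum.val]; ring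
  rw [h]
  exact Subalgebra.add_mem _ ⟨_, rfl⟩ (Subalgebra.algebraMap_mem _ _)

omit [Finite (ResidueField 𝒪)] in
theorem psi_push_apply (h𝒟 : IsDeformationCondition 𝒪 𝒟) (D : Datum 𝒟 F)
    (S : Sep 𝒪 𝒟 F) {B : Type} [CommRing B] [IsLocalRing B] [Algebra 𝒪 B]
    (hB : IsArtinianTestAlgebra 𝒪 B) (f : D.A →ₐ[𝒪] B) (q : PS S) :
    (D.push h𝒟 hB f).psi S q = f (D.psi S q) := by
  rw [D.psi_push h𝒟 S hB f]
  rfl

theorem psi_restrict_apply (h𝒟 : IsDeformationCondition 𝒪 𝒟) (D : Datum 𝒟 F)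
    (S : Sep 𝒪 𝒟 F) (B : Subalgebra 𝒪 D.A) (hB : ∀ σ i j, D.M σ i j ∈ B) (q : PS S) :
    B.val ((D.restrict h𝒟 B hB).psi S q) = D.psi S q :=
  DFunLike.congr_fun (D.val_comp_psi_restrict h𝒟 S B hB) q

theorem psi_restrict_eq_zero_iff (h𝒟 : IsDeformationCondition 𝒪 𝒟) (D : Datum 𝒟 F)
    (S : Sep 𝒪 𝒟 F) (B : Subalgebra 𝒪 D.A) (hB : ∀ σ i j, D.M σ i j ∈ B) (q : PS S) :
    (D.restrict h𝒟 B hB).psi S q = 0 ↔ D.psi S q = 0 := by
  have h1 : B.val ((D.restrict h𝒟 B hB).psi S q) = D.psi S q :=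
    psi_restrict_apply h𝒟 D S B hB q
  constructor
  · intro h0
    have h2 : B.val ((D.restrict h𝒟 B hB).psi S q) = B.val (0 : B) :=
      congrArg (fun x : B => B.val x) h0
    rw [← h1, h2, map_zero]
  · intro h0
    have h2 : B.val ((D.restrict h𝒟 B hB).psi S q) = B.val (0 : B) := by
      rw [h1, h0, map_zero]
    exact Subtype.val_injective h2

theorem psi_prod_eq_zero_iff (h𝒟 : IsDeformationCondition 𝒪 𝒟) (D D' : Datum 𝒟 F)
    (S : Sep 𝒪 𝒟 F) (q : PS S) :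
    (D.prod h𝒟 D').psi S q = 0 ↔ D.psi S q = 0 ∧ D'.psi S q = 0 := by
  have h1 : (fibreProd D.aug D'.aug).val ((D.prod h𝒟 D').psi S q) = (D.psi S q, D'.psi S q) :=
    D.psi_prod h𝒟 D' S q
  constructor
  · intro h0
    have h2 : (fibreProd D.aug D'.aug).val ((D.prod h𝒟 D').psi S q) =
        (fibreProd D.aug D'.aug).val (0 : fibreProd D.aug D'.aug) :=
      congrArg (fun x : fibreProd D.aug D'.aug => (fibreProd D.aug D'.aug).val x) h0
    rw [h1, map_zero] at h2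
    exact ⟨congrArg Prod.fst h2, congrArg Prod.snd h2⟩
  · rintro ⟨h2, h3⟩
    have h4 : (fibreProd D.aug D'.aug).val ((D.prod h𝒟 D').psi S q) =
        (fibreProd D.aug D'.aug).val (0 : fibreProd D.aug D'.aug) := by
      rw [h1, h2, h3, map_zero]
      rfl
    exact Subtype.val_injective h4

/-- Restricting a datum to the range of its classifying map makes the latter surjective and does
not change its kernel. -/
theorem exists_restrict_range (h𝒟 : IsDeformationCondition 𝒪 𝒟) (D₀ : Datum 𝒟 F)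
    (S : Sep 𝒪 𝒟 F) (hB : ∀ σ i j, D₀.M σ i j ∈ (D₀.psi S).range) :
    ∃ D₁ : Datum 𝒟 F, Function.Surjective (D₁.psi S) ∧
      RingHom.ker (D₁.psi S : PS S →+* D₁.A) = RingHom.ker (D₀.psi S : PS S →+* D₀.A) := by
  refine ⟨D₀.restrict h𝒟 (D₀.psi S).range hB, ?_, ?_⟩
  · intro x
    obtain ⟨q, hq⟩ : ∃ q, D₀.psi S q = (D₀.psi S).range.val x := x.2
    refine ⟨q, ?_⟩
    have h1 := psi_restrict_apply h𝒟 D₀ S (D₀.psi S).range hB q
    exact Subtype.val_injective (h1.trans hq)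
  · ext q
    rw [RingHom.mem_ker, RingHom.mem_ker]
    exact psi_restrict_eq_zero_iff h𝒟 D₀ S (D₀.psi S).range hB q

omit [Finite (ResidueField 𝒪)] in
/-- Pushing a datum with surjective classifying map to a quotient. -/
theorem exists_push_quotient (h𝒟 : IsDeformationCondition 𝒪 𝒟) (D₁ : Datum 𝒟 F)
    (S : Sep 𝒪 𝒟 F) (hsurj₁ : Function.Surjective (D₁.psi S)) (𝔠 : Ideal (PS S))
    (h : RingHom.ker (D₁.psi S : PS S →+* D₁.A) ≤ 𝔠) (h𝔠 : 𝔠 ≤ maximalIdeal (PS S)) :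
    ∃ D : Datum 𝒟 F, RingHom.ker (D.psi S : PS S →+* D.A) = 𝔠 ∧
      Function.Surjective (D.psi S) := by
  set I : Ideal D₁.A := 𝔠.map (D₁.psi S : PS S →+* D₁.A) with hIdef
  have hIle : I ≤ maximalIdeal D₁.A := by
    rw [hIdef, Ideal.map_le_iff_le_comap]
    intro q hq
    exact D₁.psi_mem_maximalIdeal S q (h𝔠 hq)
  have hI : I ≠ ⊤ := fun htop =>
    (maximalIdeal.isMaximal D₁.A).ne_top (top_le_iff.mp (htop ▸ hIle))
  have := quotient_isLocalRing I hI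
  have hQ : IsArtinianTestAlgebra 𝒪 (D₁.A ⧸ I) := quotient_isArtinianTestAlgebra D₁.test I hI
  have h1 : ∀ q, (D₁.push h𝒟 hQ (Ideal.Quotient.mkₐ 𝒪 I)).psi S q =
      Ideal.Quotient.mk I (D₁.psi S q) :=
    fun q => psi_push_apply h𝒟 D₁ S hQ (Ideal.Quotient.mkₐ 𝒪 I) q
  refine ⟨D₁.push h𝒟 hQ (Ideal.Quotient.mkₐ 𝒪 I), ?_, ?_⟩
  · ext q
    rw [RingHom.mem_ker]
    have h2 : ((D₁.push h𝒟 hQ (Ideal.Quotient.mkₐ 𝒪 I)).psi S q = 0) ↔ D₁.psi S q ∈ I := by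
      rw [h1]
      exact Ideal.Quotient.eq_zero_iff_mem
    have h3 : D₁.psi S q ∈ I ↔ q ∈ 𝔠 := by
      have hcm := Ideal.comap_map_of_surjective (D₁.psi S : PS S →+* D₁.A) hsurj₁ 𝔠
      have hle : Ideal.comap (D₁.psi S : PS S →+* D₁.A) ⊥ ≤ 𝔠 := by
        rw [← RingHom.ker_eq_comap_bot]
        exact h
      rw [sup_eq_left.mpr hle] at hcm
      constructor
      · intro hq
        have hq' : q ∈ Ideal.comap (D₁.psi S : PS S →+* D₁.A)
            (Ideal.map (D₁.psi S : PS S →+* D₁.A) 𝔠) := hq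
        rwa [hcm] at hq'
      · intro hq
        exact Ideal.mem_map_of_mem _ hq
    exact h2.trans h3
  · intro x
    obtain ⟨y, hy⟩ := Ideal.Quotient.mk_surjective (I := I) x
    obtain ⟨q, rfl⟩ := hsurj₁ y
    exact ⟨q, (h1 q).trans hy⟩

end Generation

/-- If the coefficient ring of a datum is generated by the matrix entries, the classifying map is
surjective. -/
theorem Datum.psi_surjective_of_adjoin_eq_top (h𝒟 : IsDeformationCondition 𝒪 𝒟) (D : Datum 𝒟 F)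
    (S : Sep 𝒪 𝒟 F) (hgen : Algebra.adjoin 𝒪 {x : D.A | ∃ σ i j, D.M σ i j = x} = ⊤) :
    Function.Surjective (D.psi S) := by
  by_contra hns
  have hB' : (D.psi S).range ≠ ⊤ := fun h => hns ((AlgHom.range_eq_top _).mp h)
  letI := dualAlgebra 𝒪
  obtain ⟨f₁, f₂, hne, hagree⟩ := exists_ne_algHom_dualNumber 𝒪 D.test (D.psi S).range hB'
  apply hne
  have hT : IsArtinianTestAlgebra 𝒪 (DualNumber (ResidueField 𝒪)) :=
    isArtinianTestAlgebra_dualNumber 𝒪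
  have hM : (D.push h𝒟 hT f₁).M = (D.push h𝒟 hT f₂).M := by
    refine S.sep _ _ (D.push h𝒟 hT f₁).cont (D.push h𝒟 hT f₂).cont (D.push h𝒟 hT f₁).norm
      (D.push h𝒟 hT f₂).norm (D.push h𝒟 hT f₁).cond (D.push h𝒟 hT f₂).cond ?_
    intro s
    exact hagree _ (Generation.sep_entry_mem_range D S s)
  refine AlgHom.ext_of_adjoin_eq_top hgen ?_
  rintro x ⟨σ, i, j, rfl⟩
  exact congrFun (congrFun (DFunLike.congr_fun hM σ) i) j

/-- Every matrix entry of a datum is in the image of the classifying map. -/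
theorem Datum.entry_mem_range_psi (h𝒟 : IsDeformationCondition 𝒪 𝒟) (D : Datum 𝒟 F)
    (S : Sep 𝒪 𝒟 F) (σ : GalQ) (i j : Fin 2) : D.M σ i j ∈ (D.psi S).range := by
  set B : Subalgebra 𝒪 D.A := Algebra.adjoin 𝒪 {x : D.A | ∃ σ i j, D.M σ i j = x} with hBdef
  have hB : ∀ σ i j, D.M σ i j ∈ B := fun σ i j => Algebra.subset_adjoin ⟨σ, i, j, rfl⟩
  have hgen : Algebra.adjoin 𝒪
      {x : (D.restrict h𝒟 B hB).A | ∃ σ i j, (D.restrict h𝒟 B hB).M σ i j = x} = ⊤ := by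
    have hset : {x : (D.restrict h𝒟 B hB).A | ∃ σ i j, (D.restrict h𝒟 B hB).M σ i j = x} =
        ((↑) ⁻¹' {x : D.A | ∃ σ i j, D.M σ i j = x} : Set B) := by
      ext x
      constructor
      · rintro ⟨σ, i, j, rfl⟩
        exact ⟨σ, i, j, rfl⟩
      · rintro ⟨σ, i, j, h⟩
        exact ⟨σ, i, j, Subtype.ext h⟩
    rw [hset]
    exact Algebra.adjoin_adjoin_coe_preimage
  obtain ⟨q, hq⟩ := (D.restrict h𝒟 B hB).psi_surjective_of_adjoin_eq_top h𝒟 S hgen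
    ((D.restrict h𝒟 B hB).M σ i j)
  refine ⟨q, ?_⟩
  have h1 := Generation.psi_restrict_apply h𝒟 D S B hB q
  have h2 : B.val ((D.restrict h𝒟 B hB).psi S q) = B.val ((D.restrict h𝒟 B hB).M σ i j) :=
    congrArg (fun x : B => B.val x) hq
  exact h1.symm.trans (h2.trans (D.restrict_M h𝒟 B hB σ i j))

/-- Matrix entries of two data are simultaneously hit by the classifying maps. -/
theorem Datum.exists_common (h𝒟 : IsDeformationCondition 𝒪 𝒟) (D D' : Datum 𝒟 F)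
    (S : Sep 𝒪 𝒟 F) (σ : GalQ) (i j : Fin 2) :
    ∃ q : PS S, D.psi S q = D.M σ i j ∧ D'.psi S q = D'.M σ i j := by
  obtain ⟨q, hq⟩ := (D.prod h𝒟 D').entry_mem_range_psi h𝒟 S σ i j
  have hq' : (D.prod h𝒟 D').psi S q = (D.prod h𝒟 D').M σ i j := hq
  have h1 : (fibreProd D.aug D'.aug).val ((D.prod h𝒟 D').psi S q) = (D.psi S q, D'.psi S q) :=
    D.psi_prod h𝒟 D' S q
  have h2 : (fibreProd D.aug D'.aug).val ((D.prod h𝒟 D').psi S q) =
      (fibreProd D.aug D'.aug).val ((D.prod h𝒟 D').M σ i j) :=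
    congrArg (fun x : fibreProd D.aug D'.aug => (fibreProd D.aug D'.aug).val x) hq'
  have h3 : (D.psi S q, D'.psi S q) = (D.M σ i j, D'.M σ i j) :=
    h1.symm.trans (h2.trans (D.prod_M h𝒟 D' σ i j))
  exact ⟨q, congrArg Prod.fst h3, congrArg Prod.snd h3⟩

/-- The set of kernels of classifying maps. -/
def kerSet (S : Sep 𝒪 𝒟 F) : Set (Ideal (PS S)) :=
  {𝔟 | ∃ D : Datum 𝒟 F, RingHom.ker (D.psi S : PS S →+* D.A) = 𝔟}

theorem kerSet_nonempty (h𝒟 : IsDeformationCondition 𝒪 𝒟)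
    (ρbar : ResidualGaloisRep (ResidueField 𝒪)) (hF : F.IsGood ρbar)
    (hbar : 𝒟 (GaloisRepAdic.ofResidualGaloisRep ρbar)) (S : Sep 𝒪 𝒟 F) :
    (kerSet S).Nonempty :=
  ⟨_, Datum.base h𝒟 ρbar hF hbar, rfl⟩

theorem kerSet_inf (h𝒟 : IsDeformationCondition 𝒪 𝒟) (S : Sep 𝒪 𝒟 F) :
    ∀ 𝔞 ∈ kerSet S, ∀ 𝔟 ∈ kerSet S, 𝔞 ⊓ 𝔟 ∈ kerSet S := by
  rintro _ ⟨D, rfl⟩ _ ⟨D', rfl⟩
  refine ⟨D.prod h𝒟 D', ?_⟩
  ext q
  rw [Ideal.mem_inf, RingHom.mem_ker, RingHom.mem_ker, RingHom.mem_ker]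
  exact Generation.psi_prod_eq_zero_iff h𝒟 D D' S q

theorem kerSet_pow (S : Sep 𝒪 𝒟 F) :
    ∀ 𝔞 ∈ kerSet S, ∃ n, maximalIdeal (PS S) ^ n ≤ 𝔞 := by
  rintro _ ⟨D, rfl⟩
  exact D.exists_pow_le_ker_psi S

theorem kerSet_le_maximalIdeal (S : Sep 𝒪 𝒟 F) :
    ∀ 𝔞 ∈ kerSet S, 𝔞 ≤ maximalIdeal (PS S) := by
  rintro _ ⟨D, rfl⟩
  exact D.ker_psi_le_maximalIdeal S

/-- Every proper ideal containing a member of the kernel set is the kernel of a surjective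
classifying map. -/
theorem exists_datum_surjective (h𝒟 : IsDeformationCondition 𝒪 𝒟) (S : Sep 𝒪 𝒟 F)
    (𝔟 : Ideal (PS S)) (h𝔟 : 𝔟 ∈ kerSet S) (𝔠 : Ideal (PS S)) (h : 𝔟 ≤ 𝔠)
    (h𝔠 : 𝔠 ≤ maximalIdeal (PS S)) :
    ∃ D : Datum 𝒟 F, RingHom.ker (D.psi S : PS S →+* D.A) = 𝔠 ∧
      Function.Surjective (D.psi S) := by
  obtain ⟨D₀, rfl⟩ := h𝔟
  obtain ⟨D₁, hsurj₁, hker₁⟩ := Generation.exists_restrict_range h𝒟 D₀ S
    (fun σ i j => D₀.entry_mem_range_psi h𝒟 S σ i j)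
  exact Generation.exists_push_quotient h𝒟 D₁ S hsurj₁ 𝔠 (hker₁ ▸ h) h𝔠

/-- The truncations of the intersection of the kernel set are kernels of surjective classifying
maps. -/
theorem exists_datum_level [IsAdicComplete (maximalIdeal 𝒪) 𝒪]
    (h𝒟 : IsDeformationCondition 𝒪 𝒟) (ρbar : ResidualGaloisRep (ResidueField 𝒪))
    (hF : F.IsGood ρbar) (hbar : 𝒟 (GaloisRepAdic.ofResidualGaloisRep ρbar)) (S : Sep 𝒪 𝒟 F)
    (n : ℕ) :
    ∃ D : Datum 𝒟 F, RingHom.ker (D.psi S : PS S →+* D.A) =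
        sInf (kerSet S) ⊔ maximalIdeal (PS S) ^ (n + 1) ∧
      Function.Surjective (D.psi S) := by
  have : IsAdicComplete (maximalIdeal (PS S)) (PS S) :=
    mvPowerSeries_isAdicComplete (Fin S.n) 𝒪
  obtain ⟨𝔟, h𝔟, hle⟩ := chevalley_directed (kerSet S) (kerSet_nonempty h𝒟 ρbar hF hbar S)
    (kerSet_inf h𝒟 S) (kerSet_pow S) (n + 1)
  refine exists_datum_surjective h𝒟 S 𝔟 h𝔟 _ hle (sup_le ?_ ?_)
  · exact (sInf_le h𝔟).trans (kerSet_le_maximalIdeal S 𝔟 h𝔟)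
  · exact Ideal.pow_le_self (Nat.succ_ne_zero n)

end

end Fermat.Agent.S53
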