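import Mathlib

set_option autoImplicit false

namespace Fermat.Agent.S53

namespace Limit

/-- In an `I`-adically separated ring, an element lying in all `ker (p n) = I ^ (n + 1)` is `0`. -/
theorem eq_of_forall_map_eq {R : Type*} [CommRing R] (I : Ideal R) [IsAdicComplete I R]
    {A : ℕ → Type*} [∀ n, CommRing (A n)] (p : ∀ n, R →+* A n)
    (hker : ∀ n, RingHom.ker (p n) = I ^ (n + 1)) {x y : R} (h : ∀ n, p n x = p n y) :
    x = y := by
  rw [← sub_eq_zero]
  refine IsHausdorff.haus (inferInstance : IsHausdorff I R) (x - y) fun n => ?_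
  rw [SModEq.zero, smul_eq_mul, Ideal.mul_top]
  have hmem : x - y ∈ I ^ (n + 1) := by
    rw [← hker n, RingHom.mem_ker, map_sub, h n, sub_self]
  exact Ideal.pow_le_pow_right (Nat.le_succ n) hmem

/-- A compatible family of elements of the quotients lifts to the complete ring. -/
theorem exists_lift {R : Type*} [CommRing R] (I : Ideal R) [IsAdicComplete I R]
    {A : ℕ → Type*} [∀ n, CommRing (A n)] (p : ∀ n, R →+* A n)
    (hp : ∀ n, Function.Surjective (p n)) (hker : ∀ n, RingHom.ker (p n) = I ^ (n + 1))
    (a : ∀ n, A n) (hcompat : ∀ n (r : R), p (n + 1) r = a (n + 1) → p n r = a n) :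
    ∃ L : R, ∀ n, p n L = a n := by
  choose f hf using fun n => hp n (a n)
  -- `f (n+1) ≡ f n` modulo `I ^ (n + 1)`
  have hstep : ∀ n, f (n + 1) - f n ∈ I ^ (n + 1) := by
    intro n
    rw [← hker n, RingHom.mem_ker, map_sub, hcompat n (f (n + 1)) (hf (n + 1)), hf n, sub_self]
  have hmono : ∀ m n, m ≤ n → f n - f m ∈ I ^ (m + 1) := by
    intro m n hmn
    induction n, hmn using Nat.le_induction with
    | base => simp
    | succ n hmn ih =>
      have h1 : f (n + 1) - f m = (f (n + 1) - f n) + (f n - f m) := by ring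
      rw [h1]
      exact Ideal.add_mem _ (Ideal.pow_le_pow_right (Nat.succ_le_succ hmn) (hstep n)) ih
  obtain ⟨L, hL⟩ := IsPrecomplete.prec (inferInstance : IsPrecomplete I R) (f := f) (by
    intro m n hmn
    rw [SModEq.sub_mem, smul_eq_mul, Ideal.mul_top]
    have := hmono m n hmn
    have h2 : f m - f n = -(f n - f m) := by ring
    rw [h2]
    exact Ideal.neg_mem_iff _ |>.mpr (Ideal.pow_le_pow_right (Nat.le_succ m) this))
  refine ⟨L, fun n => ?_⟩
  have h1 := hL (n + 1)
  rw [SModEq.sub_mem, smul_eq_mul, Ideal.mul_top] at h1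
  have h2 : L - f n ∈ I ^ (n + 1) := by
    have h3 : L - f n = -(f (n + 1) - L) + (f (n + 1) - f n) := by ring
    rw [h3]
    exact Ideal.add_mem _ (Ideal.neg_mem_iff _ |>.mpr h1) (hstep n)
  rw [← hker n, RingHom.mem_ker, map_sub, sub_eq_zero] at h2
  rw [h2, hf n]

end Limit

/-- Gluing a compatible system of matrix representations over the quotients of an adically
complete ring into a representation over the ring itself. -/
theorem exists_limit_monoidHom {R : Type*} [CommRing R] (I : Ideal R) [IsAdicComplete I R]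
    {A : ℕ → Type*} [∀ n, CommRing (A n)] (p : ∀ n, R →+* A n)
    (hp : ∀ n, Function.Surjective (p n)) (hker : ∀ n, RingHom.ker (p n) = I ^ (n + 1))
    {G : Type*} [Monoid G] (N : ∀ n, G →* Matrix (Fin 2) (Fin 2) (A n))
    (hcompat : ∀ n g i j (r : R), p (n + 1) r = N (n + 1) g i j → p n r = N n g i j) :
    ∃ M : G →* Matrix (Fin 2) (Fin 2) R, ∀ n g, (M g).map (p n) = N n g := by
  choose L hL using fun (g : G) (i j : Fin 2) =>
    Limit.exists_lift I p hp hker (fun n => N n g i j) (fun n r => hcompat n g i j r)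
  have hmap : ∀ n g, (Matrix.of (L g)).map (p n) = N n g := by
    intro n g
    ext i j
    simp [hL g i j n]
  refine ⟨{ toFun := fun g => Matrix.of (L g), map_one' := ?_, map_mul' := ?_ }, hmap⟩
  · ext i j
    refine Limit.eq_of_forall_map_eq I p hker fun n => ?_
    have h1 := congrFun (congrFun (hmap n 1) i) j
    rw [Matrix.map_apply] at h1
    rw [h1, map_one, Matrix.one_apply, Matrix.one_apply]
    split_ifs <;> simp
  · intro g h
    ext i j
    refine Limit.eq_of_forall_map_eq I p hker fun n => ?_
    have h1 := congrFun (congrFun (hmap n (g * h)) i) j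
    rw [Matrix.map_apply] at h1
    have h2 : ((Matrix.of (L g) * Matrix.of (L h)).map (p n)) i j = (N n g * N n h) i j := by
      rw [Matrix.map_mul, hmap n g, hmap n h]
    rw [Matrix.map_apply] at h2
    rw [h1, h2, map_mul]

end Fermat.Agent.S53
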