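import Mathlib
import Fermat.Agent.S53.Generation
import Fermat.Agent.S53.Limit
import Fermat.Prelude.Thm_IsLocalRing_isAdicComplete_of_module_finite

set_option autoImplicit false

namespace Fermat.Agent.S53

open IsLocalRing GaloisRep

section

variable {𝒪 : Type} [CommRing 𝒪] [IsLocalRing 𝒪] [IsNoetherianRing 𝒪]
  [Finite (ResidueField 𝒪)]
  {𝒟 : ∀ ⦃A : Type⦄ [CommRing A] [IsLocalRing A] [Algebra 𝒪 A], GaloisRepAdic A → Prop}
  {F : Frame 𝒪}

/-- The output of the construction of the universal deformation ring: a quotient `R` of the power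
series ring by the intersection of the kernel set, realised as the limit of coefficient rings of
data `D n`, with a matrix representation reducing to those of the `D n`. -/
structure Univ (S : Sep 𝒪 𝒟 F) where
  /-- the ring -/
  R : Type
  [commRing : CommRing R]
  [isLocalRing : IsLocalRing R]
  [isNoetherianRing : IsNoetherianRing R]
  [isAdicComplete : IsAdicComplete (maximalIdeal R) R]
  [algebra : Algebra 𝒪 R]
  /-- its augmentation -/
  aug : R →ₐ[𝒪] ResidueField 𝒪
  /-- the presentation by the power series ring -/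
  pres : PS S →ₐ[𝒪] R
  pres_surjective : Function.Surjective pres
  ker_pres : RingHom.ker (pres : PS S →+* R) = sInf (kerSet S)
  /-- the data over the truncations -/
  D : ℕ → Datum 𝒟 F
  /-- the truncation maps -/
  p : ∀ n, R →ₐ[𝒪] (D n).A
  p_surjective : ∀ n, Function.Surjective (p n)
  ker_p : ∀ n, RingHom.ker (p n : R →+* (D n).A) = maximalIdeal R ^ (n + 1)
  p_comp_pres : ∀ n, (p n).comp pres = (D n).psi S
  /-- the universal matrix representation -/
  M : GalQ →* Matrix (Fin 2) (Fin 2) R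
  p_M : ∀ n σ i j, p n (M σ i j) = (D n).M σ i j

attribute [instance] Univ.commRing Univ.isLocalRing Univ.isNoetherianRing Univ.isAdicComplete
  Univ.algebra

/-- The construction. -/
theorem nonempty_univ [IsAdicComplete (maximalIdeal 𝒪) 𝒪]
    (h𝒟 : IsDeformationCondition 𝒪 𝒟) (ρbar : ResidualGaloisRep (ResidueField 𝒪))
    (hF : F.IsGood ρbar) (hbar : 𝒟 (GaloisRepAdic.ofResidualGaloisRep ρbar)) (S : Sep 𝒪 𝒟 F) :
    Nonempty (Univ S) := by
  classical
  -- the ideal and its basic properties
  set I : Ideal (PS S) := sInf (kerSet S) with hIdef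
  have hImax : I ≤ maximalIdeal (PS S) := by
    obtain ⟨𝔞, h𝔞⟩ := kerSet_nonempty h𝒟 ρbar hF hbar S
    exact (sInf_le h𝔞).trans (kerSet_le_maximalIdeal S 𝔞 h𝔞)
  have hItop : I ≠ ⊤ := fun h =>
    (maximalIdeal.isMaximal (PS S)).ne_top (top_le_iff.mp (h ▸ hImax))
  -- the quotient ring
  have hloc : IsLocalRing (PS S ⧸ I) := quotient_isLocalRing I hItop
  have hcomplPS : IsAdicComplete (maximalIdeal (PS S)) (PS S) :=
    mvPowerSeries_isAdicComplete (Fin S.n) 𝒪
  have hmk : Function.Surjective (Ideal.Quotient.mk I) := Ideal.Quotient.mk_surjective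
  have hlochom : IsLocalHom (algebraMap (PS S) (PS S ⧸ I)) :=
    IsLocalHom.of_surjective (Ideal.Quotient.mk I) hmk
  have hcompl : IsAdicComplete (maximalIdeal (PS S ⧸ I)) (PS S ⧸ I) :=
    IsLocalRing.isAdicComplete_of_module_finite (𝒪 := PS S) (T := PS S ⧸ I)
  have hmapmax : (maximalIdeal (PS S)).map (Ideal.Quotient.mk I) = maximalIdeal (PS S ⧸ I) :=
    IsLocalRing.map_maximalIdeal_of_surjective (Ideal.Quotient.mk I) hmk
  -- the augmentation
  let π₀ : PS S →ₐ[𝒪] ResidueField 𝒪 :=
    Fermat.Agent.S53.aug 𝒪 (mvPowerSeries_isLocalHom_algebraMap (Fin S.n) 𝒪)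
      (mvPowerSeries_residue_surjective (Fin S.n) 𝒪)
  let π : (PS S ⧸ I) →ₐ[𝒪] ResidueField 𝒪 := TestAlg.quotientAug π₀ I hItop
  -- the data over the truncations
  choose D hDker hDsurj using fun n : ℕ => exists_datum_level h𝒟 ρbar hF hbar S n
  have hDI : ∀ n, ∀ a ∈ I, (D n).psi S a = 0 := by
    intro n a ha
    have h1 : a ∈ RingHom.ker ((D n).psi S : PS S →+* (D n).A) := by
      rw [hDker n]
      exact Ideal.mem_sup_left ha
    exact h1
  let p : ∀ n, (PS S ⧸ I) →ₐ[𝒪] (D n).A := fun n => Ideal.Quotient.liftₐ I ((D n).psi S) (hDI n)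
  have hpmk : ∀ n (q : PS S), p n (Ideal.Quotient.mk I q) = (D n).psi S q := fun n q => rfl
  have hpsurj : ∀ n, Function.Surjective (p n) := by
    intro n y
    obtain ⟨q, rfl⟩ := hDsurj n y
    exact ⟨Ideal.Quotient.mk I q, hpmk n q⟩
  have hkerp : ∀ n, RingHom.ker (p n : (PS S ⧸ I) →+* (D n).A) =
      maximalIdeal (PS S ⧸ I) ^ (n + 1) := by
    intro n
    have h1 : RingHom.ker (p n : (PS S ⧸ I) →+* (D n).A) =
        (RingHom.ker ((D n).psi S : PS S →+* (D n).A)).map (Ideal.Quotient.mk I) := by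
      ext x
      obtain ⟨q, rfl⟩ := hmk x
      rw [Ideal.mem_map_iff_of_surjective _ hmk]
      constructor
      · intro hx
        exact ⟨q, hx, rfl⟩
      · rintro ⟨q', hq', hqq'⟩
        rw [RingHom.mem_ker]
        change p n (Ideal.Quotient.mk I q) = 0
        rw [← hqq']
        exact hq'
    rw [h1, hDker n, Ideal.map_sup, Ideal.map_quotient_self, bot_sup_eq, Ideal.map_pow, hmapmax]
  -- the matrix representation
  have hcompat : ∀ n g i j (r : PS S ⧸ I),
      (p (n + 1) : (PS S ⧸ I) →+* (D (n + 1)).A) r = (D (n + 1)).M g i j →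
        (p n : (PS S ⧸ I) →+* (D n).A) r = (D n).M g i j := by
    intro n g i j r hr
    obtain ⟨q, hq1, hq2⟩ := Datum.exists_common h𝒟 (D (n + 1)) (D n) S g i j
    have h1 : r - Ideal.Quotient.mk I q ∈
        RingHom.ker (p (n + 1) : (PS S ⧸ I) →+* (D (n + 1)).A) := by
      rw [RingHom.mem_ker, map_sub, hr]
      change (D (n + 1)).M g i j - p (n + 1) (Ideal.Quotient.mk I q) = 0
      rw [hpmk, hq1, sub_self]
    rw [hkerp (n + 1)] at h1
    have h2 : r - Ideal.Quotient.mk I q ∈ RingHom.ker (p n : (PS S ⧸ I) →+* (D n).A) := by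
      rw [hkerp n]
      exact Ideal.pow_le_pow_right (Nat.le_succ (n + 1)) h1
    rw [RingHom.mem_ker, map_sub, sub_eq_zero] at h2
    rw [h2]
    change p n (Ideal.Quotient.mk I q) = _
    rw [hpmk, hq2]
  obtain ⟨M, hM⟩ := exists_limit_monoidHom (maximalIdeal (PS S ⧸ I))
    (fun n => (p n : (PS S ⧸ I) →+* (D n).A)) hpsurj hkerp (fun n => (D n).M) hcompat
  exact ⟨{ R := PS S ⧸ I
           isLocalRing := hloc
           isAdicComplete := hcompl
           aug := π
           pres := Ideal.Quotient.mkₐ 𝒪 I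
           pres_surjective := Ideal.Quotient.mkₐ_surjective 𝒪 I
           ker_pres := Ideal.Quotient.mkₐ_ker 𝒪 I
           D := D
           p := p
           p_surjective := hpsurj
           ker_p := hkerp
           p_comp_pres := fun n => Ideal.Quotient.liftₐ_comp I ((D n).psi S) (hDI n)
           M := M
           p_M := fun n σ i j => by
             have := congrArg (fun N : Matrix (Fin 2) (Fin 2) (D n).A => N i j) (hM n σ)
             simpa using this }⟩

end

end Fermat.Agent.S53
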