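import Mathlib
import Fermat.Agent.S53.Construction

set_option autoImplicit false

namespace Fermat.Agent.S53

open IsLocalRing GaloisRep

section

variable {𝒪 : Type} [CommRing 𝒪] [IsLocalRing 𝒪] [IsNoetherianRing 𝒪]
  [Finite (ResidueField 𝒪)]
  {𝒟 : ∀ ⦃A : Type⦄ [CommRing A] [IsLocalRing A] [Algebra 𝒪 A], GaloisRepAdic A → Prop}
  {F : Frame 𝒪} {S : Sep 𝒪 𝒟 F}

theorem Univ.isLocalHom_algebraMap (U : Univ S) : IsLocalHom (algebraMap 𝒪 U.R) :=
  isLocalHom_algebraMap_of_aug U.aug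

theorem Univ.residue_surjective (U : Univ S) :
    Function.Surjective (residue U.R ∘ algebraMap 𝒪 U.R) :=
  residue_surjective_of_aug U.aug

/-- Elements of `R` are determined by their images in all truncations. -/
theorem Univ.eq_of_forall_p_eq (U : Univ S) (x y : U.R) (h : ∀ n, U.p n x = U.p n y) :
    x = y :=
  Limit.eq_of_forall_map_eq (maximalIdeal U.R) (fun n => (U.p n : U.R →+* (U.D n).A)) U.ker_p h

theorem Univ.pres_X (U : Univ S) (s : Fin S.n) :
    U.pres (MvPowerSeries.X s) = U.M (S.gs s) (S.is s) (S.js s) - algebraMap 𝒪 U.R (S.c s) := by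
  refine U.eq_of_forall_p_eq _ _ fun n => ?_
  have h1 : U.p n (U.pres (MvPowerSeries.X s)) = (U.D n).psi S (MvPowerSeries.X s) := by
    rw [← U.p_comp_pres n]; rfl
  rw [h1, Datum.psi_X, Datum.val, map_sub, U.p_M, AlgHom.commutes]

theorem Univ.matCont (U : Univ S) : MatCont U.M := by
  intro n
  cases n with
  | zero =>
    refine ⟨⊥, inferInstance, fun σ _ i j => ?_⟩
    simp
  | succ m =>
    obtain ⟨L, hL, h⟩ := (matCont_iff_of_test (U.D m).test (U.D m).M).mp (U.D m).cont
    refine ⟨L, hL, fun σ hσ i j => ?_⟩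
    rw [← U.ker_p m, RingHom.mem_ker]
    have h1 : U.p m ((U.M σ - 1) i j) = ((U.D m).M σ - 1) i j := by
      rw [Matrix.sub_apply, Matrix.sub_apply, map_sub, U.p_M, Matrix.one_apply, Matrix.one_apply]
      split_ifs <;> simp
    show U.p m ((U.M σ - 1) i j) = 0
    rw [h1, h σ hσ, sub_self, Matrix.zero_apply]

theorem Univ.isNormLift (U : Univ S) : F.IsNormLift U.M := by
  refine ⟨?_, ?_, ?_, ?_⟩
  · rw [isLift_iff_map_aug U.aug]
    intro σ i j
    have h : U.aug = (U.D 0).aug.comp (U.p 0) := algHom_residueField_unique _ _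
    rw [h, AlgHom.comp_apply, U.p_M, Datum.aug_M]
  · refine U.eq_of_forall_p_eq _ _ fun n => ?_
    rw [U.p_M, map_zero]
    exact (U.D n).norm.2.1
  · refine U.eq_of_forall_p_eq _ _ fun n => ?_
    rw [U.p_M, map_one]
    exact (U.D n).norm.2.2.1
  · refine U.eq_of_forall_p_eq _ _ fun n => ?_
    rw [U.p_M, AlgHom.commutes]
    exact (U.D n).norm.2.2.2

/-- The universal representation is of type `𝒟`. -/
theorem Univ.cond (h𝒟 : IsDeformationCondition 𝒪 𝒟) (U : Univ S) :
    𝒟 (ofMatrix U.M U.matCont) := by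
  rw [h𝒟.iff_forall_surjective U.isLocalHom_algebraMap U.residue_surjective]
  intro B _ _ _ hB q hq hqsurj
  obtain ⟨N, hN⟩ := isNilpotent_maximalIdeal_of_test hB
  have hmap : (maximalIdeal U.R).map (q : U.R →+* B) ≤ maximalIdeal B :=
    Ideal.map_le_iff_le_comap.mpr fun a ha =>
      Ideal.mem_comap.mpr (haveI := hq; map_nonunit (q : U.R →+* B) a ha)
  have hker : RingHom.ker (U.p N).toRingHom ≤ RingHom.ker q.toRingHom := by
    intro x hx
    have hx' : x ∈ maximalIdeal U.R ^ (N + 1) := by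
      rw [← U.ker_p N]; exact hx
    have hx'' : x ∈ maximalIdeal U.R ^ N := Ideal.pow_le_pow_right (Nat.le_succ N) hx'
    have h1 : (q : U.R →+* B) x ∈ (maximalIdeal U.R ^ N).map (q : U.R →+* B) :=
      Ideal.mem_map_of_mem _ hx''
    rw [Ideal.map_pow] at h1
    have h2 : (q : U.R →+* B) x ∈ maximalIdeal B ^ N := Ideal.pow_right_mono hmap N h1
    rw [hN] at h2
    exact h2
  let qbar : (U.D N).A →ₐ[𝒪] B := AlgHom.liftOfSurjective (U.p N) (U.p_surjective N) q hker
  have hqbar : ∀ x, qbar (U.p N x) = q x := fun x => AlgHom.liftOfSurjective_apply _ _ _ _ x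
  have hM' : MatCont (mapHom (q : U.R →+* B) U.M) := U.matCont.map _ hq
  have heq : mapHom (qbar : (U.D N).A →+* B) (U.D N).M = mapHom (q : U.R →+* B) U.M := by
    ext σ i j
    rw [mapHom_apply, mapHom_apply, Matrix.map_apply, Matrix.map_apply, ← U.p_M N]
    exact hqbar _
  have h1 : 𝒟 (ofMatrix (mapHom (q : U.R →+* B) U.M) hM') := by
    have h2 := ((U.D N).push h𝒟 hB qbar).cond
    have h3 : ofMatrix ((U.D N).push h𝒟 hB qbar).M ((U.D N).push h𝒟 hB qbar).cont =
        ofMatrix (mapHom (q : U.R →+* B) U.M) hM' := ofMatrix_congr heq _ _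
    rw [h3] at h2
    exact h2
  exact h𝒟.of_isEquiv hB (isEquiv_symm
    (baseChangeAlong_ofMatrix_isEquiv (q : U.R →+* B) hq U.M U.matCont hM')) h1

end

end Fermat.Agent.S53
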