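import Mathlib
import Fermat.Agent.S53.UnivProps

set_option autoImplicit false

namespace Fermat.Agent.S53

open IsLocalRing GaloisRep

section

variable {𝒪 : Type} [CommRing 𝒪] [IsLocalRing 𝒪] [IsNoetherianRing 𝒪]
  [Finite (ResidueField 𝒪)]
  {𝒟 : ∀ ⦃A : Type⦄ [CommRing A] [IsLocalRing A] [Algebra 𝒪 A], GaloisRepAdic A → Prop}
  {F : Frame 𝒪} {S : Sep 𝒪 𝒟 F}

omit [IsNoetherianRing 𝒪] [Finite (ResidueField 𝒪)] in
/-- The truncations of a normalised lift over a complete Noetherian local algebra, all of whose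
Artinian quotients are of type `𝒟`, are data. -/
theorem Universal.exists_trunc {A : Type} [CommRing A]
    [IsLocalRing A] [IsNoetherianRing A] [Algebra 𝒪 A]
    (π : A →ₐ[𝒪] ResidueField 𝒪) (M : GalQ →* Matrix (Fin 2) (Fin 2) A) (hM : MatCont M)
    (hnorm : F.IsNormLift M)
    (hcond : ∀ (B : Type) [CommRing B] [IsLocalRing B] [Algebra 𝒪 B],
      IsArtinianTestAlgebra 𝒪 B → ∀ (f : A →ₐ[𝒪] B), Function.Surjective f →
      ∀ hM' : MatCont (mapHom (f : A →+* B) M), 𝒟 (ofMatrix (mapHom (f : A →+* B) M) hM'))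
    (n : ℕ) :
    ∃ (E : Datum 𝒟 F) (q : A →ₐ[𝒪] E.A), Function.Surjective q ∧
      RingHom.ker (q : A →+* E.A) = maximalIdeal A ^ (n + 1) ∧
      ∀ σ i j, E.M σ i j = q (M σ i j) := by
  have hne : maximalIdeal A ^ (n + 1) ≠ ⊤ := maximalIdeal_pow_succ_ne_top n
  have hloc : IsLocalRing (A ⧸ maximalIdeal A ^ (n + 1)) := quotient_isLocalRing _ hne
  have htest : IsArtinianTestAlgebra 𝒪 (A ⧸ maximalIdeal A ^ (n + 1)) :=
    quotient_pow_isArtinianTestAlgebra π n hne
  let q : A →ₐ[𝒪] (A ⧸ maximalIdeal A ^ (n + 1)) :=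
    Ideal.Quotient.mkₐ 𝒪 (maximalIdeal A ^ (n + 1))
  have hq : Function.Surjective q := Ideal.Quotient.mkₐ_surjective 𝒪 _
  have hqloc : IsLocalHom (q : A →+* (A ⧸ maximalIdeal A ^ (n + 1))) :=
    isLocalHom_of_algHom (aug 𝒪 htest.isLocalHom htest.residue_surjective) q
  have hcont : MatCont (mapHom (q : A →+* (A ⧸ maximalIdeal A ^ (n + 1))) M) :=
    hM.map _ hqloc
  exact ⟨{ A := A ⧸ maximalIdeal A ^ (n + 1)
           isLocalRing := hloc
           test := htest
           M := mapHom (q : A →+* (A ⧸ maximalIdeal A ^ (n + 1))) M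
           cont := hcont
           norm := hnorm.map q hqloc
           cond := hcond _ htest q hq hcont }, q, hq, Ideal.Quotient.mkₐ_ker 𝒪 _,
    fun σ i j => rfl⟩

/-- Existence in the universal property, in matrix form. -/
theorem Univ.exists_hom (h𝒟 : IsDeformationCondition 𝒪 𝒟) (U : Univ S) {A : Type} [CommRing A]
    [IsLocalRing A] [IsNoetherianRing A] [IsAdicComplete (maximalIdeal A) A] [Algebra 𝒪 A]
    (π : A →ₐ[𝒪] ResidueField 𝒪) (M : GalQ →* Matrix (Fin 2) (Fin 2) A) (hM : MatCont M)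
    (hnorm : F.IsNormLift M)
    (hcond : ∀ (B : Type) [CommRing B] [IsLocalRing B] [Algebra 𝒪 B],
      IsArtinianTestAlgebra 𝒪 B → ∀ (f : A →ₐ[𝒪] B), Function.Surjective f →
      ∀ hM' : MatCont (mapHom (f : A →+* B) M), 𝒟 (ofMatrix (mapHom (f : A →+* B) M) hM')) :
    ∃ φ : U.R →ₐ[𝒪] A, ∀ σ i j, φ (U.M σ i j) = M σ i j := by
  classical
  -- the truncations of `A`
  choose E q hqsurj hqker hqM using Universal.exists_trunc π M hM hnorm hcond
  -- the maps `R → E n`
  have hkerle : ∀ n, RingHom.ker U.pres.toRingHom ≤ RingHom.ker ((E n).psi S).toRingHom := by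
    intro n
    have h1 : RingHom.ker U.pres.toRingHom = sInf (kerSet S) := U.ker_pres
    rw [h1]
    exact sInf_le ⟨E n, rfl⟩
  let φn : ∀ n, U.R →ₐ[𝒪] (E n).A := fun n =>
    AlgHom.liftOfSurjective U.pres U.pres_surjective ((E n).psi S) (hkerle n)
  have hφn : ∀ n (x : PS S), φn n (U.pres x) = (E n).psi S x := fun n x =>
    AlgHom.liftOfSurjective_apply U.pres U.pres_surjective ((E n).psi S) (hkerle n) x
  -- the transition maps
  have hkerq : ∀ n, RingHom.ker (q (n + 1)).toRingHom ≤ RingHom.ker (q n).toRingHom := by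
    intro n
    have h1 : RingHom.ker (q (n + 1)).toRingHom = maximalIdeal A ^ (n + 1 + 1) := hqker (n + 1)
    have h2 : RingHom.ker (q n).toRingHom = maximalIdeal A ^ (n + 1) := hqker n
    rw [h1, h2]
    exact Ideal.pow_le_pow_right (Nat.le_succ (n + 1))
  let τ : ∀ n, (E (n + 1)).A →ₐ[𝒪] (E n).A := fun n =>
    AlgHom.liftOfSurjective (q (n + 1)) (hqsurj (n + 1)) (q n) (hkerq n)
  have hτ : ∀ n (a : A), τ n (q (n + 1) a) = q n a := fun n a =>
    AlgHom.liftOfSurjective_apply (q (n + 1)) (hqsurj (n + 1)) (q n) (hkerq n) a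
  have hτψ : ∀ n, (τ n).comp ((E (n + 1)).psi S) = (E n).psi S := by
    intro n
    refine (E n).psi_unique S _ fun s => ?_
    rw [AlgHom.comp_apply, Datum.psi_X, Datum.val, Datum.val, map_sub, AlgHom.commutes, hqM,
      hqM, hτ]
  have hτφ : ∀ n (r : U.R), τ n (φn (n + 1) r) = φn n r := by
    intro n r
    obtain ⟨x, rfl⟩ := U.pres_surjective r
    rw [hφn, hφn, ← hτψ n]
    rfl
  -- the limit
  have hlift : ∀ r : U.R, ∃ a : A, ∀ n, (q n : A →+* (E n).A) a = φn n r := by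
    intro r
    refine Limit.exists_lift (maximalIdeal A) (fun n => (q n : A →+* (E n).A)) hqsurj hqker
      (fun n => φn n r) fun n a ha => ?_
    change q (n + 1) a = φn (n + 1) r at ha
    change q n a = φn n r
    rw [← hτ, ha, hτφ]
  choose φ hφ using hlift
  have hφ' : ∀ r n, q n (φ r) = φn n r := hφ
  have huniq : ∀ {x y : A}, (∀ n, q n x = q n y) → x = y := fun {x y} hxy =>
    Limit.eq_of_forall_map_eq (maximalIdeal A) (fun n => (q n : A →+* (E n).A)) hqker hxy
  let Φ : U.R →ₐ[𝒪] A :=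
    { toFun := φ
      map_one' := huniq fun n => by rw [hφ', map_one, map_one]
      map_mul' := fun x y => huniq fun n => by rw [hφ', map_mul, map_mul, hφ', hφ']
      map_zero' := huniq fun n => by rw [hφ', map_zero, map_zero]
      map_add' := fun x y => huniq fun n => by rw [hφ', map_add, map_add, hφ', hφ']
      commutes' := fun o => huniq fun n => by rw [hφ', AlgHom.commutes, AlgHom.commutes] }
  refine ⟨Φ, fun σ i j => huniq fun n => ?_⟩
  change q n (φ (U.M σ i j)) = q n (M σ i j)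
  rw [hφ', ← hqM]
  -- `φn n` kills the `(n + 1)`-st power of the maximal ideal of `U.R`
  have hloc : IsLocalHom ((φn n : U.R →ₐ[𝒪] (E n).A) : U.R →+* (E n).A) :=
    isLocalHom_of_algHom (E n).aug (φn n)
  have hmaxE : maximalIdeal (E n).A ^ (n + 1) = ⊥ := by
    have h1 : (maximalIdeal A).map (q n : A →+* (E n).A) = maximalIdeal (E n).A :=
      IsLocalRing.map_maximalIdeal_of_surjective (q n : A →+* (E n).A) (hqsurj n)
    rw [← h1, ← Ideal.map_pow, ← hqker n]
    exact Ideal.map_comap_of_surjective _ (hqsurj n) ⊥ ▸ rfl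
  have hkill : ∀ r ∈ maximalIdeal U.R ^ (n + 1), φn n r = 0 := by
    intro r hr
    have h1 : (φn n : U.R →+* (E n).A) r ∈
        (maximalIdeal U.R ^ (n + 1)).map (φn n : U.R →+* (E n).A) :=
      Ideal.mem_map_of_mem _ hr
    rw [Ideal.map_pow] at h1
    have h2 : (maximalIdeal U.R).map (φn n : U.R →+* (E n).A) ≤ maximalIdeal (E n).A :=
      IsLocalRing.map_maximalIdeal_le _
    have h3 := Ideal.pow_right_mono h2 (n + 1) h1
    rw [hmaxE] at h3
    exact h3
  obtain ⟨x, hx1, hx2⟩ := Datum.exists_common h𝒟 (U.D n) (E n) S σ i j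
  have h4 : U.pres x - U.M σ i j ∈ maximalIdeal U.R ^ (n + 1) := by
    rw [← U.ker_p n, RingHom.mem_ker, map_sub, sub_eq_zero]
    change (U.p n) (U.pres x) = (U.p n) (U.M σ i j)
    rw [U.p_M, ← hx1, ← U.p_comp_pres n]
    rfl
  have h5 := hkill _ h4
  rw [map_sub, sub_eq_zero, hφn] at h5
  rw [← h5, hx2]

/-- Uniqueness in the universal property, in matrix form. -/
theorem Univ.hom_unique (U : Univ S) {A : Type} [CommRing A]
    [IsLocalRing A] [IsNoetherianRing A] [IsAdicComplete (maximalIdeal A) A] [Algebra 𝒪 A]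
    (π : A →ₐ[𝒪] ResidueField 𝒪) (φ φ' : U.R →ₐ[𝒪] A)
    (h : ∀ σ i j, φ (U.M σ i j) = φ' (U.M σ i j)) : φ = φ' := by
  have key : ∀ (n : ℕ) (x : PS S),
      Ideal.Quotient.mk (maximalIdeal A ^ (n + 1)) (φ (U.pres x)) =
        Ideal.Quotient.mk (maximalIdeal A ^ (n + 1)) (φ' (U.pres x)) := by
    intro n
    let I : Ideal (A ⧸ maximalIdeal A ^ (n + 1)) :=
      (maximalIdeal A).map (Ideal.Quotient.mk (maximalIdeal A ^ (n + 1)))
    have hI : IsNilpotent I := by
      refine ⟨n + 1, ?_⟩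
      rw [← Ideal.map_pow, Ideal.map_quotient_self]
      rfl
    have hloc : IsLocalHom ((φ.comp U.pres : PS S →ₐ[𝒪] A) : PS S →+* A) :=
      isLocalHom_of_algHom π (φ.comp U.pres)
    have hext := mvPowerSeries_algHom_ext (Fin S.n) 𝒪 I hI
      ((Ideal.Quotient.mkₐ 𝒪 (maximalIdeal A ^ (n + 1))).comp (φ.comp U.pres))
      ((Ideal.Quotient.mkₐ 𝒪 (maximalIdeal A ^ (n + 1))).comp (φ'.comp U.pres)) ?_ ?_
    · intro x
      exact DFunLike.congr_fun hext x
    · intro s
      refine Ideal.mem_map_of_mem _ ?_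
      exact map_nonunit ((φ.comp U.pres : PS S →ₐ[𝒪] A) : PS S →+* A) _
        (mvPowerSeries_X_mem_maximalIdeal (Fin S.n) 𝒪 s)
    · intro s
      change Ideal.Quotient.mk _ (φ (U.pres (MvPowerSeries.X s))) =
        Ideal.Quotient.mk _ (φ' (U.pres (MvPowerSeries.X s)))
      rw [U.pres_X]
      simp only [map_sub, AlgHom.commutes, h]
  ext r
  obtain ⟨x, rfl⟩ := U.pres_surjective r
  exact Limit.eq_of_forall_map_eq (maximalIdeal A)
    (fun n => Ideal.Quotient.mk (maximalIdeal A ^ (n + 1))) (fun n => Ideal.mk_ker)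
    (fun n => key n x)

end

end Fermat.Agent.S53
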